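import Fermat.Agent.LT.T6.H830.HCSpec

/-!
# Row LT, tower T6, leaf T6.21 `ArchInjC`: a CUT on the frame of T6.29 (helper830)

OFF-MAIN.  Definitions and `Prop`s only.  Frame: `SpecArch.lean` (helper22@7e02b2a11) and
`T6/H830/HCSpec.lean` (the Harish-Chandra transform `hcR`, its Mellin transform `melR`, and
`HCTransRC : sphTransR μ n f s = c · melR f s`, closed in `HCClosed.lean` up to the Iwasawa
formula).  The owner of T6.21 (helper952) may adopt or ignore this cut.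

## The route

Let `f` be a test function of weight `n ∈ {0, ±1}` with `sphTransR μ n f s = 0` for all `s`.
* `melR f s = 0` for all `s` (`HCTransRC`, `c ≠ 0`).
* `melR f s = ∫ e^{r (s + 1/2)} hcZ f r dr`, `hcZ f r = ∫_ζ hcR f ζ r dζ` (Fubini, `MelFubiniC`);
  `hcZ f` is continuous with compact support (`HcZRegC`); so its Fourier transform vanishes and
  `hcZ f = 0` (`FourierUniqC`, Fourier inversion).
* `f (bR ζ r x) = wph n r x · f (bR ζ t 0)` for `cosh t = cosh r + e^r x² / 2`, `t ≥ 0`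
  (Cartan + weight), so `hcZ f r = ∫_x wph n r x · torT f (t(r, x)) dx`,
  `torT f t = ∫_ζ f (bR ζ t 0) dζ` (`HcZFormC`).
* Abel inversion in one variable (`AbelInj1C`): `torT f t = 0` for `t ≥ 0`
  (the imaginary part of `wph` is odd in `x`; `∫ G(ρ₀ + v²) dv = 0` for all `ρ₀ ≥ 1` implies
  `G = 0`:  `∫∫ G(ρ + u² + v²) du dv = π ∫_ρ^∞ G`).
* The central average of `f` at `g = k_α e^{ζ₀/2} a_t k_β` is `(1/2) χ · torT f t`
  (`CentAvgOfTorusC`).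
-/

set_option autoImplicit false

open scoped Matrix
open MeasureTheory

noncomputable section

namespace Fermat.Agent.LT.T6.H830

open Fermat.Agent.LT.T6

/-! ## 1. Definitions -/

/-- The Harish-Chandra transform integrated over the centre: `∫_ζ ∫_x f(e^{ζ/2} a_r n(x))`. -/
def hcZ (f : GL (Fin 2) ℝ → ℂ) (r : ℝ) : ℂ := ∫ ζ : ℝ, hcR f ζ r

/-- The central average on the torus: `∫_ζ f(e^{ζ/2} a_t) dζ`. -/
def torT (f : GL (Fin 2) ℝ → ℂ) (t : ℝ) : ℂ := ∫ ζ : ℝ, f (bR ζ t 0)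

/-- `rhoR (bR ζ r x) = cosh r + e^r x² / 2`. -/
def rhoRX (r x : ℝ) : ℝ := Real.cosh r + Real.exp r * x ^ 2 / 2

/-- `arcosh ρ = log (ρ + √(ρ² - 1))` for `ρ ≥ 1`. -/
def arcosh830 (ρ : ℝ) : ℝ := Real.log (ρ + Real.sqrt (ρ ^ 2 - 1))

/-- The phase `(conj A / |A|)^n` of `bR ζ r x`, `A = holPart = e^{ζ/2} (cosh (r/2) - i e^{r/2} x / 2)`,
`|A|² = e^ζ (rhoRX r x + 1) / 2`. -/
def wph (n : ℤ) (r x : ℝ) : ℂ :=
  ((((Real.cosh (r / 2) : ℝ) : ℂ) + ((Real.exp (r / 2) * x / 2 : ℝ) : ℂ) * Complex.I) /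
    ((Real.sqrt ((rhoRX r x + 1) / 2) : ℝ) : ℂ)) ^ n

/-! ## 2. The leaves -/

/-- **T6.21.1 MEL-FUBINI** (Fubini; `(ζ, r) ↦ hcR f ζ r` is continuous with compact support). -/
def MelFubiniC : Prop :=
  ∀ n : ℤ, IsWt n → ∀ f : GL (Fin 2) ℝ → ℂ, IsArchTestR n f → ∀ s : ℂ,
    melR f s = ∫ r : ℝ, Complex.exp ((r : ℂ) * (s + 1 / 2)) * hcZ f r

/-- **T6.21.2 HCZ-REG**: `hcZ f` is continuous with compact support. -/
def HcZRegC : Prop :=
  ∀ n : ℤ, IsWt n → ∀ f : GL (Fin 2) ℝ → ℂ, IsArchTestR n f →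
    Continuous (hcZ f) ∧ HasCompactSupport (hcZ f)

/-- **T6.21.3 FOURIER-UNIQ** (Mathlib only; Fourier inversion at `s + 1/2 = -2πiξ`). -/
def FourierUniqC : Prop :=
  ∀ H : ℝ → ℂ, Continuous H → HasCompactSupport H →
    (∀ s : ℂ, (∫ r : ℝ, Complex.exp ((r : ℂ) * (s + 1 / 2)) * H r) = 0) → ∀ r : ℝ, H r = 0

/-- **T6.21.4 HCZ-FORM** (Cartan decomposition, weight, Fubini):
`hcZ f r = ∫_x wph n r x · torT f (arcosh (rhoRX r x)) dx`. -/
def HcZFormC : Prop :=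
  CartanRC →
  ∀ n : ℤ, IsWt n → ∀ f : GL (Fin 2) ℝ → ℂ, IsArchTestR n f → ∀ r : ℝ,
    hcZ f r = ∫ x : ℝ, wph n r x * torT f (arcosh830 (rhoRX r x))

/-- **T6.21.5 TORT-REG**: `torT f` is continuous and vanishes for large `t`. -/
def TorTRegC : Prop :=
  ∀ n : ℤ, IsWt n → ∀ f : GL (Fin 2) ℝ → ℂ, IsArchTestR n f →
    Continuous (torT f) ∧ ∃ M : ℝ, ∀ t : ℝ, M < t → torT f t = 0

/-- **T6.21.6 ABEL-INJ-1** (Mathlib only; one-variable Abel inversion, weights `0, ±1`):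
if `T` is continuous, vanishes for large `t`, and
`∫_x wph n r x · T (arcosh (cosh r + e^r x² / 2)) dx = 0` for all `r`, then `T = 0` on `t ≥ 0`. -/
def AbelInj1C : Prop :=
  ∀ n : ℤ, IsWt n → ∀ T : ℝ → ℂ, Continuous T → (∃ M : ℝ, ∀ t : ℝ, M < t → T t = 0) →
    (∀ r : ℝ, (∫ x : ℝ, wph n r x * T (arcosh830 (rhoRX r x))) = 0) →
    ∀ t : ℝ, 0 ≤ t → T t = 0

/-- **T6.21.7 CENT-AVG** (Cartan decomposition, weight, `r = e^{ζ/2}`): the central average of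
`f` vanishes if `torT f` vanishes on `t ≥ 0`. -/
def CentAvgOfTorusC : Prop :=
  CartanRC →
  ∀ n : ℤ, IsWt n → ∀ f : GL (Fin 2) ℝ → ℂ, IsArchTestR n f →
    (∀ t : ℝ, 0 ≤ t → torT f t = 0) →
    ∀ Z : ℝ → GL (Fin 2) ℝ,
      (∀ r : ℝ, 0 < r →
        ((Z r : GL (Fin 2) ℝ) : Matrix (Fin 2) (Fin 2) ℝ) = Matrix.diagonal (fun _ => r)) →
      ∀ g : GL (Fin 2) ℝ, (∫ r in Set.Ioi (0 : ℝ), f (Z r * g) / (r : ℂ)) = 0

end Fermat.Agent.LT.T6.H830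

end
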