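import Mathlib
import Fermat.Agent.LT.T6.SpecArch

/-!
# Row LT, tower T6, leaf T6.29 `ArchSpec` (spectral relation): SUB-SPEC (helper830)

OFF-MAIN.  Definitions and `Prop`s only (no `sorry`, nothing assumed).  Frozen frame:
`Fermat/Agent/LT/T6/SpecArch.lean` (helper22@7e02b2a11, sha256 `003240b2…`), imported verbatim.

## The statement of T6.29

`ArchSpecC` : for Haar measures `μ` of `GL₂(ℝ)`, `μ'` of `GL₂(ℂ)` there is `C ≠ 0` such that for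
every test function `f` of weight `n ∈ {0, ±1}` on `GL₂(ℝ)`, every bi-`U(2)`-invariant test
function `φ` on `GL₂(ℂ)` and every `κ`:  if the Harish-Chandra (Abel) transforms match along the
norm map of the positive torus,

    ∫_ℝ f(γ n(x)) dx = κ ∫_ℂ φ(δ n(w)) dw,   δ = e^{ζ/2} diag(e^{r/2}, e^{-r/2}),  γ = δ δ̄ = δ²,  r ≠ 0,

then `sphTransR μ n f s = C κ · sphTransC μ' φ (2 s)` for all `s ∈ ℂ`.
(The hypothesis is what the geometric matching at the hyperbolic elements gives, T6.25.)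

## Coordinates

`bR ζ r x = e^{ζ/2} [[e^{r/2}, e^{r/2} x], [0, e^{-r/2}]] = e^{ζ/2} a_r n(x)`; the left Haar measure
of the group `B⁺` of these matrices is `dζ dr dx`.  Same for `bC ζ r w`, `w ∈ ℂ`.  The norm map of
the positive torus is `(ζ, r) ↦ (2ζ, 2r)`.

## The cut

    ArchSpecC  ⟸ HCTransRC + HCTransCC + MelSubstC                         (`archSpec_of_leaves830`)
    HCTransRC  ⟸ EisIntRC (SphAvgRC) + EisIwRC (IwasawaIntRC)              (`hcTransR_of_leaves830`)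
    SphAvgRC   ⟸ SphAvgOfC (CartanRC, SphAvgAtC)
    HCTransCC  ⟸ HCTransCOfC (IwasawaIntCC, WIntCC, SphCKernelC, TriFubiniC)
    WIntCC     ⟸ WIntOfC (CartanCC)

`IwasawaIntRC`, `IwasawaIntCC` = the Iwasawa integration formula for right-`K`-invariant
functions (the part of T6.23 used here).

## Why the Props are true

* R-side.  `E(g) = eisR n s g = (det g / (c² + d²))^{s+1/2} ((d + ic)/√(c²+d²))^n` (`(c, d)` the
  second row) satisfies `E(b g k) = e^{r(s+1/2)} E(g) χ_n(k)` and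
  `sphFn n s y = (1/2π) ∫₀^{2π} e^{-inθ} E(k_θ y) dθ` for `det y > 0`: by the Cartan decomposition
  it is enough to take `y = a_t`, `t ≥ 0`, where `c² + d² = cosh t - cos 2θ sinh t` and
  `e^{-iθ}(d + ic) = cosh(t/2) - cos 2θ sinh(t/2) + i sin 2θ sinh(t/2)` (the last term is odd).
  So `∫ f sphFn dμ = ∫ f E dμ` (Fubini, left invariance of `μ`, `f(k⁻¹ y) = χ_n(k) f(y)`), and
  `f E` is right `SO(2)`-invariant: Iwasawa.
* C-side.  `φ(y)` depends on `|det y|` and `rhoC y` only (Cartan), and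
  `rhoC (bC ζ r w) = cosh r + e^r |w|² / 2`; polar coordinates in `w` give
  `∫_ℂ φ(bC ζ r w) Ψ(rhoC) dw = 2π e^{-r} ∫_{u > |r|} φ(bC ζ u 0) Ψ(cosh u) sinh u du`;
  `sphC ν (cosh u) sinh u = (1/2) ∫_{-u}^{u} e^{ρν} dρ`; Fubini on `{|r| < u}` twice.
-/

set_option autoImplicit false

open scoped Matrix
open MeasureTheory

noncomputable section

namespace Fermat.Agent.LT.T6.H830

open Fermat.Agent.LT.T6

/-! ## 1. Coordinates -/

/-- `e^{ζ/2} [[e^{r/2}, e^{r/2} x], [0, e^{-r/2}]]` in `GL₂(ℝ)`. -/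
def bR (ζ r x : ℝ) : GL (Fin 2) ℝ :=
  Matrix.GeneralLinearGroup.mkOfDetNeZero
    !![Real.exp ((ζ + r) / 2), Real.exp ((ζ + r) / 2) * x; 0, Real.exp ((ζ - r) / 2)]
    (by
      rw [Matrix.det_fin_two_of, mul_zero, sub_zero]
      exact mul_ne_zero (Real.exp_ne_zero _) (Real.exp_ne_zero _))

/-- `e^{ζ/2} [[e^{r/2}, e^{r/2} w], [0, e^{-r/2}]]` in `GL₂(ℂ)`. -/
def bC (ζ r : ℝ) (w : ℂ) : GL (Fin 2) ℂ :=
  Matrix.GeneralLinearGroup.mkOfDetNeZero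
    !![((Real.exp ((ζ + r) / 2) : ℝ) : ℂ), ((Real.exp ((ζ + r) / 2) : ℝ) : ℂ) * w;
      0, ((Real.exp ((ζ - r) / 2) : ℝ) : ℂ)]
    (by
      rw [Matrix.det_fin_two_of, mul_zero, sub_zero]
      exact mul_ne_zero (Complex.ofReal_ne_zero.2 (Real.exp_ne_zero _))
        (Complex.ofReal_ne_zero.2 (Real.exp_ne_zero _)))

/-- The rotation `k_θ = [[cos θ, -sin θ], [sin θ, cos θ]]`. -/
def rotR (θ : ℝ) : GL (Fin 2) ℝ :=
  Matrix.GeneralLinearGroup.mkOfDetNeZero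
    !![Real.cos θ, -Real.sin θ; Real.sin θ, Real.cos θ]
    (by
      rw [Matrix.det_fin_two_of]
      have h := Real.cos_sq_add_sin_sq θ
      intro h0
      have h1 : Real.cos θ ^ 2 + Real.sin θ ^ 2 = 0 := by linear_combination h0
      rw [h] at h1
      exact one_ne_zero h1)

theorem coe_bR830 (ζ r x : ℝ) :
    ((bR ζ r x : GL (Fin 2) ℝ) : Matrix (Fin 2) (Fin 2) ℝ)
      = !![Real.exp ((ζ + r) / 2), Real.exp ((ζ + r) / 2) * x; 0, Real.exp ((ζ - r) / 2)] := rfl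

theorem coe_bC830 (ζ r : ℝ) (w : ℂ) :
    ((bC ζ r w : GL (Fin 2) ℂ) : Matrix (Fin 2) (Fin 2) ℂ)
      = !![((Real.exp ((ζ + r) / 2) : ℝ) : ℂ), ((Real.exp ((ζ + r) / 2) : ℝ) : ℂ) * w;
          0, ((Real.exp ((ζ - r) / 2) : ℝ) : ℂ)] := rfl

theorem coe_rotR830 (θ : ℝ) :
    ((rotR θ : GL (Fin 2) ℝ) : Matrix (Fin 2) (Fin 2) ℝ)
      = !![Real.cos θ, -Real.sin θ; Real.sin θ, Real.cos θ] := rfl

/-! ## 2. Harish-Chandra transforms and their Mellin transforms -/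

/-- The Harish-Chandra transform `∫_ℝ f(e^{ζ/2} a_r n(x)) dx` on `GL₂(ℝ)`. -/
def hcR (f : GL (Fin 2) ℝ → ℂ) (ζ r : ℝ) : ℂ := ∫ x : ℝ, f (bR ζ r x)

/-- The Harish-Chandra transform `∫_ℂ φ(e^{ζ/2} a_r n(w)) dw` on `GL₂(ℂ)`. -/
def hcC (φ : GL (Fin 2) ℂ → ℂ) (ζ r : ℝ) : ℂ := ∫ w : ℂ, φ (bC ζ r w)

/-- `∫∫ e^{r (s + 1/2)} hcR f ζ r dr dζ`. -/
def melR (f : GL (Fin 2) ℝ → ℂ) (s : ℂ) : ℂ :=
  ∫ ζ : ℝ, ∫ r : ℝ, Complex.exp ((r : ℂ) * (s + 1 / 2)) * hcR f ζ r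

/-- `∫∫ e^{r (ν + 1)} hcC φ ζ r dr dζ`. -/
def melC (φ : GL (Fin 2) ℂ → ℂ) (ν : ℂ) : ℂ :=
  ∫ ζ : ℝ, ∫ r : ℝ, Complex.exp ((r : ℂ) * (ν + 1)) * hcC φ ζ r

/-- The function `E(g) = (det g / (c² + d²))^{s + 1/2} ((d + i c) / √(c² + d²))^n` of
`g = [[*, *], [c, d]]`: `E(b g k) = e^{r (s + 1/2)} E(g) χ_n(k)` for `b = bR ζ r x`, `k ∈ SO(2)`. -/
def eisR (n : ℤ) (s : ℂ) (g : GL (Fin 2) ℝ) : ℂ :=
  (((g : Matrix (Fin 2) (Fin 2) ℝ).det /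
      ((g : Matrix (Fin 2) (Fin 2) ℝ) 1 0 ^ 2 + (g : Matrix (Fin 2) (Fin 2) ℝ) 1 1 ^ 2) : ℝ) : ℂ)
      ^ (s + 1 / 2) *
    (((((g : Matrix (Fin 2) (Fin 2) ℝ) 1 1 : ℝ) : ℂ) +
        (((g : Matrix (Fin 2) (Fin 2) ℝ) 1 0 : ℝ) : ℂ) * Complex.I) /
      ((Real.sqrt ((g : Matrix (Fin 2) (Fin 2) ℝ) 1 0 ^ 2 +
        (g : Matrix (Fin 2) (Fin 2) ℝ) 1 1 ^ 2) : ℝ) : ℂ)) ^ n

/-! ## 3. The interface with T6.23 (Iwasawa integration formula, right-`K`-invariant form) -/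

/-- **Iwasawa integration formula on `GL₂(ℝ)`** (part of T6.23): for a Haar measure `μ` there is
`c > 0` with `∫ F dμ = c ∫∫∫ F(bR ζ r x) dx dr dζ` for all continuous, compactly supported,
right-`SO(2)`-invariant `F` supported in `det > 0`.  (`GL₂(ℝ)⁺ = B⁺ · SO(2)`, `GL₂(ℝ)` is
unimodular, `dζ dr dx` is the left Haar measure of `B⁺`.) -/
def IwasawaIntRC : Prop :=
  ∀ μ : @Measure (GL (Fin 2) ℝ) (borel _), @Measure.IsHaarMeasure _ _ _ (borel _) μ →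
    ∃ c : ℝ, 0 < c ∧ ∀ F : GL (Fin 2) ℝ → ℂ, Continuous F → HasCompactSupport F →
      (∀ g : GL (Fin 2) ℝ, F g ≠ 0 → 0 < (g : Matrix (Fin 2) (Fin 2) ℝ).det) →
      (∀ k g : GL (Fin 2) ℝ, InSO2 k → F (g * k) = F g) →
      @integral _ _ _ _ (borel _) μ F = (c : ℂ) * ∫ ζ : ℝ, ∫ r : ℝ, ∫ x : ℝ, F (bR ζ r x)

/-- **Iwasawa integration formula on `GL₂(ℂ)`** (part of T6.23): for a Haar measure `μ'` there is
`c > 0` with `∫ F dμ' = c ∫∫∫ F(bC ζ r w) dw dr dζ` for all continuous, compactly supported,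
right-`U(2)`-invariant `F`. -/
def IwasawaIntCC : Prop :=
  ∀ μ' : @Measure (GL (Fin 2) ℂ) (borel _), @Measure.IsHaarMeasure _ _ _ (borel _) μ' →
    ∃ c : ℝ, 0 < c ∧ ∀ F : GL (Fin 2) ℂ → ℂ, Continuous F → HasCompactSupport F →
      (∀ k g : GL (Fin 2) ℂ, InU2 k → F (g * k) = F g) →
      @integral _ _ _ _ (borel _) μ' F = (c : ℂ) * ∫ ζ : ℝ, ∫ r : ℝ, ∫ w : ℂ, F (bC ζ r w)

/-! ## 4. The Props of the real side -/

/-- The weights `0, 1, -1`. -/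
def IsWt (n : ℤ) : Prop := n = 0 ∨ n = 1 ∨ n = -1

/-- **T6.29.R1 CARTAN-R** (Mathlib only; singular value decomposition of a real `2 × 2` matrix
of positive determinant): `y = k_α · e^{ζ/2} a_t · k_β` with `t ≥ 0`. -/
def CartanRC : Prop :=
  ∀ y : GL (Fin 2) ℝ, 0 < (y : Matrix (Fin 2) (Fin 2) ℝ).det →
    ∃ ζ α β t : ℝ, 0 ≤ t ∧ y = rotR α * bR ζ t 0 * rotR β

/-- **T6.29.R2 SPH-AVG-AT** (one-variable calculus): the `K`-average of `E` at `a_t`, `t ≥ 0`, is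
the radial spherical function:
`(1/2π) ∫₀^{2π} e^{-inθ} E(k_θ a_t) dθ = sphRad n s (cosh t)`.
(`c² + d² = cosh t - cos 2θ sinh t`,
`e^{-iθ}(d + ic) = cosh(t/2) - cos 2θ sinh(t/2) + i sin 2θ sinh(t/2)`; the odd part integrates to
`0`; `u = 2θ` and periodicity.) -/
def SphAvgAtC : Prop :=
  ∀ n : ℤ, IsWt n → ∀ (s : ℂ) (t : ℝ), 0 ≤ t →
    ((1 / (2 * Real.pi) : ℝ) : ℂ) * (∫ θ in (0 : ℝ)..(2 * Real.pi),
      Complex.exp (-((n : ℂ) * (θ : ℂ) * Complex.I)) * eisR n s (rotR θ * bR 0 t 0))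
      = sphRad n s (Real.cosh t)

/-- **T6.29.R3 SPH-AVG** (middle Prop): `sphFn n s y = (1/2π) ∫₀^{2π} e^{-inθ} E(k_θ y) dθ` for
`det y > 0`. -/
def SphAvgRC : Prop :=
  ∀ n : ℤ, IsWt n → ∀ (s : ℂ) (y : GL (Fin 2) ℝ), 0 < (y : Matrix (Fin 2) (Fin 2) ℝ).det →
    ((1 / (2 * Real.pi) : ℝ) : ℂ) * (∫ θ in (0 : ℝ)..(2 * Real.pi),
      Complex.exp (-((n : ℂ) * (θ : ℂ) * Complex.I)) * eisR n s (rotR θ * y))
      = sphFn n s y

/-- **T6.29.R3' SPH-AVG-OF** (leaf): equivariance of `holPart`, `rhoR`, `eisR` under rotations and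
positive scalars, shift of the periodic integrand by `α`. -/
def SphAvgOfC : Prop := CartanRC → SphAvgAtC → SphAvgRC

/-- **T6.29.R4 EIS-INT** (leaf; Fubini and the left invariance of `μ`): the spherical transform of
a test function of weight `n` is its integral against `E`:
`∫ f sphFn dμ = (1/2π) ∫_θ e^{-inθ} ∫ f(y) E(k_θ y) dμ(y) dθ`, `∫ f(y) E(k_θ y) dμ(y) =
∫ f(k_θ⁻¹ y) E(y) dμ(y) = e^{inθ} ∫ f E dμ`. -/
def EisIntRC : Prop :=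
  SphAvgRC →
  ∀ μ : @Measure (GL (Fin 2) ℝ) (borel _), @Measure.IsHaarMeasure _ _ _ (borel _) μ →
    ∀ n : ℤ, IsWt n → ∀ f : GL (Fin 2) ℝ → ℂ, IsArchTestR n f → ∀ s : ℂ,
      sphTransR μ n f s
        = @integral _ _ _ _ (borel _) μ (fun y : GL (Fin 2) ℝ => f y * eisR n s y)

/-- **T6.29.R5 EIS-IW** (leaf; Iwasawa): `∫ f E dμ = c · melR f s`
(`f E` is continuous, compactly supported, right `SO(2)`-invariant, supported in `det > 0`;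
`E(bR ζ r x) = e^{r (s + 1/2)}`). -/
def EisIwRC : Prop :=
  IwasawaIntRC →
  ∀ μ : @Measure (GL (Fin 2) ℝ) (borel _), @Measure.IsHaarMeasure _ _ _ (borel _) μ →
    ∃ c : ℂ, c ≠ 0 ∧ ∀ n : ℤ, IsWt n → ∀ f : GL (Fin 2) ℝ → ℂ, IsArchTestR n f → ∀ s : ℂ,
      @integral _ _ _ _ (borel _) μ (fun y : GL (Fin 2) ℝ => f y * eisR n s y) = c * melR f s

/-- **HC-TRANS-R** (middle Prop): the spherical transform in the weights `0, ±1` is the Mellin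
transform of the Harish-Chandra transform. -/
def HCTransRC : Prop :=
  ∀ μ : @Measure (GL (Fin 2) ℝ) (borel _), @Measure.IsHaarMeasure _ _ _ (borel _) μ →
    ∃ c : ℂ, c ≠ 0 ∧ ∀ n : ℤ, IsWt n → ∀ f : GL (Fin 2) ℝ → ℂ, IsArchTestR n f → ∀ s : ℂ,
      sphTransR μ n f s = c * melR f s

/-! ## 5. The Props of the complex side -/

/-- **T6.29.C1 CARTAN-C** (Mathlib only; singular values): two elements of `GL₂(ℂ)` with the same
`|det|` and the same `rhoC` lie in the same double coset of `U(2)`. -/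
def CartanCC : Prop :=
  ∀ y y' : GL (Fin 2) ℂ,
    ‖(y : Matrix (Fin 2) (Fin 2) ℂ).det‖ = ‖(y' : Matrix (Fin 2) (Fin 2) ℂ).det‖ →
    rhoC y = rhoC y' → ∃ k k' : GL (Fin 2) ℂ, InU2 k ∧ InU2 k' ∧ y' = k * y * k'

/-- **T6.29.C2 SPH-C-KERNEL** (one-variable calculus): for `u ≥ 0`,
`sphC ν (cosh u) · sinh u = (1/2) ∫_{-u}^{u} e^{ρν} dρ`
(`y = cosh u + x sinh u`, then `y = e^ρ`). -/
def SphCKernelC : Prop :=
  ∀ (ν : ℂ) (u : ℝ), 0 ≤ u →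
    sphC ν (Real.cosh u) * ((Real.sinh u : ℝ) : ℂ)
      = (1 / 2 : ℂ) * ∫ ρ in (-u)..u, Complex.exp ((ρ : ℂ) * ν)

/-- **T6.29.C3 W-INT** (middle Prop): the `w`-integral of a radial function along `bC ζ r w`:
`∫_ℂ φ(bC ζ r w) Ψ(rhoC (bC ζ r w)) dw = 2π e^{-r} ∫_{u > |r|} φ(bC ζ u 0) Ψ(cosh u) sinh u du`. -/
def WIntCC : Prop :=
  ∀ φ : GL (Fin 2) ℂ → ℂ, IsArchTestC φ → ∀ Ψ : ℝ → ℂ, ContinuousOn Ψ (Set.Ici 1) →
    ∀ ζ r : ℝ,
      (∫ w : ℂ, φ (bC ζ r w) * Ψ (rhoC (bC ζ r w)))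
        = ((2 * Real.pi * Real.exp (-r) : ℝ) : ℂ) *
          ∫ u in Set.Ioi |r|, φ (bC ζ u 0) * Ψ (Real.cosh u) * ((Real.sinh u : ℝ) : ℂ)

/-- **T6.29.C3' W-INT-OF** (leaf): `rhoC (bC ζ r w) = cosh r + e^r ‖w‖² / 2`, `|det| = e^ζ`,
`φ (bC ζ r w) = φ (bC ζ u 0)` for `cosh u = rhoC` (`CartanCC`), polar coordinates in `ℂ`
(`MeasureTheory.integral_fun_norm_addHaar` or `Complex.polarCoord`), `ρ = cosh r + e^r R²/2`,
`ρ = cosh u`. -/
def WIntOfC : Prop := CartanCC → WIntCC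

/-- **T6.29.C4 TRI-FUBINI** (Mathlib only): Fubini on the region `|r| < u`. -/
def TriFubiniC : Prop :=
  ∀ g h : ℝ → ℂ, Continuous g → Continuous h → HasCompactSupport h →
    (∫ r : ℝ, g r * ∫ u in Set.Ioi |r|, h u) = ∫ u in Set.Ioi (0 : ℝ), h u * ∫ r in (-u)..u, g r

/-- **HC-TRANS-C** (middle Prop): the spherical transform on `GL₂(ℂ)` is the Mellin transform of
the Harish-Chandra transform. -/
def HCTransCC : Prop :=
  ∀ μ' : @Measure (GL (Fin 2) ℂ) (borel _), @Measure.IsHaarMeasure _ _ _ (borel _) μ' →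
    ∃ c : ℂ, c ≠ 0 ∧ ∀ φ : GL (Fin 2) ℂ → ℂ, IsArchTestC φ → ∀ ν : ℂ,
      sphTransC μ' φ ν = c * melC φ ν

/-- **T6.29.C5 HC-TRANS-C-OF** (leaf; assembly of the complex side):
`F = φ · (sphC ν ∘ rhoC)` is continuous, compactly supported, right `U(2)`-invariant; Iwasawa;
`WIntCC` with `Ψ = sphC ν` and with `Ψ = 1`; `SphCKernelC`; `TriFubiniC` twice
(`g = e^{-r}`, `h = φ(bC ζ u 0) · (1/2) ∫_{-u}^{u} e^{ρν} dρ`, and `g = e^{rν}`,
`h = φ(bC ζ u 0) sinh u`). -/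
def HCTransCOfC : Prop :=
  IwasawaIntCC → WIntCC → SphCKernelC → TriFubiniC → HCTransCC

/-! ## 6. The norm map on the Mellin side, and T6.29 -/

/-- **T6.29.M MEL-SUBST** (Mathlib only; `integral_comp_mul_left` twice, `r = 0` is a null set):
no hypothesis on `f`, `φ`. -/
def MelSubstC : Prop :=
  ∀ (f : GL (Fin 2) ℝ → ℂ) (φ : GL (Fin 2) ℂ → ℂ) (κ : ℂ),
    (∀ ζ r : ℝ, r ≠ 0 → hcR f (2 * ζ) (2 * r) = κ * hcC φ ζ r) →
    ∀ s : ℂ, melR f s = 4 * κ * melC φ (2 * s)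

/-- **T6.29 ARCH-SPEC** (the spectral relation).  For Haar measures `μ`, `μ'` there is `C ≠ 0`
such that for all test functions `f` of weight `n ∈ {0, ±1}` on `GL₂(ℝ)` and `φ` on `GL₂(ℂ)`
whose Harish-Chandra transforms match along the norm map of the positive torus with the
constant `κ`:  `sphTransR μ n f s = C κ sphTransC μ' φ (2 s)` for all `s`. -/
def ArchSpecC : Prop :=
  ∀ (μ : @Measure (GL (Fin 2) ℝ) (borel _)) (μ' : @Measure (GL (Fin 2) ℂ) (borel _)),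
    @Measure.IsHaarMeasure _ _ _ (borel _) μ → @Measure.IsHaarMeasure _ _ _ (borel _) μ' →
    ∃ C : ℂ, C ≠ 0 ∧ ∀ n : ℤ, IsWt n →
      ∀ (f : GL (Fin 2) ℝ → ℂ) (φ : GL (Fin 2) ℂ → ℂ), IsArchTestR n f → IsArchTestC φ →
      ∀ κ : ℂ, (∀ ζ r : ℝ, r ≠ 0 → hcR f (2 * ζ) (2 * r) = κ * hcC φ ζ r) →
        ∀ s : ℂ, sphTransR μ n f s = C * κ * sphTransC μ' φ (2 * s)

end Fermat.Agent.LT.T6.H830

end
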