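import Fermat.Agent.LT.T6.H830.HCClosed2
import Fermat.Agent.LT.T6.H673.IwasawaR
import Fermat.Agent.LT.T6.H848.IwaC
import Fermat.Agent.LT.T6.H216.U2HaarOf
import Fermat.Agent.LT.T6.H965.U2Compact
import Fermat.Agent.LT.T6.H8.RightInvCC
import Fermat.Agent.LT.T6.H905.IwaHomeoC

/-!
# Row LT, tower T6, station T6.29 `ArchSpec`: CLOSED (helper830, integration v3)

OFF-MAIN.  `archSpecC830 : ArchSpecC` and `specRelC626_830 : H626.SpecRelC626` (= T6.20c),
`hcTransRC830 : HCTransRC`, `hcTransCC830 : HCTransCC`, UNCONDITIONAL, in ONE closure of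
byte-identical copies:

| Prop | owner | file |
|---|---|---|
| `IwasawaIntRC` | helper673@9cc963c0a | `T6/H673/{IwGroup,IwCoord,IwTop,IwasawaR}.lean` |
| `IwasawaIntCC ⟸ H189.U2HaarC + H189.IwasawaCC` | helper682@b8fd091ac | `T6/H682/IwasawaIntC.lean` |
| `H189.IwaOfCC` | helper848@73a8358de | `T6/H848/IwaC.lean` (+ `H189/{ArchIntCut,HaarEmb}` of helper189) |
| `H189.U2HaarOfC` | helper216@c94b60e12 | `T6/H216/U2HaarOf.lean` |
| `H189.U2CompactC` | helper965@cf8acfb81 | `T6/H965/U2Compact.lean` |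
| `H189.RightInvCC` | helper8@272c880d8 | `T6/H8/{RightInvCC,Unimod}.lean` |
| `H189.IwaHomeoCC` | helper905@93dc50ef5 | `T6/H905/IwaHomeoC.lean` |
| the leaves of the cut | see `HCClosed.lean`, `HCClosed2.lean` | |
-/

set_option autoImplicit false

noncomputable section

namespace Fermat.Agent.LT.T6.H830

open Fermat.Agent.LT.T6

/-- `U(2)` has a Haar probability measure (T6.23). -/
theorem u2HaarC830 : H189.U2HaarC := H216.u2HaarOf216 H965.u2CompactC965

/-- The Iwasawa integration formula on `GL₂(ℂ)`, measure form (T6.23). -/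
theorem iwasawaCC830 : H189.IwasawaCC :=
  H848.iwaOfCC848 H8.rightInvCC_h8 H905.iwaHomeoCC905 H965.u2CompactC965

/-- The Iwasawa integration formula on `GL₂(ℂ)`, right-`U(2)`-invariant integral form. -/
theorem iwasawaIntCC830 : IwasawaIntCC := H682.iwasawaIntCC_of189 u2HaarC830 iwasawaCC830

/-- **HC-TRANS-R**, unconditional. -/
theorem hcTransRC830 : HCTransRC := hcTransRC_of_iwasawa830 H673.iwasawaIntRC673

/-- **HC-TRANS-C**, unconditional. -/
theorem hcTransCC830 : HCTransCC := hcTransCC_of_iwasawa830 iwasawaIntCC830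

/-- **T6.29 (the spectral relation), unconditional.** -/
theorem archSpecC830 : ArchSpecC :=
  archSpecC_of_iwasawa830 H673.iwasawaIntRC673 iwasawaIntCC830

/-- **T6.20c (`SpecRelC626` of helper626), unconditional.** -/
theorem specRelC626_830 : H626.SpecRelC626 := specRelC626_of_archSpec830 archSpecC830

end Fermat.Agent.LT.T6.H830

end
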