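import Fermat.Agent.LT.T6.H830.InjSpec

/-!
# Row LT, tower T6, leaf T6.21 `ArchInjC`: the formal top of the cut of `InjSpec.lean` (helper830)

OFF-MAIN.  `archInjC_of_leaves830` :
`HCTransRC → CartanRC → MelFubiniC → HcZRegC → FourierUniqC → HcZFormC → TorTRegC → AbelInj1C →
CentAvgOfTorusC → ArchInjC`.
-/

set_option autoImplicit false

open scoped Matrix
open MeasureTheory

noncomputable section

namespace Fermat.Agent.LT.T6.H830

open Fermat.Agent.LT.T6

/-- **T6.21 from the leaves.** -/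
theorem archInjC_of_leaves830 (hHC : HCTransRC) (hCart : CartanRC) (hMF : MelFubiniC)
    (hReg : HcZRegC) (hFU : FourierUniqC) (hForm : HcZFormC) (hTReg : TorTRegC)
    (hAbel : AbelInj1C) (hCent : CentAvgOfTorusC) : ArchInjC := by
  intro μ hμ n hn f hf hzero Z hZ g
  have hn' : IsWt n := hn
  obtain ⟨c, hc, hform⟩ := hHC μ hμ
  -- the Mellin transform vanishes
  have hmel : ∀ s : ℂ, melR f s = 0 := by
    intro s
    have h1 := hform n hn' f hf s
    rw [hzero s] at h1
    exact (mul_eq_zero.1 h1.symm).resolve_left hc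
  -- `hcZ f = 0`
  have hH : ∀ r : ℝ, hcZ f r = 0 := by
    obtain ⟨hc1, hc2⟩ := hReg n hn' f hf
    refine hFU (hcZ f) hc1 hc2 ?_
    intro s
    rw [← hMF n hn' f hf s]
    exact hmel s
  -- `torT f = 0` on `t ≥ 0`
  have hT : ∀ t : ℝ, 0 ≤ t → torT f t = 0 := by
    obtain ⟨ht1, ht2⟩ := hTReg n hn' f hf
    refine hAbel n hn' (torT f) ht1 ht2 ?_
    intro r
    rw [← hForm hCart n hn' f hf r]
    exact hH r
  exact hCent hCart n hn' f hf hT Z hZ g

end Fermat.Agent.LT.T6.H830

end
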