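import Fermat.Agent.LT.T6.H830.HCSpec

/-!
# Row LT, tower T6, leaf T6.29.C5 `HCTransCOfC` (helper830), OFF-MAIN

`hcTransCOfC830 : HCTransCOfC`, i.e.
`IwasawaIntCC → WIntCC → SphCKernelC → TriFubiniC → HCTransCC`
(frozen Props of `Fermat/Agent/LT/T6/H830/HCSpec.lean`).
-/

set_option autoImplicit false

open scoped Matrix
open MeasureTheory

noncomputable section

namespace Fermat.Agent.LT.T6.H830

open Fermat.Agent.LT.T6

/-! ## Continuity into `GL₂` -/

/-- A map into `GL₂(ℂ)` is continuous if its matrix is. -/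
theorem continuous_toGL830 {X : Type*} [TopologicalSpace X] (f : X → GL (Fin 2) ℂ)
    (hf : Continuous fun x => (f x : Matrix (Fin 2) (Fin 2) ℂ)) : Continuous f := by
  rw [Units.continuous_iff]
  refine ⟨hf, ?_⟩
  have hdet : ∀ x, (f x : Matrix (Fin 2) (Fin 2) ℂ).det ≠ 0 := fun x =>
    ((Matrix.isUnit_iff_isUnit_det _).1 (f x).isUnit).ne_zero
  have h : (fun x => (((f x)⁻¹ : GL (Fin 2) ℂ) : Matrix (Fin 2) (Fin 2) ℂ))
      = fun x => ((f x : Matrix (Fin 2) (Fin 2) ℂ).det)⁻¹ •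
          (f x : Matrix (Fin 2) (Fin 2) ℂ).adjugate := by
    funext x
    rw [Matrix.coe_units_inv, Matrix.inv_def, Ring.inverse_eq_inv']
  rw [h]
  exact (hf.matrix_det.inv₀ hdet).smul hf.matrix_adjugate

theorem continuous_bC_zero830 (ζ : ℝ) : Continuous fun u : ℝ => bC ζ u 0 := by
  apply continuous_toGL830
  simp only [coe_bC830]
  refine continuous_matrix fun i j => ?_
  fin_cases i <;> fin_cases j <;> simp <;> fun_prop

/-! ## The function `rhoC` -/

theorem trace_re830 (M : Matrix (Fin 2) (Fin 2) ℂ) :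
    ((M.conjTranspose * M).trace).re
      = Complex.normSq (M 0 0) + Complex.normSq (M 0 1) + Complex.normSq (M 1 0)
        + Complex.normSq (M 1 1) := by
  simp [Matrix.trace, Matrix.mul_apply, Fin.sum_univ_two, Matrix.conjTranspose_apply,
    Complex.normSq_apply]
  ring

theorem det_ne_zero830 (y : GL (Fin 2) ℂ) : (y : Matrix (Fin 2) (Fin 2) ℂ).det ≠ 0 :=
  ((Matrix.isUnit_iff_isUnit_det _).1 y.isUnit).ne_zero

theorem one_le_rhoC830 (y : GL (Fin 2) ℂ) : 1 ≤ rhoC y := by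
  unfold rhoC
  have hd : 0 < ‖(y : Matrix (Fin 2) (Fin 2) ℂ).det‖ := norm_pos_iff.2 (det_ne_zero830 y)
  rw [le_div_iff₀ (by positivity), trace_re830, Matrix.det_fin_two, one_mul]
  set a := (y : Matrix (Fin 2) (Fin 2) ℂ) 0 0
  set b := (y : Matrix (Fin 2) (Fin 2) ℂ) 0 1
  set c := (y : Matrix (Fin 2) (Fin 2) ℂ) 1 0
  set d := (y : Matrix (Fin 2) (Fin 2) ℂ) 1 1
  have h1 : ‖a * d - b * c‖ ≤ ‖a‖ * ‖d‖ + ‖b‖ * ‖c‖ := by
    calc ‖a * d - b * c‖ ≤ ‖a * d‖ + ‖b * c‖ := norm_sub_le _ _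
      _ = ‖a‖ * ‖d‖ + ‖b‖ * ‖c‖ := by rw [norm_mul, norm_mul]
  simp only [Complex.normSq_eq_norm_sq]
  nlinarith [sq_nonneg (‖a‖ - ‖d‖), sq_nonneg (‖b‖ - ‖c‖), norm_nonneg a, norm_nonneg b,
    norm_nonneg c, norm_nonneg d]

theorem continuous_rhoC830 : Continuous rhoC := by
  unfold rhoC
  have hval : Continuous fun y : GL (Fin 2) ℂ => (y : Matrix (Fin 2) (Fin 2) ℂ) :=
    Units.continuous_val
  have h1 : Continuous fun y : GL (Fin 2) ℂ =>
      (((y : Matrix (Fin 2) (Fin 2) ℂ).conjTranspose * (y : Matrix (Fin 2) (Fin 2) ℂ)).trace).re :=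
    Complex.continuous_re.comp ((hval.matrix_conjTranspose.matrix_mul hval).matrix_trace)
  have h2 : Continuous fun y : GL (Fin 2) ℂ => 2 * ‖(y : Matrix (Fin 2) (Fin 2) ℂ).det‖ :=
    continuous_const.mul hval.matrix_det.norm
  exact h1.div h2 fun y => mul_ne_zero two_ne_zero (norm_ne_zero_iff.2 (det_ne_zero830 y))

theorem rhoC_mul_unitary830 (g k : GL (Fin 2) ℂ) (hk : InU2 k) : rhoC (g * k) = rhoC g := by
  unfold rhoC
  unfold InU2 at hk
  have hdk : ‖(k : Matrix (Fin 2) (Fin 2) ℂ).det‖ = 1 := by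
    have h := congrArg Matrix.det hk
    rw [Matrix.det_mul, Matrix.det_conjTranspose, Matrix.det_one] at h
    have h2 : ‖(k : Matrix (Fin 2) (Fin 2) ℂ).det‖ * ‖(k : Matrix (Fin 2) (Fin 2) ℂ).det‖ = 1 := by
      have h3 := congrArg norm h
      rw [norm_mul, norm_star, norm_one] at h3
      exact h3
    have h4 : 0 ≤ ‖(k : Matrix (Fin 2) (Fin 2) ℂ).det‖ := norm_nonneg _
    nlinarith
  have htr : (((g * k : GL (Fin 2) ℂ) : Matrix (Fin 2) (Fin 2) ℂ).conjTranspose
      * ((g * k : GL (Fin 2) ℂ) : Matrix (Fin 2) (Fin 2) ℂ)).trace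
      = ((g : Matrix (Fin 2) (Fin 2) ℂ).conjTranspose * (g : Matrix (Fin 2) (Fin 2) ℂ)).trace := by
    rw [Matrix.GeneralLinearGroup.coe_mul, Matrix.conjTranspose_mul, Matrix.mul_assoc,
      Matrix.trace_mul_comm, Matrix.mul_assoc, Matrix.mul_assoc, hk, Matrix.mul_one]
  rw [htr, Matrix.GeneralLinearGroup.coe_mul, Matrix.det_mul, norm_mul, hdk, mul_one]

theorem rhoC_bC_zero830 (ζ u : ℝ) : rhoC (bC ζ u 0) = Real.cosh u := by
  unfold rhoC
  rw [trace_re830, coe_bC830, Matrix.det_fin_two_of]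
  simp only [Matrix.of_apply, Matrix.cons_val', Matrix.cons_val_zero, Matrix.cons_val_one,
    Matrix.empty_val', Matrix.cons_val_fin_one, mul_zero, sub_zero, map_zero, add_zero,
    Complex.normSq_ofReal]
  rw [← Complex.ofReal_mul, Complex.norm_real, Real.norm_eq_abs,
    abs_of_pos (mul_pos (Real.exp_pos _) (Real.exp_pos _)), Real.cosh_eq]
  have e1 : Real.exp ((ζ + u) / 2) * Real.exp ((ζ + u) / 2) = Real.exp ζ * Real.exp u := by
    rw [← Real.exp_add, ← Real.exp_add]; congr 1; ring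
  have e2 : Real.exp ((ζ - u) / 2) * Real.exp ((ζ - u) / 2) = Real.exp ζ * Real.exp (-u) := by
    rw [← Real.exp_add, ← Real.exp_add]; congr 1; ring
  have e3 : Real.exp ((ζ + u) / 2) * Real.exp ((ζ - u) / 2) = Real.exp ζ := by
    rw [← Real.exp_add]; congr 1; ring
  rw [e1, e2, e3]
  have hz : Real.exp ζ ≠ 0 := Real.exp_ne_zero _
  field_simp

/-! ## Continuity of `sphC ν` on `[1, ∞)` -/

/-- The base of the power in `sphC`, made positive everywhere. -/
def baseC830 (ρ x : ℝ) : ℝ :=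
  max ρ 1 + max (-1) (min x 1) * Real.sqrt (max ρ 1 ^ 2 - 1)

theorem baseC_pos830 (ρ x : ℝ) : 0 < baseC830 ρ x := by
  unfold baseC830
  set R := max ρ 1 with hR
  have hR1 : 1 ≤ R := le_max_right _ _
  set X := max (-1) (min x 1) with hX
  have hX1 : -1 ≤ X := le_max_left _ _
  have hX2 : X ≤ 1 := max_le (by norm_num) (min_le_right _ _)
  have hs0 : 0 ≤ Real.sqrt (R ^ 2 - 1) := Real.sqrt_nonneg _
  have hs : Real.sqrt (R ^ 2 - 1) < R := by
    rw [Real.sqrt_lt' (by linarith)]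
    linarith
  nlinarith

theorem continuous_baseC830 : Continuous fun p : ℝ × ℝ => baseC830 p.1 p.2 := by
  unfold baseC830
  fun_prop

theorem baseC_eq830 {ρ x : ℝ} (hρ : 1 ≤ ρ) (hx : x ∈ Set.uIcc (-1 : ℝ) 1) :
    baseC830 ρ x = ρ + x * Real.sqrt (ρ ^ 2 - 1) := by
  unfold baseC830
  rw [Set.uIcc_of_le (by norm_num)] at hx
  rw [max_eq_left hρ, min_eq_left hx.2, max_eq_right hx.1]

theorem continuousOn_sphC830 (ν : ℂ) : ContinuousOn (sphC ν) (Set.Ici 1) := by
  have hcont : Continuous fun ρ : ℝ =>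
      (1 / 2 : ℂ) * ∫ x in (-1 : ℝ)..1, ((baseC830 ρ x : ℝ) : ℂ) ^ (-1 - ν) := by
    refine continuous_const.mul ?_
    apply intervalIntegral.continuous_parametric_intervalIntegral_of_continuous'
    have h1 : Continuous fun p : ℝ × ℝ => ((baseC830 p.1 p.2 : ℝ) : ℂ) :=
      Complex.continuous_ofReal.comp continuous_baseC830
    exact h1.cpow continuous_const fun p =>
      Complex.ofReal_mem_slitPlane.2 (baseC_pos830 p.1 p.2)
  refine hcont.continuousOn.congr ?_
  intro ρ hρ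
  unfold sphC
  congr 1
  apply intervalIntegral.integral_congr
  intro x hx
  simp only
  rw [baseC_eq830 hρ hx]

/-! ## The profile `u ↦ φ (bC ζ u 0)` -/

theorem continuous_profile830 {φ : GL (Fin 2) ℂ → ℂ} (hφ : IsArchTestC φ) (ζ : ℝ) :
    Continuous fun u : ℝ => φ (bC ζ u 0) :=
  hφ.cont.comp (continuous_bC_zero830 ζ)

theorem hasCompactSupport_profile830 {φ : GL (Fin 2) ℂ → ℂ} (hφ : IsArchTestC φ) (ζ : ℝ) :
    HasCompactSupport fun u : ℝ => φ (bC ζ u 0) := by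
  obtain ⟨M, hM⟩ := (hφ.supp.isCompact.bddAbove_image continuous_rhoC830.continuousOn)
  have hM' : ∀ g, φ g ≠ 0 → rhoC g ≤ M := fun g hg =>
    hM ⟨g, subset_tsupport _ hg, rfl⟩
  refine HasCompactSupport.intro (isCompact_Icc (a := -Real.log (2 * M)) (b := Real.log (2 * M))) ?_
  intro u hu
  by_contra hne
  have h1 : Real.cosh u ≤ M := by
    rw [← rhoC_bC_zero830 ζ u]
    exact hM' _ hne
  have h2 : Real.exp |u| ≤ 2 * M := by
    have h3 : Real.cosh u = Real.cosh |u| := (Real.cosh_abs u).symm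
    rw [h3, Real.cosh_eq] at h1
    have h4 : 0 < Real.exp (-|u|) := Real.exp_pos _
    linarith
  have h5 : |u| ≤ Real.log (2 * M) := by
    rw [Real.le_log_iff_exp_le (lt_of_lt_of_le (Real.exp_pos _) h2)]
    exact h2
  exact hu ⟨by linarith [neg_abs_le u], by linarith [le_abs_self u]⟩

/-- `∫_{-u}^{u} 2π e^{-r} dr = 4π sinh u`. -/
theorem integral_exp_neg830 (u : ℝ) :
    (∫ r in (-u)..u, ((2 * Real.pi * Real.exp (-r) : ℝ) : ℂ))
      = ((4 * Real.pi * Real.sinh u : ℝ) : ℂ) := by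
  rw [intervalIntegral.integral_ofReal]
  congr 1
  rw [intervalIntegral.integral_const_mul, intervalIntegral.integral_comp_neg (fun x => Real.exp x),
    neg_neg, integral_exp, Real.sinh_eq]
  ring

theorem continuous_expInt830 (ν : ℂ) :
    Continuous fun u : ℝ => ∫ ρ in (-u)..u, Complex.exp ((ρ : ℂ) * ν) := by
  have hf : Continuous fun ρ : ℝ => Complex.exp ((ρ : ℂ) * ν) := by fun_prop
  have h1 : ∀ u : ℝ, (∫ ρ in (-u)..u, Complex.exp ((ρ : ℂ) * ν))
      = (∫ ρ in (0 : ℝ)..u, Complex.exp ((ρ : ℂ) * ν))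
        - ∫ ρ in (0 : ℝ)..(-u), Complex.exp ((ρ : ℂ) * ν) := by
    intro u
    rw [intervalIntegral.integral_interval_sub_left (hf.intervalIntegrable _ _)
      (hf.intervalIntegrable _ _)]
  simp only [h1]
  have h2 : Continuous fun u : ℝ => ∫ ρ in (0 : ℝ)..u, Complex.exp ((ρ : ℂ) * ν) :=
    intervalIntegral.continuous_primitive (fun a b => hf.intervalIntegrable a b) 0
  exact h2.sub (h2.comp continuous_neg)

/-! ## The assembly -/

/-- **T6.29.C5.**  The spherical transform on `GL₂(ℂ)` is the Mellin transform of the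
Harish-Chandra transform. -/
theorem hcTransCOfC830 : HCTransCOfC := by
  intro hIw hW hKer hTri μ' hμ'
  obtain ⟨c, hc, hform⟩ := hIw μ' hμ'
  refine ⟨(c : ℂ), Complex.ofReal_ne_zero.2 hc.ne', ?_⟩
  intro φ hφ ν
  -- the function `F`
  have hFc : Continuous fun y : GL (Fin 2) ℂ => φ y * sphC ν (rhoC y) := by
    refine hφ.cont.mul ?_
    exact (continuousOn_sphC830 ν).comp_continuous continuous_rhoC830 fun y => one_le_rhoC830 y
  have hFs : HasCompactSupport fun y : GL (Fin 2) ℂ => φ y * sphC ν (rhoC y) :=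
    hφ.supp.mul_right
  have hFr : ∀ k g : GL (Fin 2) ℂ, InU2 k →
      (fun y : GL (Fin 2) ℂ => φ y * sphC ν (rhoC y)) (g * k)
        = (fun y : GL (Fin 2) ℂ => φ y * sphC ν (rhoC y)) g := by
    intro k g hk
    simp only
    rw [hφ.right k g hk, rhoC_mul_unitary830 g k hk]
  have hF := hform _ hFc hFs hFr
  unfold sphTransC
  rw [hF]
  congr 1
  unfold melC
  congr 1
  funext ζ
  -- the profile
  set p : ℝ → ℂ := fun u => φ (bC ζ u 0) with hp
  have hpc : Continuous p := continuous_profile830 hφ ζ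
  have hps : HasCompactSupport p := hasCompactSupport_profile830 hφ ζ
  set I : ℝ → ℂ := fun u => ∫ ρ in (-u)..u, Complex.exp ((ρ : ℂ) * ν) with hI
  have hIc : Continuous I := continuous_expInt830 ν
  -- step 1: `WIntCC` with `Ψ = sphC ν`, then `SphCKernelC`
  have s1 : ∀ r : ℝ, (∫ w : ℂ, φ (bC ζ r w) * sphC ν (rhoC (bC ζ r w)))
      = ((2 * Real.pi * Real.exp (-r) : ℝ) : ℂ) * ∫ u in Set.Ioi |r|, p u * ((1 / 2 : ℂ) * I u) := by
    intro r
    rw [hW φ hφ (sphC ν) (continuousOn_sphC830 ν) ζ r]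
    congr 1
    apply MeasureTheory.setIntegral_congr_fun measurableSet_Ioi
    intro u hu
    have hu0 : 0 ≤ u := le_trans (abs_nonneg r) (le_of_lt hu)
    simp only
    rw [mul_assoc, hKer ν u hu0]
  -- step 2: `WIntCC` with `Ψ = 1`
  have s2 : ∀ r : ℝ, hcC φ ζ r
      = ((2 * Real.pi * Real.exp (-r) : ℝ) : ℂ) * ∫ u in Set.Ioi |r|, p u * ((Real.sinh u : ℝ) : ℂ) := by
    intro r
    have h := hW φ hφ (fun _ => (1 : ℂ)) continuousOn_const ζ r
    simp only [mul_one] at h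
    unfold hcC
    rw [h]
  -- step 3: Fubini twice
  have f1 := hTri (fun r : ℝ => ((2 * Real.pi * Real.exp (-r) : ℝ) : ℂ))
    (fun u => p u * ((1 / 2 : ℂ) * I u)) (by fun_prop) (hpc.mul (continuous_const.mul hIc))
    hps.mul_right
  have f2 := hTri (fun r : ℝ => Complex.exp ((r : ℂ) * ν))
    (fun u => ((2 * Real.pi : ℝ) : ℂ) * (p u * ((Real.sinh u : ℝ) : ℂ))) (by fun_prop)
    (continuous_const.mul (hpc.mul (by fun_prop)))
    (hps.mul_right.mul_left)
  calc (∫ r : ℝ, ∫ w : ℂ, φ (bC ζ r w) * sphC ν (rhoC (bC ζ r w)))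
      = ∫ r : ℝ, ((2 * Real.pi * Real.exp (-r) : ℝ) : ℂ)
          * ∫ u in Set.Ioi |r|, p u * ((1 / 2 : ℂ) * I u) := by
        congr 1
        funext r
        exact s1 r
    _ = ∫ u in Set.Ioi (0 : ℝ), p u * ((1 / 2 : ℂ) * I u)
          * ∫ r in (-u)..u, ((2 * Real.pi * Real.exp (-r) : ℝ) : ℂ) := f1
    _ = ∫ u in Set.Ioi (0 : ℝ), ((2 * Real.pi : ℝ) : ℂ) * (p u * ((Real.sinh u : ℝ) : ℂ))
          * ∫ r in (-u)..u, Complex.exp ((r : ℂ) * ν) := by
        apply MeasureTheory.setIntegral_congr_fun measurableSet_Ioi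
        intro u _
        simp only
        rw [integral_exp_neg830]
        push_cast
        ring
    _ = ∫ r : ℝ, Complex.exp ((r : ℂ) * ν)
          * ∫ u in Set.Ioi |r|, ((2 * Real.pi : ℝ) : ℂ) * (p u * ((Real.sinh u : ℝ) : ℂ)) := f2.symm
    _ = ∫ r : ℝ, Complex.exp ((r : ℂ) * (ν + 1)) * hcC φ ζ r := by
        congr 1
        funext r
        rw [s2 r, MeasureTheory.integral_const_mul]
        have he : Complex.exp ((r : ℂ) * (ν + 1))
            = Complex.exp ((r : ℂ) * ν) * ((Real.exp r : ℝ) : ℂ) := by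
          rw [mul_add, mul_one, Complex.exp_add, Complex.ofReal_exp]
        have he2 : ((Real.exp r : ℝ) : ℂ) * ((2 * Real.pi * Real.exp (-r) : ℝ) : ℂ)
            = ((2 * Real.pi : ℝ) : ℂ) := by
          rw [← Complex.ofReal_mul]
          congr 1
          rw [Real.exp_neg]
          field_simp
        rw [he]
        calc Complex.exp ((r : ℂ) * ν) * (((2 * Real.pi : ℝ) : ℂ)
              * ∫ u in Set.Ioi |r|, p u * ((Real.sinh u : ℝ) : ℂ))
            = Complex.exp ((r : ℂ) * ν) * ((((Real.exp r : ℝ) : ℂ)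
              * ((2 * Real.pi * Real.exp (-r) : ℝ) : ℂ))
              * ∫ u in Set.Ioi |r|, p u * ((Real.sinh u : ℝ) : ℂ)) := by rw [he2]
          _ = _ := by ring

end Fermat.Agent.LT.T6.H830

end
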