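import Fermat.Agent.LT.T6.H830.ArchConv
import Fermat.Agent.LT.T6.H626.ArchMatchClosed626
import Fermat.Agent.LT.T6.H626.Closed626d

/-!
# Row LT, tower T6, asset ARCH-KIT (helper830, deputy F/Q "archimedean wiring"):
# the archimedean local shape of the quadratic step -- existence, matching, spectral relation,
# convolution, with ONE pair of constants

OFF-MAIN.  Complete proofs, nothing assumed.  ADDITIVE.

    archProd830 : ∀ μ μ' Haar, ∃ cM > 0, ∃ lam > 0, (MATCHING for cM) ∧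
      ∀ c c' s t, s ≠ 0 → t · lam · c · c' = cM · s → ∀ n = ±1,
        IsArchPair830 c n Φ₁ F₁ G₁ → IsArchPair830 c' n Φ₂ F₂ G₂ →
        IsArchPair830 cM n (s · Φ₁ ⋆ Φ₂) (t · F₁ ⋆ F₂) (t · G₁ ⋆ G₂) ∧
        T6.IsArchMatch μ μ' (s · Φ₁ ⋆ Φ₂) (t · F₁ ⋆ F₂ + t · G₁ ⋆ G₂)
    archKit830 : ∀ μ μ' Haar, ∃ cM > 0, ∃ κ > 0,
      (EXISTENCE)   ∀ n = ±1, ∀ Φ test function, ∃ F G, IsArchPair830 cM n Φ F G
      (MATCHING)    ∀ n = ±1, IsArchPair830 cM n Φ F G → T6.IsArchMatch μ μ' Φ (F + G)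
      (SPECTRAL)    ∀ n = ±1, ∃ c₀ c₁ ≠ 0, IsArchPair830 cM n Φ F G →
                       sphTransR μ 0 F s = c₀ sphTransC μ' Φ (2s),
                       sphTransR μ n G s = c₁ sphTransC μ' Φ (2s)
      (CONVOLUTION) ∀ n, IsArchPair830 cM n Φ₁ F₁ G₁ → IsArchPair830 cM n Φ₂ F₂ G₂ →
                       IsArchPair830 cM n (Φ₁ ⋆ Φ₂) (κ · F₁ ⋆ F₂) (κ · G₁ ⋆ G₂)

Inputs: `H626.geoMatchC626_closed` (T6.20b), `H626.abelExistC626_closed` (T6.20a),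
`specRelC626_830` (T6.29), `archPair_conv830` (ARCH-CONV).  Consequence for the construction
over `ℚ` (`ProdMtQ`): the archimedean components of the members of the families
(`Φ₁ X ⋆ …`, `F₁ⁿ X ⋆ …`) are matched (`T6.IsArchMatch`, the clause `arch` of
`MQ298.LocHypQ298`) when the archimedean components of the two factors are pairs with the
constant `cM`; the constant `κ` is absorbed in the constant `a` of `f₂`.
-/

set_option autoImplicit false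

open scoped Matrix ContDiff
open MeasureTheory

noncomputable section

namespace Fermat.Agent.LT.T6.H830

open Fermat.Agent.LT.T6 Fermat.Agent.LT.T6.H626

/-- **THE ARCHIMEDEAN KIT** of the quadratic step (see the header). -/
theorem archKit830 (μ : @Measure (GL (Fin 2) ℝ) (borel _))
    (μ' : @Measure (GL (Fin 2) ℂ) (borel _))
    (hμ : @Measure.IsHaarMeasure _ _ _ (borel _) μ)
    (hμ' : @Measure.IsHaarMeasure _ _ _ (borel _) μ') :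
    ∃ cM : ℝ, 0 < cM ∧ ∃ κ : ℝ, 0 < κ ∧
      (∀ n : ℤ, n = 1 ∨ n = -1 → ∀ Φ : GL (Fin 2) ℂ → ℂ, IsArchTestC Φ →
        ∃ F G : GL (Fin 2) ℝ → ℂ, IsArchPair830 (cM : ℂ) n Φ F G) ∧
      (∀ n : ℤ, n = 1 ∨ n = -1 → ∀ (Φ : GL (Fin 2) ℂ → ℂ) (F G : GL (Fin 2) ℝ → ℂ),
        IsArchPair830 (cM : ℂ) n Φ F G → IsArchMatch μ μ' Φ (fun g => F g + G g)) ∧
      (∀ n : ℤ, n = 1 ∨ n = -1 → ∃ c₀ c₁ : ℂ, c₀ ≠ 0 ∧ c₁ ≠ 0 ∧
        ∀ (Φ : GL (Fin 2) ℂ → ℂ) (F G : GL (Fin 2) ℝ → ℂ),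
          IsArchPair830 (cM : ℂ) n Φ F G →
          (∀ s : ℂ, sphTransR μ 0 F s = c₀ * sphTransC μ' Φ (2 * s)) ∧
          (∀ s : ℂ, sphTransR μ n G s = c₁ * sphTransC μ' Φ (2 * s))) ∧
      (∀ (n : ℤ) (Φ₁ Φ₂ : GL (Fin 2) ℂ → ℂ) (F₁ F₂ G₁ G₂ : GL (Fin 2) ℝ → ℂ),
        IsArchPair830 (cM : ℂ) n Φ₁ F₁ G₁ → IsArchPair830 (cM : ℂ) n Φ₂ F₂ G₂ →
        IsArchPair830 (cM : ℂ) n (@convInt _ _ (borel _) μ' Φ₁ Φ₂)
          (fun g => (κ : ℂ) * @convInt _ _ (borel _) μ F₁ F₂ g)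
          (fun g => (κ : ℂ) * @convInt _ _ (borel _) μ G₁ G₂ g)) := by
  obtain ⟨cM, hcM, hmatch⟩ := geoMatchC626_closed μ μ' hμ hμ'
  obtain ⟨lam, hlam, hconv⟩ := archPair_conv_norm830 μ μ' hμ hμ'
  have hcM' : (cM : ℂ) ≠ 0 := Complex.ofReal_ne_zero.2 hcM.ne'
  refine ⟨cM, hcM, (lam * cM)⁻¹, by positivity, ?_, ?_, ?_, ?_⟩
  · intro n hn Φ hΦ
    obtain ⟨F, G, hF, hG, hrel⟩ := abelExistC626_closed (cM : ℂ) n hn Φ hΦ
    exact ⟨F, G, hΦ, hF, hG, hrel⟩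
  · intro n hn Φ F G p
    rw [isArchMatch_iff_on626]
    exact hmatch n hn Φ F G p.up p.down0 p.down1 p.rel
  · intro n hn
    obtain ⟨c₀, c₁, h0, h1, hspec⟩ := specRelC626_830 μ μ' hμ hμ' (cM : ℂ) hcM' n hn
    exact ⟨c₀, c₁, h0, h1, fun Φ F G p => hspec Φ F G p.up p.down0 p.down1 p.rel⟩
  · intro n Φ₁ Φ₂ F₁ F₂ G₁ G₂ p₁ p₂
    have key := hconv (cM : ℂ) hcM' n Φ₁ Φ₂ F₁ F₂ G₁ G₂ p₁ p₂
    have e : (((lam * cM)⁻¹ : ℝ) : ℂ) = ((lam : ℂ) * (cM : ℂ))⁻¹ := by push_cast; rfl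
    rw [e]
    exact key

/-- **Matched products**: with the constants of the kit, the convolution products of two
pairs are geometrically matched. -/
theorem archMatch_conv830 (μ : @Measure (GL (Fin 2) ℝ) (borel _))
    (μ' : @Measure (GL (Fin 2) ℂ) (borel _))
    (hμ : @Measure.IsHaarMeasure _ _ _ (borel _) μ)
    (hμ' : @Measure.IsHaarMeasure _ _ _ (borel _) μ') :
    ∃ cM : ℝ, 0 < cM ∧ ∃ κ : ℝ, 0 < κ ∧
      ∀ n : ℤ, n = 1 ∨ n = -1 →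
      ∀ (Φ₁ Φ₂ : GL (Fin 2) ℂ → ℂ) (F₁ F₂ G₁ G₂ : GL (Fin 2) ℝ → ℂ),
        IsArchPair830 (cM : ℂ) n Φ₁ F₁ G₁ → IsArchPair830 (cM : ℂ) n Φ₂ F₂ G₂ →
        IsArchMatch μ μ' (@convInt _ _ (borel _) μ' Φ₁ Φ₂)
          (fun g => (κ : ℂ) * @convInt _ _ (borel _) μ F₁ F₂ g
            + (κ : ℂ) * @convInt _ _ (borel _) μ G₁ G₂ g) := by
  obtain ⟨cM, hcM, κ, hκ, -, hM, -, hC⟩ := archKit830 μ μ' hμ hμ'
  exact ⟨cM, hcM, κ, hκ, fun n hn Φ₁ Φ₂ F₁ F₂ G₁ G₂ p₁ p₂ =>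
    hM n hn _ _ _ (hC n Φ₁ Φ₂ F₁ F₂ G₁ G₂ p₁ p₂)⟩

/-- **Matched products, general constants**: pairs with the Abel constants `c`, `c'`; the
product upstairs scaled by `s ≠ 0`, the products downstairs scaled by `t`, with
`t · lam · c · c' = cM · s`: a pair with the matching constant `cM`, geometrically matched. -/
theorem archProd830 (μ : @Measure (GL (Fin 2) ℝ) (borel _))
    (μ' : @Measure (GL (Fin 2) ℂ) (borel _))
    (hμ : @Measure.IsHaarMeasure _ _ _ (borel _) μ)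
    (hμ' : @Measure.IsHaarMeasure _ _ _ (borel _) μ') :
    ∃ cM : ℝ, 0 < cM ∧ ∃ lam : ℝ, 0 < lam ∧
      (∀ n : ℤ, n = 1 ∨ n = -1 → ∀ (Φ : GL (Fin 2) ℂ → ℂ) (F G : GL (Fin 2) ℝ → ℂ),
        IsArchPair830 (cM : ℂ) n Φ F G → IsArchMatch μ μ' Φ (fun g => F g + G g)) ∧
      ∀ (c c' s t : ℂ), s ≠ 0 → t * (lam : ℂ) * c * c' = (cM : ℂ) * s →
      ∀ n : ℤ, n = 1 ∨ n = -1 →
      ∀ (Φ₁ Φ₂ : GL (Fin 2) ℂ → ℂ) (F₁ F₂ G₁ G₂ : GL (Fin 2) ℝ → ℂ),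
        IsArchPair830 c n Φ₁ F₁ G₁ → IsArchPair830 c' n Φ₂ F₂ G₂ →
        IsArchPair830 (cM : ℂ) n (fun g => s * @convInt _ _ (borel _) μ' Φ₁ Φ₂ g)
          (fun g => t * @convInt _ _ (borel _) μ F₁ F₂ g)
          (fun g => t * @convInt _ _ (borel _) μ G₁ G₂ g) ∧
        IsArchMatch μ μ' (fun g => s * @convInt _ _ (borel _) μ' Φ₁ Φ₂ g)
          (fun g => t * @convInt _ _ (borel _) μ F₁ F₂ g
            + t * @convInt _ _ (borel _) μ G₁ G₂ g) := by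
  obtain ⟨cM, hcM, hmatch⟩ := geoMatchC626_closed μ μ' hμ hμ'
  obtain ⟨lam, hlam, hconv⟩ := archPair_conv830 μ μ' hμ hμ'
  have hM : ∀ n : ℤ, n = 1 ∨ n = -1 → ∀ (Φ : GL (Fin 2) ℂ → ℂ) (F G : GL (Fin 2) ℝ → ℂ),
      IsArchPair830 (cM : ℂ) n Φ F G → IsArchMatch μ μ' Φ (fun g => F g + G g) := by
    intro n hn Φ F G p
    rw [isArchMatch_iff_on626]
    exact hmatch n hn Φ F G p.up p.down0 p.down1 p.rel
  refine ⟨cM, hcM, lam, hlam, hM, ?_⟩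
  intro c c' s t hs hrel n hn Φ₁ Φ₂ F₁ F₂ G₁ G₂ p₁ p₂
  have k1 := archPair_smul830 (hconv c c' n Φ₁ Φ₂ F₁ F₂ G₁ G₂ p₁ p₂) t
  have k2 := archPair_smul_up830 k1 hs
  have e : t * ((lam : ℂ) * c * c') / s = (cM : ℂ) := by
    rw [div_eq_iff hs, ← hrel]
    ring
  rw [e] at k2
  exact ⟨k2, hM n hn _ _ _ k2⟩

end Fermat.Agent.LT.T6.H830

end
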