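import Fermat.Agent.LT.T6.H288.HypSpec

/-!
# Row LT, tower T6, sub-leaf T6.12h `LayerCountC` (helper830), OFF-MAIN

`layerCountC_of830 : IndexC → CartanUpperC → LayerCountC`
(frozen Props of `Fermat/Agent/LT/T6/H288/HypSpec.lean`, helper288, sha256 `46fc5f22…`).

Proof.  By `CartanUpperC` the Cartan invariant of `y_b = [[d₁, u_b], [0, d₂]]`,
`u_b = d₁ s(b) - d₂ b`, is `(m₁ + m₂ - L_b, L_b)` with the layer `L_b = min(m₁, m₂, ord u_b)`.
For `j ≤ M = min(m₁, m₂)` the set `{b ∈ B : j ≤ L_b}` is the set counted by `IndexC`, so the fibre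
`{b ∈ B : L_b = j}` has `q^(D - l j)` elements for `j = M` and `q^(D - l j) - q^(D - l (j+1))`
elements for `j < M`, i.e. `q^D · ctWeight (q^l) (m₁ + m₂ - j, j) m₁ m₂` elements in both cases.
Both sides of the identity are additive in `φ`; the case of a point mass is the count.
-/

set_option autoImplicit false

open scoped Matrix

noncomputable section

namespace Fermat.Agent.LT.T6.H830

open Fermat.Agent.LT.T6 Fermat.Agent.LT.T6.H288

/-- The sum of a point mass over a set is the number of points of the fibre. -/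
theorem finsum_mem_single830 {ι β : Type*} (B : Set ι) (g : ι → β) (lam : β) (c : ℂ)
    (hfin : {b | b ∈ B ∧ g b = lam}.Finite) :
    ∑ᶠ b ∈ B, (Finsupp.single lam c) (g b) = (Set.ncard {b | b ∈ B ∧ g b = lam} : ℂ) * c := by
  classical
  have h1 : ∑ᶠ b ∈ B, (Finsupp.single lam c) (g b)
      = ∑ᶠ b ∈ {b | b ∈ B ∧ g b = lam}, (Finsupp.single lam c) (g b) := by
    apply finsum_mem_inter_support_eq
    ext b
    simp only [Set.mem_inter_iff, Function.mem_support, Set.mem_ofPred_eq]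
    constructor
    · rintro ⟨hb, hne⟩
      have hgb : g b = lam := by
        by_contra h
        exact hne (by rw [Finsupp.single_apply, if_neg (fun h' => h h'.symm)])
      exact ⟨⟨hb, hgb⟩, hne⟩
    · rintro ⟨⟨hb, _⟩, hne⟩
      exact ⟨hb, hne⟩
  rw [h1, finsum_mem_eq_finite_toFinset_sum _ hfin]
  have h2 : ∀ b ∈ hfin.toFinset, (Finsupp.single lam c) (g b) = c := by
    intro b hb
    have hb' := (Set.Finite.mem_toFinset hfin).1 hb
    rw [hb'.2, Finsupp.single_eq_same]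
  rw [Finset.sum_congr rfl h2, Finset.sum_const, Set.ncard_eq_toFinset_card _ hfin,
    nsmul_eq_mul]

/-- The layer is at most `min m₁ m₂`. -/
theorem layerOf_le830 {k : Type} [Field k] [Valued k Γ₀] (m₁ m₂ : ℤ) (u : k) :
    layerOf m₁ m₂ u ≤ min m₁ m₂ := by
  unfold layerOf
  split_ifs
  · exact le_refl _
  · exact min_le_left _ _

/-- `j ≤ L` iff `u = 0` or `j ≤ ord u`, for `j ≤ min m₁ m₂`. -/
theorem le_layerOf_iff830 {k : Type} [Field k] [Valued k Γ₀] (m₁ m₂ : ℤ) (u : k) (j : ℤ)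
    (hj : j ≤ min m₁ m₂) :
    j ≤ layerOf m₁ m₂ u ↔ (u = 0 ∨ j ≤ ordv u) := by
  have hj1 : j ≤ m₁ := le_trans hj (min_le_left _ _)
  have hj2 : j ≤ m₂ := le_trans hj (min_le_right _ _)
  unfold layerOf
  split_ifs with h
  · simp [h, hj1, hj2]
  · simp [h, hj1, hj2]

theorem q_ne_zero830 {k : Type} [Field k] [Valued k Γ₀] {q : ℕ} (hk : IsLocalField k q) :
    (q : ℂ) ≠ 0 := by
  obtain ⟨T, hcard, -, -, hT⟩ := hk.residue
  obtain ⟨x, hx, -⟩ := hT 0 (by simp)
  have : 0 < T.card := Finset.card_pos.2 ⟨x, hx⟩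
  rw [hcard] at this
  exact_mod_cast this.ne'

/-- The algebra behind the count of a layer below the top one. -/
theorem ctw_alg830 (x : ℂ) (hx : x ≠ 0) (l : ℕ) (D j : ℤ) :
    x ^ (D - (l : ℤ) * j) - x ^ (D - (l : ℤ) * (j + 1))
      = x ^ D * ((x ^ l) ^ (-j) * (1 - (x ^ l)⁻¹)) := by
  have h1 : x ^ (D - (l : ℤ) * j) = x ^ D * (x ^ l) ^ (-j) := by
    rw [← zpow_natCast x l, ← zpow_mul, ← zpow_add₀ hx]
    congr 1
    ring
  have h2 : x ^ (D - (l : ℤ) * (j + 1)) = x ^ D * ((x ^ l) ^ (-j) * (x ^ l)⁻¹) := by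
    rw [← zpow_natCast x l, ← zpow_neg_one, ← zpow_mul, ← zpow_mul, ← zpow_add₀ hx,
      ← zpow_add₀ hx]
    congr 1
    ring
  rw [h1, h2]
  ring

/-- **T6.12h.**  Summation over the layers. -/
theorem layerCountC_of830 (hI : IndexC) (hC : CartanUpperC) : LayerCountC := by
  intro k k' _ _ _ _ q l i s hk hk' hext φ d₁ d₂ t₁ t₂ hd₁ hd₂ ht h1 h2 B Y hB hY
  classical
  have hq : (q : ℂ) ≠ 0 := q_ne_zero830 hk
  -- the layer function
  set L : k' → ℤ := fun b => layerOf (ordv d₁) (ordv d₂) (d₁ * s b - d₂ * b) with hL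
  have hcart : ∀ b, cartan (Y b) = (ordv d₁ + ordv d₂ - L b, L b) := fun b =>
    hC k' (Y b) d₁ d₂ _ (hY b)
  have hLle : ∀ b, L b ≤ min (ordv d₁) (ordv d₂) := fun b => layerOf_le830 _ _ _
  -- the sets of `IndexC`
  set S : ℤ → Set k' := fun j =>
    {b : k' | b ∈ B ∧ (d₁ * s b - d₂ * b = 0 ∨ j ≤ ordv (d₁ * s b - d₂ * b))} with hS
  have hSI : ∀ j : ℤ, j ≤ min (ordv d₁) (ordv d₂) →
      (S j).Finite ∧ ((S j).ncard : ℂ) = (q : ℂ) ^ (ordv (t₁ - t₂) - (l : ℤ) * j) := fun j hj =>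
    hI k k' q l i s hk hk' hext d₁ d₂ t₁ t₂ hd₁ hd₂ ht h1 h2 B hB j hj
  have hSmem : ∀ j : ℤ, j ≤ min (ordv d₁) (ordv d₂) → ∀ b, b ∈ S j ↔ (b ∈ B ∧ j ≤ L b) := by
    intro j hj b
    simp only [hS, hL, Set.mem_ofPred_eq]
    rw [le_layerOf_iff830 _ _ _ j hj]
  -- the fibres of the Cartan invariant
  have key : ∀ lam : ℤ × ℤ, {b | b ∈ B ∧ cartan (Y b) = lam}.Finite ∧
      (({b | b ∈ B ∧ cartan (Y b) = lam}.ncard : ℕ) : ℂ)
        = (q : ℂ) ^ (ordv (t₁ - t₂)) * ctWeight (q ^ l) lam (ordv d₁) (ordv d₂) := by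
    rintro ⟨a, j⟩
    have hfib : ∀ b, cartan (Y b) = (a, j) ↔ (L b = j ∧ a + j = ordv d₁ + ordv d₂) := by
      intro b
      rw [hcart b, Prod.mk.injEq]
      constructor
      · rintro ⟨h3, h4⟩
        exact ⟨h4, by omega⟩
      · rintro ⟨h3, h4⟩
        exact ⟨by omega, h3⟩
    by_cases hcond : a + j = ordv d₁ + ordv d₂ ∧ j ≤ min (ordv d₁) (ordv d₂)
    · obtain ⟨hsum, hjM⟩ := hcond
      rcases eq_or_lt_of_le hjM with hjeq | hjlt
      · -- `j = M`
        have hE : {b | b ∈ B ∧ cartan (Y b) = (a, j)} = S j := by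
          ext b
          rw [hSmem j hjM b]
          simp only [Set.mem_ofPred_eq, hfib b]
          constructor
          · rintro ⟨hb, h3, _⟩
            exact ⟨hb, h3.ge⟩
          · rintro ⟨hb, h3⟩
            exact ⟨hb, le_antisymm (by rw [hjeq]; exact hLle b) h3, hsum⟩
        rw [hE]
        refine ⟨(hSI j hjM).1, ?_⟩
        rw [(hSI j hjM).2]
        unfold ctWeight
        rw [if_pos ⟨hsum, hjM⟩, if_pos hjeq, mul_one, Nat.cast_pow, ← zpow_natCast,
          ← zpow_mul, ← zpow_add₀ hq]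
        congr 1
        ring
      · -- `j < M`
        have hj1 : j + 1 ≤ min (ordv d₁) (ordv d₂) := hjlt
        have hsub : S (j + 1) ⊆ S j := by
          intro b hb
          rw [hSmem (j + 1) hj1 b] at hb
          rw [hSmem j hjM b]
          exact ⟨hb.1, by omega⟩
        have hE : {b | b ∈ B ∧ cartan (Y b) = (a, j)} = S j \ S (j + 1) := by
          ext b
          rw [Set.mem_sdiff, hSmem j hjM b, hSmem (j + 1) hj1 b]
          simp only [Set.mem_ofPred_eq, hfib b]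
          constructor
          · rintro ⟨hb, h3, _⟩
            exact ⟨⟨hb, h3.ge⟩, fun h => by omega⟩
          · rintro ⟨⟨hb, h3⟩, h4⟩
            refine ⟨hb, ?_, hsum⟩
            by_contra hne
            exact h4 ⟨hb, by omega⟩
        rw [hE]
        refine ⟨(hSI j hjM).1.subset Set.sdiff_subset, ?_⟩
        rw [Set.ncard_sdiff hsub (hSI (j + 1) hj1).1,
          Nat.cast_sub (Set.ncard_le_ncard hsub (hSI j hjM).1), (hSI j hjM).2,
          (hSI (j + 1) hj1).2]
        unfold ctWeight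
        rw [if_pos ⟨hsum, hjM⟩, if_neg hjlt.ne, Nat.cast_pow]
        exact ctw_alg830 (q : ℂ) hq l (ordv (t₁ - t₂)) j
    · have hE : {b | b ∈ B ∧ cartan (Y b) = (a, j)} = ∅ := by
        ext b
        simp only [Set.mem_ofPred_eq, hfib b, Set.mem_empty_iff_false, iff_false]
        rintro ⟨_, h3, h4⟩
        exact hcond ⟨h4, h3 ▸ hLle b⟩
      rw [hE]
      refine ⟨Set.finite_empty, ?_⟩
      unfold ctWeight
      rw [if_neg hcond, Set.ncard_empty]
      simp
  -- finiteness of the supports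
  have hsupp : ∀ ψ : (ℤ × ℤ) →₀ ℂ,
      (B ∩ Function.support (fun b => ψ (cartan (Y b)))).Finite := by
    intro ψ
    have hU : (⋃ lam ∈ ψ.support, {b | b ∈ B ∧ cartan (Y b) = lam}).Finite :=
      Set.Finite.biUnion ψ.support.finite_toSet (fun lam _ => (key lam).1)
    refine hU.subset ?_
    rintro b ⟨hb, hne⟩
    simp only [Set.mem_iUnion, Set.mem_ofPred_eq]
    exact ⟨cartan (Y b), Finsupp.mem_support_iff.2 hne, hb, rfl⟩
  -- the identity, by linearity
  have main : ∀ ψ : (ℤ × ℤ) →₀ ℂ, ∑ᶠ b ∈ B, ψ (cartan (Y b))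
      = (q : ℂ) ^ (ordv (t₁ - t₂)) * constTerm (q ^ l) ψ (ordv d₁) (ordv d₂) := by
    intro ψ
    induction ψ using Finsupp.induction_linear with
    | zero => simp [constTerm]
    | add f g hf hg =>
      have hadd : constTerm (q ^ l) (f + g) (ordv d₁) (ordv d₂)
          = constTerm (q ^ l) f (ordv d₁) (ordv d₂) + constTerm (q ^ l) g (ordv d₁) (ordv d₂) := by
        unfold constTerm
        exact Finsupp.sum_add_index' (fun _ => zero_mul _) (fun _ _ _ => add_mul _ _ _)
      simp only [Finsupp.add_apply]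
      rw [finsum_mem_add_distrib' (hsupp f) (hsupp g), hf, hg, hadd, mul_add]
    | single lam c =>
      have hsing : constTerm (q ^ l) (Finsupp.single lam c) (ordv d₁) (ordv d₂)
          = c * ctWeight (q ^ l) lam (ordv d₁) (ordv d₂) := by
        unfold constTerm
        exact Finsupp.sum_single_index (zero_mul _)
      rw [finsum_mem_single830 B (fun b => cartan (Y b)) lam c (key lam).1, (key lam).2, hsing]
      ring
  exact main φ

end Fermat.Agent.LT.T6.H830

end
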