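import Fermat.Agent.LT.T6.H830.HCSpec
import Fermat.Agent.LT.T6.H626.ArchCut

/-!
# Row LT, tower T6: adapter T6.29 → T6.20c (helper830), OFF-MAIN

`specRelC626_of_archSpec830 : H830.ArchSpecC → H626.SpecRelC626`
(`H626.SpecRelC626` of `Fermat/Agent/LT/T6/H626/ArchCut.lean`, helper626@d38e95c4d): the Abel
relation `IsAbelRel626` at `a = e^{ζ+r}`, `b = e^{ζ-r}` with the sections `bR (2ζ) (2r)`,
`bC ζ r` is the hypothesis of `ArchSpecC`.
-/

set_option autoImplicit false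

open scoped Matrix
open MeasureTheory

noncomputable section

namespace Fermat.Agent.LT.T6.H830

open Fermat.Agent.LT.T6 Fermat.Agent.LT.T6.H626

/-- The Abel relation of helper626 gives the matching of the Harish-Chandra transforms. -/
theorem hc_of_abelRel830 {c : ℂ} {φ : GL (Fin 2) ℂ → ℂ} {f₀ f₁ : GL (Fin 2) ℝ → ℂ}
    (h : IsAbelRel626 c φ f₀ f₁) (ζ r : ℝ) :
    hcR f₀ (2 * ζ) (2 * r) = c * hcC φ ζ r ∧ hcR f₁ (2 * ζ) (2 * r) = c * hcC φ ζ r := by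
  have hsq : ∀ t : ℝ, Real.sqrt (Real.exp t) = Real.exp (t / 2) := by
    intro t
    rw [Real.sqrt_eq_iff_mul_self_eq (Real.exp_pos _).le (Real.exp_pos _).le, ← Real.exp_add]
    congr 1
    ring
  have e1 : (2 * ζ + 2 * r) / 2 = ζ + r := by ring
  have e2 : (2 * ζ - 2 * r) / 2 = ζ - r := by ring
  refine h (Real.exp (ζ + r)) (Real.exp (ζ - r)) (Real.exp_pos _) (Real.exp_pos _)
    (fun x => bR (2 * ζ) (2 * r) x) (fun w => bC ζ r w) ?_ ?_
  · intro x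
    rw [coe_bR830, e1, e2]
  · intro w
    rw [coe_bC830, hsq, hsq]

/-- **Adapter**: T6.29 (`ArchSpecC`) gives T6.20c (`SpecRelC626`). -/
theorem specRelC626_of_archSpec830 (hA : ArchSpecC) : SpecRelC626 := by
  intro μ μ' hμ hμ' c hc n hn
  obtain ⟨C, hC, hrel⟩ := hA μ μ' hμ hμ'
  refine ⟨C * c, C * c, mul_ne_zero hC hc, mul_ne_zero hC hc, ?_⟩
  intro φ f₀ f₁ hφ hf₀ hf₁ hab
  have hn' : IsWt n := by
    rcases hn with h | h
    · exact Or.inr (Or.inl h)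
    · exact Or.inr (Or.inr h)
  refine ⟨?_, ?_⟩
  · exact hrel 0 (Or.inl rfl) f₀ φ hf₀ hφ c (fun ζ r _ => (hc_of_abelRel830 hab ζ r).1)
  · exact hrel n hn' f₁ φ hf₁ hφ c (fun ζ r _ => (hc_of_abelRel830 hab ζ r).2)

end Fermat.Agent.LT.T6.H830

end
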