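import Fermat.Agent.LT.T6.H830.HCTop
import Fermat.Agent.LT.T6.H830.HCTransC
import Fermat.Agent.LT.T6.H830.SpecRelAdapter
import Fermat.Agent.LT.T6.H543.CartanR
import Fermat.Agent.LT.T6.H162.SphAvgOf
import Fermat.Agent.LT.T6.H309.EisIwR
import Fermat.Agent.LT.T6.H283.CartanC
import Fermat.Agent.LT.T6.H698.SphCKernel
import Fermat.Agent.LT.T6.H841.WInt
import Fermat.Agent.LT.T6.H286.TriFubini

/-!
# Row LT, tower T6, station T6.29 `ArchSpec`: INTEGRATION of the closed leaves (helper830)

OFF-MAIN.  One closure, byte-identical copies of the leaf files: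

| leaf | owner | file |
|---|---|---|
| `CartanRC` | helper543@ad02e8db1 | `T6/H543/CartanR.lean` |
| `SphAvgOfC` | helper162@30fb177d7 | `T6/H162/SphAvgOf.lean` |
| `EisIwRC` | helper309@2829e0e39 | `T6/H309/EisIwR.lean` |
| `CartanCC` | helper283@152db8d1f | `T6/H283/{CartanC,CartanCore}.lean` |
| `SphCKernelC` | helper698@c51e99c3d | `T6/H698/SphCKernel.lean` |
| `WIntOfC` | helper841@3b0d63b80 | `T6/H841/WInt.lean` |
| `TriFubiniC` | helper286@9c5771ed2 | `T6/H286/TriFubini.lean` |
| `HCTransCOfC`, `MelSubstC`, tops, adapter | helper830 | `T6/H830/*.lean` |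

OPEN (hypotheses of `archSpecC_of_open830`): `IwasawaIntRC`, `IwasawaIntCC` (= T6.23),
`SphAvgAtC`, `EisIntRC`.
-/

set_option autoImplicit false

noncomputable section

namespace Fermat.Agent.LT.T6.H830

open Fermat.Agent.LT.T6

/-- The complex side is closed up to the Iwasawa formula. -/
theorem hcTransCC_of_iwasawa830 (hIC : IwasawaIntCC) : HCTransCC :=
  hcTransCOfC830 hIC (H841.wIntOf841 H283.cartanCC283) H698.sphCKernelC698 H286.triFubiniC286

/-- **T6.29 from the leaves still open.** -/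
theorem archSpecC_of_open830 (hIR : IwasawaIntRC) (hIC : IwasawaIntCC) (hAt : SphAvgAtC)
    (hInt : EisIntRC) : ArchSpecC :=
  archSpec_of_leaves830 hIR hIC H543.cartanRC_h543 hAt H162.sphAvgOfC162 hInt H309.eisIwRC309
    H283.cartanCC283 H841.wIntOf841 H698.sphCKernelC698 H286.triFubiniC286 hcTransCOfC830

/-- **T6.20c from the leaves still open.** -/
theorem specRelC626_of_open830 (hIR : IwasawaIntRC) (hIC : IwasawaIntCC) (hAt : SphAvgAtC)
    (hInt : EisIntRC) : H626.SpecRelC626 :=
  specRelC626_of_archSpec830 (archSpecC_of_open830 hIR hIC hAt hInt)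

end Fermat.Agent.LT.T6.H830

end
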