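import Fermat.Agent.LT.T6.H830.ConvHC

/-!
# Row LT, tower T6, asset ARCH-CONV (helper830): the convolution of two archimedean test functions
# is a test function

OFF-MAIN.  Complete proofs, nothing assumed.

    isArchTestR_conv830 : IwasawaIntRC → μ Haar → IsArchTestR n F₁ → IsArchTestR n F₂ →
        IsArchTestR n (convInt μ F₁ F₂)
    isArchTestC_conv830 : IwasawaIntCC → μ' Haar → IsArchTestC Φ₁ → IsArchTestC Φ₂ →
        IsArchTestC (convInt μ' Φ₁ Φ₂)

Smoothness: by the Iwasawa integration formula the convolution is the integral over the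
coordinates `(ζ, r, x)` of the Borel subgroup of a function which is smooth in the coordinates
and the parameters; `contDiff_paramInt830`.
-/

set_option autoImplicit false
set_option linter.unusedSimpArgs false
set_option linter.unusedSectionVars false
set_option linter.style.haveILetI false

open scoped Matrix ContDiff
open MeasureTheory

noncomputable section

namespace Fermat.Agent.LT.T6.H830

open Fermat.Agent.LT.T6

/-! ## 0. Topology of `GL₂` -/

theorem secondCountable_GL830 (K : Type*) [CommRing K] [TopologicalSpace K]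
    [SecondCountableTopology K] : SecondCountableTopology (GL (Fin 2) K) := by
  have h1 : SecondCountableTopology (Matrix (Fin 2) (Fin 2) K) :=
    inferInstanceAs (SecondCountableTopology (Fin 2 → Fin 2 → K))
  have : SecondCountableTopology (Matrix (Fin 2) (Fin 2) K)ᵐᵒᵖ :=
    (MulOpposite.opHomeomorph (M := (Matrix (Fin 2) (Fin 2) K))).symm.secondCountableTopology
  exact Units.isEmbedding_embedProduct.secondCountableTopology

/-! ## 1. The elementary properties (any group) -/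

section Elementary

variable {H : Type} [Group H] [TopologicalSpace H] [IsTopologicalGroup H]
  [SecondCountableTopology H] [T2Space H] [MeasurableSpace H] [BorelSpace H]
  (μ : Measure H) [μ.IsHaarMeasure]

theorem continuous_convInt830 {φ₁ φ₂ : H → ℂ} (h₁ : Continuous φ₁) (s₁ : HasCompactSupport φ₁)
    (h₂ : Continuous φ₂) (s₂ : HasCompactSupport φ₂) : Continuous (convInt μ φ₁ φ₂) := by
  obtain ⟨M, hM⟩ := h₂.bounded_above_of_compact_support s₂
  unfold convInt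
  refine continuous_of_dominated (bound := fun h => ‖φ₁ h‖ * M) ?_ ?_ ?_ ?_
  · intro g
    exact (h₁.mul (h₂.comp (continuous_inv.mul continuous_const))).aestronglyMeasurable
  · intro g
    refine Filter.Eventually.of_forall fun h => ?_
    rw [norm_mul]
    exact mul_le_mul_of_nonneg_left (hM _) (norm_nonneg _)
  · exact (h₁.norm.mul continuous_const).integrable_of_hasCompactSupport s₁.norm.mul_right
  · refine Filter.Eventually.of_forall fun h => ?_
    exact continuous_const.mul (h₂.comp (continuous_const.mul continuous_id))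

theorem hasCompactSupport_convInt830 {φ₁ φ₂ : H → ℂ} (s₁ : HasCompactSupport φ₁)
    (s₂ : HasCompactSupport φ₂) : HasCompactSupport (convInt μ φ₁ φ₂) := by
  refine HasCompactSupport.intro (s₁.isCompact.mul s₂.isCompact) (fun g hg => ?_)
  unfold convInt
  have : ∀ h : H, φ₁ h * φ₂ (h⁻¹ * g) = 0 := by
    intro h
    by_contra hne
    apply hg
    have e1 : φ₁ h ≠ 0 := left_ne_zero_of_mul hne
    have e2 : φ₂ (h⁻¹ * g) ≠ 0 := right_ne_zero_of_mul hne
    exact ⟨h, subset_tsupport _ e1, h⁻¹ * g, subset_tsupport _ e2, by group⟩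
  simp only [this, integral_zero]

theorem convInt_ne_zero830 {φ₁ φ₂ : H → ℂ} {g : H} (hg : convInt μ φ₁ φ₂ g ≠ 0) :
    ∃ h : H, φ₁ h ≠ 0 ∧ φ₂ (h⁻¹ * g) ≠ 0 := by
  by_contra hne
  apply hg
  unfold convInt
  have : ∀ h : H, φ₁ h * φ₂ (h⁻¹ * g) = 0 := by
    intro h
    by_cases e1 : φ₁ h = 0
    · rw [e1, zero_mul]
    · by_cases e2 : φ₂ (h⁻¹ * g) = 0
      · rw [e2, mul_zero]
      · exact absurd ⟨h, e1, e2⟩ hne
  simp only [this, integral_zero]

theorem convInt_left830 {φ₁ φ₂ : H → ℂ} {χ : ℂ} {k : H} (hk : ∀ h : H, φ₁ (k * h) = χ * φ₁ h)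
    (g : H) : convInt μ φ₁ φ₂ (k * g) = χ * convInt μ φ₁ φ₂ g := by
  unfold convInt
  rw [← integral_mul_left_eq_self (fun h => φ₁ h * φ₂ (h⁻¹ * (k * g))) k, ← integral_const_mul]
  refine integral_congr_ae (Filter.Eventually.of_forall fun h => ?_)
  have e : (k * h)⁻¹ * (k * g) = h⁻¹ * g := by group
  simp only [e, hk]
  ring

theorem convInt_right830 {φ₁ φ₂ : H → ℂ} {χ : ℂ} {k : H} (hk : ∀ h : H, φ₂ (h * k) = χ * φ₂ h)
    (g : H) : convInt μ φ₁ φ₂ (g * k) = χ * convInt μ φ₁ φ₂ g := by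
  unfold convInt
  rw [← integral_const_mul]
  refine integral_congr_ae (Filter.Eventually.of_forall fun h => ?_)
  have e : h⁻¹ * (g * k) = (h⁻¹ * g) * k := by group
  simp only [e, hk]
  ring

end Elementary

/-! ## 2. Smooth families in `GL₂` -/

section Families

variable {𝕜 : Type*} [RCLike 𝕜]
variable {P : Type*} [NormedAddCommGroup P] [NormedSpace ℝ P]

/-- The entries of a family in `GL₂` are smooth. -/
def SmoothFam830 (A : P → GL (Fin 2) 𝕜) : Prop :=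
  ∀ i j : Fin 2, ContDiff ℝ ∞ (fun s => ((A s : GL (Fin 2) 𝕜) : Matrix (Fin 2) (Fin 2) 𝕜) i j)

theorem smoothFam_mul830 {A B : P → GL (Fin 2) 𝕜} (hA : SmoothFam830 A) (hB : SmoothFam830 B) :
    SmoothFam830 (fun s => A s * B s) := by
  intro i j
  have e : (fun s => ((A s * B s : GL (Fin 2) 𝕜) : Matrix (Fin 2) (Fin 2) 𝕜) i j)
      = fun s => ((A s : GL (Fin 2) 𝕜) : Matrix (Fin 2) (Fin 2) 𝕜) i 0
          * ((B s : GL (Fin 2) 𝕜) : Matrix (Fin 2) (Fin 2) 𝕜) 0 j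
        + ((A s : GL (Fin 2) 𝕜) : Matrix (Fin 2) (Fin 2) 𝕜) i 1
          * ((B s : GL (Fin 2) 𝕜) : Matrix (Fin 2) (Fin 2) 𝕜) 1 j := by
    funext s
    rw [Units.val_mul, Matrix.mul_apply, Fin.sum_univ_two]
  rw [e]
  exact ((hA i 0).mul (hB 0 j)).add ((hA i 1).mul (hB 1 j))

theorem smoothFam_const830 (g : GL (Fin 2) 𝕜) : SmoothFam830 (fun _ : P => g) :=
  fun _ _ => contDiff_const

theorem smoothFam_comp830 {Q : Type*} [NormedAddCommGroup Q] [NormedSpace ℝ Q]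
    {A : Q → GL (Fin 2) 𝕜} (hA : SmoothFam830 A) {L : P → Q} (hL : ContDiff ℝ ∞ L) :
    SmoothFam830 (fun s => A (L s)) :=
  fun i j => (hA i j).comp hL

end Families

section FamR

variable {P : Type*} [NormedAddCommGroup P] [NormedSpace ℝ P]

theorem smoothFam_bR830 {l₁ l₂ l₃ : P → ℝ} (h₁ : ContDiff ℝ ∞ l₁) (h₂ : ContDiff ℝ ∞ l₂)
    (h₃ : ContDiff ℝ ∞ l₃) : SmoothFam830 (𝕜 := ℝ) (fun s => bR (l₁ s) (l₂ s) (l₃ s)) := by
  have e1 : ContDiff ℝ ∞ (fun s => Real.exp ((l₁ s + l₂ s) / 2)) :=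
    Real.contDiff_exp.comp ((h₁.add h₂).div_const 2)
  have e2 : ContDiff ℝ ∞ (fun s => Real.exp ((l₁ s - l₂ s) / 2)) :=
    Real.contDiff_exp.comp ((h₁.sub h₂).div_const 2)
  intro i j
  simp only [coe_bR830]
  fin_cases i <;> fin_cases j
  · simpa using e1
  · simpa using e1.mul h₃
  · simpa using (contDiff_const : ContDiff ℝ ∞ (fun _ : P => (0 : ℝ)))
  · simpa using e2

theorem bR_zero830 : bR 0 0 0 = 1 := by
  apply Units.ext
  show ((bR 0 0 0 : GL (Fin 2) ℝ) : Matrix (Fin 2) (Fin 2) ℝ) = 1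
  rw [coe_bR830]
  ext i j
  fin_cases i <;> fin_cases j <;> simp

theorem bR_inv830 (a b y : ℝ) : (bR a b y)⁻¹ = bR (-a) (-b) (-(Real.exp b * y)) := by
  have h := bR_inv_mul830 a b y 0 0 0
  rw [bR_zero830, mul_one] at h
  rw [h]
  congr 1
  · ring
  · ring
  · simp

theorem smoothFam_bR_inv830 {l₁ l₂ l₃ : P → ℝ} (h₁ : ContDiff ℝ ∞ l₁) (h₂ : ContDiff ℝ ∞ l₂)
    (h₃ : ContDiff ℝ ∞ l₃) : SmoothFam830 (𝕜 := ℝ) (fun s => (bR (l₁ s) (l₂ s) (l₃ s))⁻¹) := by
  simp only [bR_inv830]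
  exact smoothFam_bR830 h₁.neg h₂.neg ((Real.contDiff_exp.comp h₂).mul h₃).neg

end FamR

section FamC

variable {P : Type*} [NormedAddCommGroup P] [NormedSpace ℝ P]

theorem smoothFam_bC830 {l₁ l₂ : P → ℝ} {l₃ : P → ℂ} (h₁ : ContDiff ℝ ∞ l₁)
    (h₂ : ContDiff ℝ ∞ l₂) (h₃ : ContDiff ℝ ∞ l₃) :
    SmoothFam830 (𝕜 := ℂ) (fun s => bC (l₁ s) (l₂ s) (l₃ s)) := by
  have e1 : ContDiff ℝ ∞ (fun s => ((Real.exp ((l₁ s + l₂ s) / 2) : ℝ) : ℂ)) :=
    Complex.ofRealCLM.contDiff.comp (Real.contDiff_exp.comp ((h₁.add h₂).div_const 2))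
  have e2 : ContDiff ℝ ∞ (fun s => ((Real.exp ((l₁ s - l₂ s) / 2) : ℝ) : ℂ)) :=
    Complex.ofRealCLM.contDiff.comp (Real.contDiff_exp.comp ((h₁.sub h₂).div_const 2))
  intro i j
  simp only [coe_bC830]
  fin_cases i <;> fin_cases j
  · simpa only [Matrix.of_apply, Matrix.cons_val', Matrix.cons_val_zero, Matrix.cons_val_one,
      Matrix.cons_val_fin_one, Fin.zero_eta, Fin.mk_one] using e1
  · simpa only [Matrix.of_apply, Matrix.cons_val', Matrix.cons_val_zero, Matrix.cons_val_one,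
      Matrix.cons_val_fin_one, Fin.zero_eta, Fin.mk_one] using e1.mul h₃
  · simpa only [Matrix.of_apply, Matrix.cons_val', Matrix.cons_val_zero, Matrix.cons_val_one,
      Matrix.cons_val_fin_one, Fin.zero_eta, Fin.mk_one]
      using (contDiff_const : ContDiff ℝ ∞ (fun _ : P => (0 : ℂ)))
  · simpa only [Matrix.of_apply, Matrix.cons_val', Matrix.cons_val_zero, Matrix.cons_val_one,
      Matrix.cons_val_fin_one, Fin.zero_eta, Fin.mk_one] using e2

theorem bC_zero830 : bC 0 0 0 = 1 := by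
  apply Units.ext
  show ((bC 0 0 0 : GL (Fin 2) ℂ) : Matrix (Fin 2) (Fin 2) ℂ) = 1
  rw [coe_bC830]
  ext i j
  fin_cases i <;> fin_cases j <;> simp

theorem bC_inv830 (a b : ℝ) (y : ℂ) :
    (bC a b y)⁻¹ = bC (-a) (-b) (-(((Real.exp b : ℝ) : ℂ) * y)) := by
  have h := bC_inv_mul830 a b y 0 0 0
  rw [bC_zero830, mul_one] at h
  rw [h]
  congr 1
  · ring
  · ring
  · simp [Complex.real_smul]

theorem smoothFam_bC_inv830 {l₁ l₂ : P → ℝ} {l₃ : P → ℂ} (h₁ : ContDiff ℝ ∞ l₁)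
    (h₂ : ContDiff ℝ ∞ l₂) (h₃ : ContDiff ℝ ∞ l₃) :
    SmoothFam830 (𝕜 := ℂ) (fun s => (bC (l₁ s) (l₂ s) (l₃ s))⁻¹) := by
  simp only [bC_inv830]
  exact smoothFam_bC830 h₁.neg h₂.neg
    ((Complex.ofRealCLM.contDiff.comp (Real.contDiff_exp.comp h₂)).mul h₃).neg

end FamC

/-! ## 3. Smoothness of the convolution, real place -/

section SmoothR

/-- The coordinates and the parameters in one space. -/
def joinR830 (m : ℕ) (p : (ℝ × ℝ × ℝ) × (Fin m → ℝ)) : Fin (3 + m) → ℝ :=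
  Fin.append ![p.1.1, p.1.2.1, p.1.2.2] p.2

theorem contDiff_joinR830 (m : ℕ) : ContDiff ℝ ∞ (joinR830 m) := by
  rw [contDiff_pi]
  intro i
  refine Fin.addCases (fun j => ?_) (fun j => ?_) i
  · simp only [joinR830, Fin.append_left]
    fin_cases j
    · exact contDiff_fst.comp contDiff_fst
    · exact contDiff_fst.comp (contDiff_snd.comp contDiff_fst)
    · exact contDiff_snd.comp (contDiff_snd.comp contDiff_fst)
  · simp only [joinR830, Fin.append_right]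
    exact (contDiff_apply ℝ ℝ j).comp contDiff_snd

/-- The family of the convolution. -/
def famR830 (m : ℕ) (g₀ : GL (Fin 2) ℝ) (h : (Fin m → ℝ) → GL (Fin 2) ℝ)
    (s : Fin (3 + m) → ℝ) : GL (Fin 2) ℝ :=
  (bR (s (Fin.castAdd m 0)) (s (Fin.castAdd m 1)) (s (Fin.castAdd m 2)))⁻¹ *
    (g₀ * h (fun i => s (Fin.natAdd 3 i)))

theorem smoothFam_famR830 (m : ℕ) (g₀ : GL (Fin 2) ℝ) {h : (Fin m → ℝ) → GL (Fin 2) ℝ}
    (hh : SmoothFam830 (𝕜 := ℝ) h) : SmoothFam830 (𝕜 := ℝ) (famR830 m g₀ h) := by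
  unfold famR830
  refine smoothFam_mul830 (smoothFam_bR_inv830 (contDiff_apply ℝ ℝ _) (contDiff_apply ℝ ℝ _)
    (contDiff_apply ℝ ℝ _)) (smoothFam_mul830 (smoothFam_const830 g₀)
      (smoothFam_comp830 hh (L := fun (s : Fin (3 + m) → ℝ) (i : Fin m) => s (Fin.natAdd 3 i))
        (contDiff_pi.2 fun i => contDiff_apply ℝ ℝ _)))

theorem famR_join830 (m : ℕ) (g₀ : GL (Fin 2) ℝ) (h : (Fin m → ℝ) → GL (Fin 2) ℝ)
    (p : (ℝ × ℝ × ℝ) × (Fin m → ℝ)) :
    famR830 m g₀ h (joinR830 m p) = (bR p.1.1 p.1.2.1 p.1.2.2)⁻¹ * (g₀ * h p.2) := by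
  unfold famR830 joinR830
  have e : (fun i : Fin m => (Fin.append ![p.1.1, p.1.2.1, p.1.2.2] p.2 : Fin (3 + m) → ℝ)
      (Fin.natAdd 3 i)) = p.2 := by
    funext i
    rw [Fin.append_right]
  rw [e, Fin.append_left, Fin.append_left, Fin.append_left]
  rfl

/-- The family of the first factor. -/
def famR1_830 (m : ℕ) (s : Fin (3 + m) → ℝ) : GL (Fin 2) ℝ :=
  bR (s (Fin.castAdd m 0)) (s (Fin.castAdd m 1)) (s (Fin.castAdd m 2))

theorem smoothFam_famR1_830 (m : ℕ) : SmoothFam830 (𝕜 := ℝ) (famR1_830 m) :=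
  smoothFam_bR830 (contDiff_apply ℝ ℝ _) (contDiff_apply ℝ ℝ _) (contDiff_apply ℝ ℝ _)

theorem famR1_join830 (m : ℕ) (p : (ℝ × ℝ × ℝ) × (Fin m → ℝ)) :
    famR1_830 m (joinR830 m p) = bR p.1.1 p.1.2.1 p.1.2.2 := by
  unfold famR1_830 joinR830
  rw [Fin.append_left, Fin.append_left, Fin.append_left]
  rfl

/-- **Smoothness of the convolution along smooth families, real place.** -/
theorem smooth_convInt_R830 {μ : @Measure (GL (Fin 2) ℝ) (borel _)} {c : ℝ}
    (hI : ∀ F : GL (Fin 2) ℝ → ℂ, Continuous F → HasCompactSupport F →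
      (∀ g : GL (Fin 2) ℝ, F g ≠ 0 → 0 < (g : Matrix (Fin 2) (Fin 2) ℝ).det) →
      (∀ k g : GL (Fin 2) ℝ, InSO2 k → F (g * k) = F g) →
      @integral _ _ _ _ (borel _) μ F = (c : ℂ) * ∫ ζ : ℝ, ∫ r : ℝ, ∫ x : ℝ, F (bR ζ r x))
    {n : ℤ} {F₁ F₂ : GL (Fin 2) ℝ → ℂ} (h₁ : IsArchTestR n F₁) (h₂ : IsArchTestR n F₂)
    (m : ℕ) (h : (Fin m → ℝ) → GL (Fin 2) ℝ)
    (hh : ∀ i j : Fin 2,
      ContDiff ℝ ∞ (fun t => ((h t : GL (Fin 2) ℝ) : Matrix (Fin 2) (Fin 2) ℝ) i j))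
    (g₀ : GL (Fin 2) ℝ) :
    ContDiff ℝ ∞ (fun t => @convInt _ _ (borel _) μ F₁ F₂ (g₀ * h t)) := by
  obtain ⟨B, hB⟩ := H372.bR_bounds372 h₁.supp
  set Φ : (ℝ × ℝ × ℝ) × (Fin m → ℝ) → ℂ := fun p =>
    F₁ (bR p.1.1 p.1.2.1 p.1.2.2) * F₂ ((bR p.1.1 p.1.2.1 p.1.2.2)⁻¹ * (g₀ * h p.2)) with hΦdef
  -- smoothness of `Φ`
  have hΦ : ContDiff ℝ ∞ Φ := by
    have a1 := (h₁.smooth (3 + m) (famR1_830 m) (smoothFam_famR1_830 m) 1).comp
      (contDiff_joinR830 m)
    have a2 := (h₂.smooth (3 + m) (famR830 m g₀ h) (smoothFam_famR830 m g₀ hh) 1).comp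
      (contDiff_joinR830 m)
    have e : Φ = fun p => (F₁ (1 * famR1_830 m (joinR830 m p)))
        * (F₂ (1 * famR830 m g₀ h (joinR830 m p))) := by
      funext p
      rw [famR1_join830, famR_join830, one_mul, one_mul]
    rw [e]
    exact a1.mul a2
  -- support
  have hsupp : ∀ (t : Fin m → ℝ) (q : ℝ × ℝ × ℝ), q ∉ Metric.closedBall (0 : ℝ × ℝ × ℝ) B →
      Φ (q, t) = 0 := by
    intro t q hq
    by_contra hne
    apply hq
    have hF : F₁ (bR q.1 q.2.1 q.2.2) ≠ 0 := left_ne_zero_of_mul hne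
    obtain ⟨b1, b2, b3⟩ := hB _ _ _ hF
    rw [Metric.mem_closedBall, dist_zero_right, Prod.norm_def, Prod.norm_def]
    exact max_le b1 (max_le b2 b3)
  have hint : ∀ t : Fin m → ℝ, @convInt _ _ (borel _) μ F₁ F₂ (g₀ * h t)
      = (c : ℂ) * ∫ q, Φ (q, t) ∂(volume.restrict (Metric.closedBall (0 : ℝ × ℝ × ℝ) B)) := by
    intro t
    rw [conv_iwasawa830 hI h₁ h₂]
    congr 1
    have hc : Continuous (fun q : ℝ × ℝ × ℝ => Φ (q, t)) :=
      hΦ.continuous.comp (Continuous.prodMk_left t)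
    have hs : HasCompactSupport (fun q : ℝ × ℝ × ℝ => Φ (q, t)) :=
      HasCompactSupport.intro (isCompact_closedBall _ _) (hsupp t)
    rw [setIntegral_eq_integral_of_forall_compl_eq_zero (hsupp t), iter3_830 hc hs]
  simp only [hint]
  haveI : IsFiniteMeasure (volume.restrict (Metric.closedBall (0 : ℝ × ℝ × ℝ) B)) :=
    ⟨by
      rw [Measure.restrict_apply_univ]
      exact (isCompact_closedBall _ _).measure_lt_top⟩
  refine contDiff_const.mul ?_
  refine contDiff_paramInt830 (volume.restrict (Metric.closedBall (0 : ℝ × ℝ × ℝ) B)) Φ hΦ id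
    measurable_id B ?_
  exact ae_restrict_of_forall_mem Metric.isClosed_closedBall.measurableSet
    (fun y hy => by simpa [Metric.mem_closedBall, dist_zero_right] using hy)

end SmoothR

/-- **ARCH-CONV, L3**: the convolution of two test functions of weight `n` on `GL₂(ℝ)` is a test
function of weight `n`. -/
theorem isArchTestR_conv830 (hIR : IwasawaIntRC) (μ : @Measure (GL (Fin 2) ℝ) (borel _))
    (hμ : @Measure.IsHaarMeasure _ _ _ (borel _) μ) {n : ℤ} {F₁ F₂ : GL (Fin 2) ℝ → ℂ}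
    (h₁ : IsArchTestR n F₁) (h₂ : IsArchTestR n F₂) :
    IsArchTestR n (@convInt _ _ (borel _) μ F₁ F₂) := by
  obtain ⟨c, -, hI⟩ := hIR μ hμ
  letI : MeasurableSpace (GL (Fin 2) ℝ) := borel _
  haveI : BorelSpace (GL (Fin 2) ℝ) := ⟨rfl⟩
  haveI := secondCountable_GL830 ℝ
  haveI := hμ
  refine ⟨continuous_convInt830 μ h₁.cont h₁.supp h₂.cont h₂.supp,
    hasCompactSupport_convInt830 μ h₁.supp h₂.supp,
    fun m h hh g₀ => smooth_convInt_R830 hI h₁ h₂ m h hh g₀, ?_, ?_, ?_⟩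
  · intro g hg
    obtain ⟨h, e1, e2⟩ := convInt_ne_zero830 μ hg
    have d1 := h₁.pos h e1
    have d2 := h₂.pos _ e2
    have e : g = h * (h⁻¹ * g) := by group
    rw [e, Units.val_mul, Matrix.det_mul]
    exact mul_pos d1 d2
  · intro k g hk
    exact convInt_left830 μ (fun h => h₁.left k h hk) g
  · intro k g hk
    exact convInt_right830 μ (fun h => h₂.right k h hk) g

/-! ## 4. Smoothness of the convolution, complex place -/

section SmoothC

/-- The coordinates and the parameters in one space. -/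
def joinC830 (m : ℕ) (p : (ℝ × ℝ × ℂ) × (Fin m → ℝ)) : Fin (4 + m) → ℝ :=
  Fin.append ![p.1.1, p.1.2.1, p.1.2.2.re, p.1.2.2.im] p.2

theorem contDiff_joinC830 (m : ℕ) : ContDiff ℝ ∞ (joinC830 m) := by
  rw [contDiff_pi]
  intro i
  refine Fin.addCases (fun j => ?_) (fun j => ?_) i
  · simp only [joinC830, Fin.append_left]
    fin_cases j
    · exact contDiff_fst.comp contDiff_fst
    · exact contDiff_fst.comp (contDiff_snd.comp contDiff_fst)
    · exact Complex.reCLM.contDiff.comp (contDiff_snd.comp (contDiff_snd.comp contDiff_fst))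
    · exact Complex.imCLM.contDiff.comp (contDiff_snd.comp (contDiff_snd.comp contDiff_fst))
  · simp only [joinC830, Fin.append_right]
    exact (contDiff_apply ℝ ℝ j).comp contDiff_snd

/-- The complex coordinate. -/
def wOf830 (m : ℕ) (s : Fin (4 + m) → ℝ) : ℂ :=
  ((s (Fin.castAdd m 2) : ℝ) : ℂ) + ((s (Fin.castAdd m 3) : ℝ) : ℂ) * Complex.I

theorem contDiff_wOf830 (m : ℕ) : ContDiff ℝ ∞ (wOf830 m) := by
  unfold wOf830
  exact (Complex.ofRealCLM.contDiff.comp (contDiff_apply ℝ ℝ _)).add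
    ((Complex.ofRealCLM.contDiff.comp (contDiff_apply ℝ ℝ _)).mul contDiff_const)

/-- The family of the convolution. -/
def famC830 (m : ℕ) (g₀ : GL (Fin 2) ℂ) (h : (Fin m → ℝ) → GL (Fin 2) ℂ)
    (s : Fin (4 + m) → ℝ) : GL (Fin 2) ℂ :=
  (bC (s (Fin.castAdd m 0)) (s (Fin.castAdd m 1)) (wOf830 m s))⁻¹ *
    (g₀ * h (fun i => s (Fin.natAdd 4 i)))

theorem smoothFam_famC830 (m : ℕ) (g₀ : GL (Fin 2) ℂ) {h : (Fin m → ℝ) → GL (Fin 2) ℂ}
    (hh : SmoothFam830 (𝕜 := ℂ) h) : SmoothFam830 (𝕜 := ℂ) (famC830 m g₀ h) := by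
  unfold famC830
  refine smoothFam_mul830 (smoothFam_bC_inv830 (contDiff_apply ℝ ℝ _) (contDiff_apply ℝ ℝ _)
    (contDiff_wOf830 m)) (smoothFam_mul830 (smoothFam_const830 g₀)
      (smoothFam_comp830 hh (L := fun (s : Fin (4 + m) → ℝ) (i : Fin m) => s (Fin.natAdd 4 i))
        (contDiff_pi.2 fun i => contDiff_apply ℝ ℝ _)))

theorem wOf_join830 (m : ℕ) (p : (ℝ × ℝ × ℂ) × (Fin m → ℝ)) :
    wOf830 m (joinC830 m p) = p.1.2.2 := by
  unfold wOf830 joinC830
  rw [Fin.append_left, Fin.append_left]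
  exact Complex.re_add_im p.1.2.2

theorem famC_join830 (m : ℕ) (g₀ : GL (Fin 2) ℂ) (h : (Fin m → ℝ) → GL (Fin 2) ℂ)
    (p : (ℝ × ℝ × ℂ) × (Fin m → ℝ)) :
    famC830 m g₀ h (joinC830 m p) = (bC p.1.1 p.1.2.1 p.1.2.2)⁻¹ * (g₀ * h p.2) := by
  unfold famC830
  rw [wOf_join830]
  unfold joinC830
  have e : (fun i : Fin m =>
      (Fin.append ![p.1.1, p.1.2.1, p.1.2.2.re, p.1.2.2.im] p.2 : Fin (4 + m) → ℝ)
      (Fin.natAdd 4 i)) = p.2 := by
    funext i
    rw [Fin.append_right]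
  rw [e, Fin.append_left, Fin.append_left]
  rfl

/-- The family of the first factor. -/
def famC1_830 (m : ℕ) (s : Fin (4 + m) → ℝ) : GL (Fin 2) ℂ :=
  bC (s (Fin.castAdd m 0)) (s (Fin.castAdd m 1)) (wOf830 m s)

theorem smoothFam_famC1_830 (m : ℕ) : SmoothFam830 (𝕜 := ℂ) (famC1_830 m) :=
  smoothFam_bC830 (contDiff_apply ℝ ℝ _) (contDiff_apply ℝ ℝ _) (contDiff_wOf830 m)

theorem famC1_join830 (m : ℕ) (p : (ℝ × ℝ × ℂ) × (Fin m → ℝ)) :
    famC1_830 m (joinC830 m p) = bC p.1.1 p.1.2.1 p.1.2.2 := by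
  unfold famC1_830
  rw [wOf_join830]
  unfold joinC830
  rw [Fin.append_left, Fin.append_left]
  rfl

/-- **Smoothness of the convolution along smooth families, complex place.** -/
theorem smooth_convInt_C830 {μ : @Measure (GL (Fin 2) ℂ) (borel _)} {c : ℝ}
    (hI : ∀ F : GL (Fin 2) ℂ → ℂ, Continuous F → HasCompactSupport F →
      (∀ k g : GL (Fin 2) ℂ, InU2 k → F (g * k) = F g) →
      @integral _ _ _ _ (borel _) μ F = (c : ℂ) * ∫ ζ : ℝ, ∫ r : ℝ, ∫ w : ℂ, F (bC ζ r w))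
    {Φ₁ Φ₂ : GL (Fin 2) ℂ → ℂ} (h₁ : IsArchTestC Φ₁) (h₂ : IsArchTestC Φ₂)
    (m : ℕ) (h : (Fin m → ℝ) → GL (Fin 2) ℂ)
    (hh : ∀ i j : Fin 2,
      ContDiff ℝ ∞ (fun t => ((h t : GL (Fin 2) ℂ) : Matrix (Fin 2) (Fin 2) ℂ) i j))
    (g₀ : GL (Fin 2) ℂ) :
    ContDiff ℝ ∞ (fun t => @convInt _ _ (borel _) μ Φ₁ Φ₂ (g₀ * h t)) := by
  obtain ⟨B, hB⟩ := bC_bounds830 h₁.supp
  set Φ : (ℝ × ℝ × ℂ) × (Fin m → ℝ) → ℂ := fun p =>
    Φ₁ (bC p.1.1 p.1.2.1 p.1.2.2) * Φ₂ ((bC p.1.1 p.1.2.1 p.1.2.2)⁻¹ * (g₀ * h p.2)) with hΦdef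
  have hΦ : ContDiff ℝ ∞ Φ := by
    have a1 := (h₁.smooth (4 + m) (famC1_830 m) (smoothFam_famC1_830 m) 1).comp
      (contDiff_joinC830 m)
    have a2 := (h₂.smooth (4 + m) (famC830 m g₀ h) (smoothFam_famC830 m g₀ hh) 1).comp
      (contDiff_joinC830 m)
    have e : Φ = fun p => (Φ₁ (1 * famC1_830 m (joinC830 m p)))
        * (Φ₂ (1 * famC830 m g₀ h (joinC830 m p))) := by
      funext p
      rw [famC1_join830, famC_join830, one_mul, one_mul]
    rw [e]
    exact a1.mul a2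
  have hsupp : ∀ (t : Fin m → ℝ) (q : ℝ × ℝ × ℂ), q ∉ Metric.closedBall (0 : ℝ × ℝ × ℂ) B →
      Φ (q, t) = 0 := by
    intro t q hq
    by_contra hne
    apply hq
    have hF : Φ₁ (bC q.1 q.2.1 q.2.2) ≠ 0 := left_ne_zero_of_mul hne
    obtain ⟨b1, b2, b3⟩ := hB _ _ _ hF
    rw [Metric.mem_closedBall, dist_zero_right, Prod.norm_def, Prod.norm_def]
    exact max_le b1 (max_le b2 b3)
  have hint : ∀ t : Fin m → ℝ, @convInt _ _ (borel _) μ Φ₁ Φ₂ (g₀ * h t)
      = (c : ℂ) * ∫ q, Φ (q, t) ∂(volume.restrict (Metric.closedBall (0 : ℝ × ℝ × ℂ) B)) := by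
    intro t
    rw [conv_iwasawaC830 hI h₁ h₂]
    congr 1
    have hc : Continuous (fun q : ℝ × ℝ × ℂ => Φ (q, t)) :=
      hΦ.continuous.comp (Continuous.prodMk_left t)
    have hs : HasCompactSupport (fun q : ℝ × ℝ × ℂ => Φ (q, t)) :=
      HasCompactSupport.intro (isCompact_closedBall _ _) (hsupp t)
    rw [setIntegral_eq_integral_of_forall_compl_eq_zero (hsupp t), iter3_830 hc hs]
  simp only [hint]
  haveI : IsFiniteMeasure (volume.restrict (Metric.closedBall (0 : ℝ × ℝ × ℂ) B)) :=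
    ⟨by
      rw [Measure.restrict_apply_univ]
      exact (isCompact_closedBall _ _).measure_lt_top⟩
  refine contDiff_const.mul ?_
  refine contDiff_paramInt830 (volume.restrict (Metric.closedBall (0 : ℝ × ℝ × ℂ) B)) Φ hΦ id
    measurable_id B ?_
  exact ae_restrict_of_forall_mem Metric.isClosed_closedBall.measurableSet
    (fun y hy => by simpa [Metric.mem_closedBall, dist_zero_right] using hy)

end SmoothC

/-- **ARCH-CONV, L4**: the convolution of two bi-`U(2)`-invariant test functions on `GL₂(ℂ)` is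
a bi-`U(2)`-invariant test function. -/
theorem isArchTestC_conv830 (hIC : IwasawaIntCC) (μ : @Measure (GL (Fin 2) ℂ) (borel _))
    (hμ : @Measure.IsHaarMeasure _ _ _ (borel _) μ) {Φ₁ Φ₂ : GL (Fin 2) ℂ → ℂ}
    (h₁ : IsArchTestC Φ₁) (h₂ : IsArchTestC Φ₂) :
    IsArchTestC (@convInt _ _ (borel _) μ Φ₁ Φ₂) := by
  obtain ⟨c, -, hI⟩ := hIC μ hμ
  letI : MeasurableSpace (GL (Fin 2) ℂ) := borel _
  haveI : BorelSpace (GL (Fin 2) ℂ) := ⟨rfl⟩
  haveI := secondCountable_GL830 ℂ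
  haveI := hμ
  refine ⟨continuous_convInt830 μ h₁.cont h₁.supp h₂.cont h₂.supp,
    hasCompactSupport_convInt830 μ h₁.supp h₂.supp,
    fun m h hh g₀ => smooth_convInt_C830 hI h₁ h₂ m h hh g₀, ?_, ?_⟩
  · intro k g hk
    have := convInt_left830 μ (φ₁ := Φ₁) (φ₂ := Φ₂) (χ := 1) (k := k)
      (fun h => by rw [h₁.left k h hk, one_mul]) g
    rw [this, one_mul]
  · intro k g hk
    have := convInt_right830 μ (φ₁ := Φ₁) (φ₂ := Φ₂) (χ := 1) (k := k)
      (fun h => by rw [h₂.right k h hk, one_mul]) g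
    rw [this, one_mul]

/-! ## Appendix: the equation lemmas of the definitions of this file are realised HERE -/

theorem eqns_realised_convTest830 : True := by
  have _h0 := @SmoothFam830.eq_1.{0, 0}
  have _h1 := @SmoothFam830.eq_def.{0, 0}
  have _h2 := @joinR830.eq_1
  have _h3 := @joinR830.eq_def
  have _h4 := @famR830.eq_1
  have _h5 := @famR830.eq_def
  have _h6 := @famR1_830.eq_1
  have _h7 := @famR1_830.eq_def
  have _h8 := @joinC830.eq_1
  have _h9 := @joinC830.eq_def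
  have _h10 := @wOf830.eq_1
  have _h11 := @wOf830.eq_def
  have _h12 := @famC830.eq_1
  have _h13 := @famC830.eq_def
  have _h14 := @famC1_830.eq_1
  have _h15 := @famC1_830.eq_def
  trivial

end Fermat.Agent.LT.T6.H830

end
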