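import Fermat.Agent.LT.T6.H830.ConvAbel
import Fermat.Agent.LT.T6.H830.ConvTest
import Fermat.Agent.LT.T6.H830.HCClosed3

/-!
# Row LT, tower T6, asset ARCH-CONV (helper830, deputy F/Q "archimedean wiring"):
# THE ARCHIMEDEAN LOCAL SHAPE OF THE QUADRATIC STEP IS CLOSED UNDER CONVOLUTION

OFF-MAIN.  Complete proofs, nothing assumed.  ADDITIVE (new names only, suffix `830`).

## The local shape

`IsArchPair830 c n Φ F G`: `Φ` is a bi-`U(2)`-invariant test function on `GL₂(ℂ)`, `F` a test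
function of weight `0` and `G` a test function of weight `n` on `GL₂(ℝ)`, in the ABEL RELATION
with constant `c` (`H626.IsAbelRel626 c Φ F G`: the `N`-integrals of `F` and of `G` at
`diag(a, b)` are `c` times the `N`-integral of `Φ` at `diag(√a, √b)`).

* it is what the construction has: T3.18M upstairs, T3.18R downstairs prescribe the
  `N`-integrals (`T3.H830.isAbelRel_iff830`: `HasAbelN Φ β'`, `HasAbelNR F (half830 c β')`,
  `HasAbelNR G (half830 c β')` ⇔ the Abel relation);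
* it gives the geometric matching `T6.IsArchMatch μ μ' Φ (F + G)` for the matching constant
  `c = cM(μ, μ')` (`H626.geoMatchC626_closed`) and the spectral relations
  (`specRelC626_830`): `ArchConvMatch.lean`;
* **it is closed under convolution** (THIS FILE): the members of the families of the supply are
  convolution products.  Bare `T6.IsArchMatch` is not known to be.

    archPair_conv830 : ∀ μ μ' Haar, ∃ lam > 0, ∀ c c' n,
        IsArchPair830 c n Φ₁ F₁ G₁ → IsArchPair830 c' n Φ₂ F₂ G₂ →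
        IsArchPair830 (lam · c · c') n (Φ₁ ⋆ Φ₂) (F₁ ⋆ F₂) (G₁ ⋆ G₂)
    archPair_smul830   : IsArchPair830 c n Φ F G → IsArchPair830 (t · c) n Φ (t F) (t G)
    isArchTestR_conv_closed830, isArchTestC_conv_closed830 : convolutions of test functions
    hcR_conv_closed830, hcC_conv_closed830 : the Harish-Chandra transform of a convolution

(`lam = 4 c_I / c_I'`, `c_I`, `c_I'` the constants of the Iwasawa integration formulas of `μ`,
`μ'`.  The cross terms `F₁ ⋆ G₂`, `G₁ ⋆ F₂` of `(F₁ + G₁) ⋆ (F₂ + G₂)` vanish for `n ≠ 0`: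
different `K`-types; they do not occur in the statement.)
-/

set_option autoImplicit false

open scoped Matrix ContDiff
open MeasureTheory

noncomputable section

namespace Fermat.Agent.LT.T6.H830

open Fermat.Agent.LT.T6 Fermat.Agent.LT.T6.H626

/-- **THE ARCHIMEDEAN LOCAL SHAPE** (see the header). -/
structure IsArchPair830 (c : ℂ) (n : ℤ) (Φ : GL (Fin 2) ℂ → ℂ) (F G : GL (Fin 2) ℝ → ℂ) :
    Prop where
  up : IsArchTestC Φ
  down0 : IsArchTestR 0 F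
  down1 : IsArchTestR n G
  rel : IsAbelRel626 c Φ F G

/-! ## 1. The closed forms of the leaves -/

theorem hcR_conv_closed830 (μ : @Measure (GL (Fin 2) ℝ) (borel _))
    (hμ : @Measure.IsHaarMeasure _ _ _ (borel _) μ) :
    ∃ c : ℝ, 0 < c ∧ ∀ (n : ℤ) (F₁ F₂ : GL (Fin 2) ℝ → ℂ), IsArchTestR n F₁ →
      IsArchTestR n F₂ → ∀ ζ r : ℝ,
        hcR (@convInt _ _ (borel _) μ F₁ F₂) ζ r
          = (c : ℂ) * ∫ a : ℝ, ∫ b : ℝ, hcR F₁ a b * hcR F₂ (ζ - a) (r - b) :=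
  hcR_conv830 H673.iwasawaIntRC673 μ hμ

theorem hcC_conv_closed830 (μ : @Measure (GL (Fin 2) ℂ) (borel _))
    (hμ : @Measure.IsHaarMeasure _ _ _ (borel _) μ) :
    ∃ c : ℝ, 0 < c ∧ ∀ (Φ₁ Φ₂ : GL (Fin 2) ℂ → ℂ), IsArchTestC Φ₁ →
      IsArchTestC Φ₂ → ∀ ζ r : ℝ,
        hcC (@convInt _ _ (borel _) μ Φ₁ Φ₂) ζ r
          = (c : ℂ) * ∫ a : ℝ, ∫ b : ℝ, hcC Φ₁ a b * hcC Φ₂ (ζ - a) (r - b) :=
  hcC_conv830 iwasawaIntCC830 μ hμ

theorem isArchTestR_conv_closed830 (μ : @Measure (GL (Fin 2) ℝ) (borel _))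
    (hμ : @Measure.IsHaarMeasure _ _ _ (borel _) μ) {n : ℤ} {F₁ F₂ : GL (Fin 2) ℝ → ℂ}
    (h₁ : IsArchTestR n F₁) (h₂ : IsArchTestR n F₂) :
    IsArchTestR n (@convInt _ _ (borel _) μ F₁ F₂) :=
  isArchTestR_conv830 H673.iwasawaIntRC673 μ hμ h₁ h₂

theorem isArchTestC_conv_closed830 (μ : @Measure (GL (Fin 2) ℂ) (borel _))
    (hμ : @Measure.IsHaarMeasure _ _ _ (borel _) μ) {Φ₁ Φ₂ : GL (Fin 2) ℂ → ℂ}
    (h₁ : IsArchTestC Φ₁) (h₂ : IsArchTestC Φ₂) :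
    IsArchTestC (@convInt _ _ (borel _) μ Φ₁ Φ₂) :=
  isArchTestC_conv830 iwasawaIntCC830 μ hμ h₁ h₂

/-! ## 2. ARCH-CONV -/

/-- **ARCH-CONV**: the archimedean local shape is closed under convolution. -/
theorem archPair_conv830 (μ : @Measure (GL (Fin 2) ℝ) (borel _))
    (μ' : @Measure (GL (Fin 2) ℂ) (borel _))
    (hμ : @Measure.IsHaarMeasure _ _ _ (borel _) μ)
    (hμ' : @Measure.IsHaarMeasure _ _ _ (borel _) μ') :
    ∃ lam : ℝ, 0 < lam ∧
      ∀ (c c' : ℂ) (n : ℤ) (Φ₁ Φ₂ : GL (Fin 2) ℂ → ℂ) (F₁ F₂ G₁ G₂ : GL (Fin 2) ℝ → ℂ),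
        IsArchPair830 c n Φ₁ F₁ G₁ → IsArchPair830 c' n Φ₂ F₂ G₂ →
        IsArchPair830 ((lam : ℂ) * c * c') n (@convInt _ _ (borel _) μ' Φ₁ Φ₂)
          (@convInt _ _ (borel _) μ F₁ F₂) (@convInt _ _ (borel _) μ G₁ G₂) := by
  obtain ⟨lam, hlam, h⟩ := abelRel_conv830 H673.iwasawaIntRC673 iwasawaIntCC830 μ μ' hμ hμ'
  refine ⟨lam, hlam, fun c c' n Φ₁ Φ₂ F₁ F₂ G₁ G₂ p₁ p₂ => ?_⟩
  exact ⟨isArchTestC_conv_closed830 μ' hμ' p₁.up p₂.up,
    isArchTestR_conv_closed830 μ hμ p₁.down0 p₂.down0,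
    isArchTestR_conv_closed830 μ hμ p₁.down1 p₂.down1,
    h c c' n Φ₁ Φ₂ F₁ F₂ G₁ G₂ p₁.up p₂.up p₁.down0 p₂.down0 p₁.down1 p₂.down1 p₁.rel p₂.rel⟩

/-! ## 3. Scalars -/

theorem isArchTestR_smul830 {n : ℤ} {F : GL (Fin 2) ℝ → ℂ} (h : IsArchTestR n F) (t : ℂ) :
    IsArchTestR n (fun g => t * F g) where
  cont := continuous_const.mul h.cont
  supp := h.supp.mul_left
  smooth := fun m fam hfam g => contDiff_const.mul (h.smooth m fam hfam g)
  pos := fun g hg => h.pos g (right_ne_zero_of_mul hg)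
  left := fun k g hk => by rw [h.left k g hk]; ring
  right := fun k g hk => by rw [h.right k g hk]; ring

theorem isArchTestC_smul830 {Φ : GL (Fin 2) ℂ → ℂ} (h : IsArchTestC Φ) (t : ℂ) :
    IsArchTestC (fun g => t * Φ g) where
  cont := continuous_const.mul h.cont
  supp := h.supp.mul_left
  smooth := fun m fam hfam g => contDiff_const.mul (h.smooth m fam hfam g)
  left := fun k g hk => by rw [h.left k g hk]
  right := fun k g hk => by rw [h.right k g hk]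

/-- Scaling downstairs. -/
theorem archPair_smul830 {c : ℂ} {n : ℤ} {Φ : GL (Fin 2) ℂ → ℂ} {F G : GL (Fin 2) ℝ → ℂ}
    (p : IsArchPair830 c n Φ F G) (t : ℂ) :
    IsArchPair830 (t * c) n Φ (fun g => t * F g) (fun g => t * G g) := by
  refine ⟨p.up, isArchTestR_smul830 p.down0 t, isArchTestR_smul830 p.down1 t, ?_⟩
  intro a b ha hb u u' hu hu'
  obtain ⟨h1, h2⟩ := p.rel a b ha hb u u' hu hu'
  rw [integral_const_mul, integral_const_mul, h1, h2]
  exact ⟨by ring, by ring⟩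

/-- Scaling upstairs. -/
theorem archPair_smul_up830 {c : ℂ} {n : ℤ} {Φ : GL (Fin 2) ℂ → ℂ} {F G : GL (Fin 2) ℝ → ℂ}
    (p : IsArchPair830 c n Φ F G) {t : ℂ} (ht : t ≠ 0) :
    IsArchPair830 (c / t) n (fun g => t * Φ g) F G := by
  refine ⟨isArchTestC_smul830 p.up t, p.down0, p.down1, ?_⟩
  intro a b ha hb u u' hu hu'
  obtain ⟨h1, h2⟩ := p.rel a b ha hb u u' hu hu'
  rw [integral_const_mul, h1, h2]
  exact ⟨by field_simp, by field_simp⟩

/-- **ARCH-CONV, normalised**: for pairs with the SAME constant `c ≠ 0` the convolution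
products, scaled downstairs by `(lam c)⁻¹`, form a pair with the constant `c`. -/
theorem archPair_conv_norm830 (μ : @Measure (GL (Fin 2) ℝ) (borel _))
    (μ' : @Measure (GL (Fin 2) ℂ) (borel _))
    (hμ : @Measure.IsHaarMeasure _ _ _ (borel _) μ)
    (hμ' : @Measure.IsHaarMeasure _ _ _ (borel _) μ') :
    ∃ lam : ℝ, 0 < lam ∧
      ∀ (c : ℂ), c ≠ 0 → ∀ (n : ℤ) (Φ₁ Φ₂ : GL (Fin 2) ℂ → ℂ)
        (F₁ F₂ G₁ G₂ : GL (Fin 2) ℝ → ℂ),
        IsArchPair830 c n Φ₁ F₁ G₁ → IsArchPair830 c n Φ₂ F₂ G₂ →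
        IsArchPair830 c n (@convInt _ _ (borel _) μ' Φ₁ Φ₂)
          (fun g => ((lam : ℂ) * c)⁻¹ * @convInt _ _ (borel _) μ F₁ F₂ g)
          (fun g => ((lam : ℂ) * c)⁻¹ * @convInt _ _ (borel _) μ G₁ G₂ g) := by
  obtain ⟨lam, hlam, h⟩ := archPair_conv830 μ μ' hμ hμ'
  refine ⟨lam, hlam, fun c hc n Φ₁ Φ₂ F₁ F₂ G₁ G₂ p₁ p₂ => ?_⟩
  have hl : (lam : ℂ) ≠ 0 := Complex.ofReal_ne_zero.2 hlam.ne'
  have key := archPair_smul830 (h c c n Φ₁ Φ₂ F₁ F₂ G₁ G₂ p₁ p₂) (((lam : ℂ) * c)⁻¹)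
  have e : ((lam : ℂ) * c)⁻¹ * ((lam : ℂ) * c * c) = c := by field_simp
  rw [e] at key
  exact key

end Fermat.Agent.LT.T6.H830

end
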