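import Fermat.Agent.LT.T6.H830.HypSpec

/-!
# Row LT, tower T6, leaf T6.20d.04 `ConjInvC` (SPARE by helper830, the author of the cut)

OFF-MAIN.  `conjInvC830 : ConjInvC`: a test function of weight `n` is invariant under the
conjugation by `SO(2)`.  Imports `HypSpec.lean` only.
-/

set_option autoImplicit false

open scoped Matrix

noncomputable section

namespace Fermat.Agent.LT.T6.H830

open Fermat.Agent.LT.T6

/-- The matrix of the inverse of `k ∈ SO(2)` is the transpose. -/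
theorem coe_inv_of_inSO2_830 (k : GL (Fin 2) ℝ) (hk : InSO2 k) :
    ((k⁻¹ : GL (Fin 2) ℝ) : Matrix (Fin 2) (Fin 2) ℝ)
      = (k : Matrix (Fin 2) (Fin 2) ℝ).transpose := by
  have h1 : ((k⁻¹ : GL (Fin 2) ℝ) : Matrix (Fin 2) (Fin 2) ℝ)
      * (k : Matrix (Fin 2) (Fin 2) ℝ) = 1 := by
    rw [← Matrix.GeneralLinearGroup.coe_mul, inv_mul_cancel]; rfl
  calc ((k⁻¹ : GL (Fin 2) ℝ) : Matrix (Fin 2) (Fin 2) ℝ)
      = ((k⁻¹ : GL (Fin 2) ℝ) : Matrix (Fin 2) (Fin 2) ℝ) *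
          ((k : Matrix (Fin 2) (Fin 2) ℝ) * (k : Matrix (Fin 2) (Fin 2) ℝ).transpose) := by
        rw [hk.1, Matrix.mul_one]
    _ = (k : Matrix (Fin 2) (Fin 2) ℝ).transpose := by
        rw [← Matrix.mul_assoc, h1, Matrix.one_mul]

/-- The inverse of an element of `SO(2)` lies in `SO(2)`. -/
theorem inSO2_inv830 (k : GL (Fin 2) ℝ) (hk : InSO2 k) : InSO2 k⁻¹ := by
  refine ⟨?_, ?_⟩
  · rw [coe_inv_of_inSO2_830 k hk, Matrix.transpose_transpose]
    exact mul_eq_one_comm.mp hk.1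
  · rw [coe_inv_of_inSO2_830 k hk, Matrix.det_transpose]
    exact hk.2

/-- `holPart k · holPart k⁻¹ = 1` for `k ∈ SO(2)`. -/
theorem holPart_mul_inv830 (k : GL (Fin 2) ℝ) (hk : InSO2 k) :
    holPart k * holPart k⁻¹ = 1 := by
  have hinv := coe_inv_of_inSO2_830 k hk
  obtain ⟨h1, h2⟩ := hk
  have e00 := congrFun (congrFun h1 0) 0
  have e11 := congrFun (congrFun h1 1) 1
  simp only [Matrix.mul_apply, Fin.sum_univ_two, Matrix.transpose_apply, Matrix.one_apply_eq]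
    at e00 e11
  rw [Matrix.det_fin_two] at h2
  unfold holPart
  rw [hinv]
  simp only [Matrix.transpose_apply]
  set a := (k : Matrix (Fin 2) (Fin 2) ℝ) 0 0
  set b := (k : Matrix (Fin 2) (Fin 2) ℝ) 0 1
  set c := (k : Matrix (Fin 2) (Fin 2) ℝ) 1 0
  set d := (k : Matrix (Fin 2) (Fin 2) ℝ) 1 1
  have key : (a + d) ^ 2 + (c - b) ^ 2 = 4 := by nlinarith
  have keyC : ((a : ℂ) + d) ^ 2 + ((c : ℂ) - b) ^ 2 = 4 := by exact_mod_cast key
  have hI : Complex.I ^ 2 = -1 := Complex.I_sq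
  push_cast
  linear_combination (1 / 4 : ℂ) * keyC - (1 / 4 : ℂ) * ((c : ℂ) - b) ^ 2 * hI

/-- **T6.20d.04 CONJ-INV.** -/
theorem conjInvC830 : ConjInvC := by
  intro n f hf k g hk
  have hk' := inSO2_inv830 k hk
  rw [hf.right k (k⁻¹ * g) hk, hf.left k⁻¹ g hk', ← mul_assoc, ← mul_inv]
  have h1 : wtChar n k * wtChar n k⁻¹ = 1 := by
    unfold wtChar
    rw [← mul_zpow, holPart_mul_inv830 k hk, one_zpow]
  rw [h1, inv_one, one_mul]

end Fermat.Agent.LT.T6.H830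

end
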