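import Fermat.Agent.LT.T6.H830.ConvHC
import Fermat.Agent.LT.T6.H830.SpecRelAdapter

/-!
# Row LT, tower T6, asset ARCH-CONV (helper830): the Abel relation is multiplicative

OFF-MAIN.  Complete proofs, nothing assumed.

    abelRel_iff_hc830 : IsAbelRel626 c φ f₀ f₁ ↔
        ∀ ζ r, hcR f₀ (2ζ) (2r) = c · hcC φ ζ r ∧ hcR f₁ (2ζ) (2r) = c · hcC φ ζ r
    abelRel_conv830 : IwasawaIntRC → IwasawaIntCC → ∀ μ μ' Haar, ∃ lam > 0, ∀ c c' n …,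
        IsAbelRel626 c Φ₁ F₁ G₁ → IsAbelRel626 c' Φ₂ F₂ G₂ →
        IsAbelRel626 (lam · c · c') (Φ₁ ⋆ Φ₂) (F₁ ⋆ F₂) (G₁ ⋆ G₂)

(`lam = 4 c_I / c_I'`, the constants of the Iwasawa integration formulas of `μ`, `μ'`.)
-/

set_option autoImplicit false
set_option linter.unusedSimpArgs false

open scoped Matrix
open MeasureTheory

noncomputable section

namespace Fermat.Agent.LT.T6.H830

open Fermat.Agent.LT.T6 Fermat.Agent.LT.T6.H626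

/-- The Abel relation in the coordinates of the Harish-Chandra transforms. -/
theorem abelRel_of_hc830 {c : ℂ} {φ : GL (Fin 2) ℂ → ℂ} {f₀ f₁ : GL (Fin 2) ℝ → ℂ}
    (h : ∀ ζ r : ℝ, hcR f₀ (2 * ζ) (2 * r) = c * hcC φ ζ r ∧
      hcR f₁ (2 * ζ) (2 * r) = c * hcC φ ζ r) : IsAbelRel626 c φ f₀ f₁ := by
  intro a b ha hb u u' hu hu'
  set ζ : ℝ := (Real.log a + Real.log b) / 2 with hζ
  set r : ℝ := (Real.log a - Real.log b) / 2 with hr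
  have e1 : (2 * ζ + 2 * r) / 2 = Real.log a := by rw [hζ, hr]; ring
  have e2 : (2 * ζ - 2 * r) / 2 = Real.log b := by rw [hζ, hr]; ring
  have e3 : (ζ + r) / 2 = Real.log a / 2 := by rw [hζ, hr]; ring
  have e4 : (ζ - r) / 2 = Real.log b / 2 := by rw [hζ, hr]; ring
  have hsq : ∀ t : ℝ, 0 < t → Real.sqrt t = Real.exp (Real.log t / 2) := by
    intro t ht
    rw [Real.sqrt_eq_iff_mul_self_eq ht.le (Real.exp_pos _).le, ← Real.exp_add]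
    have : Real.log t / 2 + Real.log t / 2 = Real.log t := by ring
    rw [this, Real.exp_log ht]
  have hux : ∀ x : ℝ, u x = bR (2 * ζ) (2 * r) x := by
    intro x
    apply Units.ext
    show ((u x : GL (Fin 2) ℝ) : Matrix (Fin 2) (Fin 2) ℝ)
      = ((bR (2 * ζ) (2 * r) x : GL (Fin 2) ℝ) : Matrix (Fin 2) (Fin 2) ℝ)
    rw [hu x, coe_bR830, e1, e2, Real.exp_log ha, Real.exp_log hb]
  have hu'w : ∀ w : ℂ, u' w = bC ζ r w := by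
    intro w
    apply Units.ext
    show ((u' w : GL (Fin 2) ℂ) : Matrix (Fin 2) (Fin 2) ℂ)
      = ((bC ζ r w : GL (Fin 2) ℂ) : Matrix (Fin 2) (Fin 2) ℂ)
    rw [hu' w, coe_bC830, e3, e4, hsq a ha, hsq b hb]
  have h0 := h ζ r
  unfold hcR hcC at h0
  simp only [hux, hu'w]
  exact h0

theorem abelRel_iff_hc830 {c : ℂ} {φ : GL (Fin 2) ℂ → ℂ} {f₀ f₁ : GL (Fin 2) ℝ → ℂ} :
    IsAbelRel626 c φ f₀ f₁ ↔ ∀ ζ r : ℝ, hcR f₀ (2 * ζ) (2 * r) = c * hcC φ ζ r ∧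
      hcR f₁ (2 * ζ) (2 * r) = c * hcC φ ζ r :=
  ⟨fun h ζ r => hc_of_abelRel830 h ζ r, abelRel_of_hc830⟩

/-- Substitution `a = 2u`, `b = 2v` in a double integral. -/
theorem integral_double830 (Ψ : ℝ → ℝ → ℂ) :
    ∫ a : ℝ, ∫ b : ℝ, Ψ (a / 2) (b / 2) = 4 * ∫ u : ℝ, ∫ v : ℝ, Ψ u v := by
  have h1 : ∀ g : ℝ → ℂ, ∫ x : ℝ, g (x / 2) = 2 * ∫ y : ℝ, g y := by
    intro g
    have := Measure.integral_comp_mul_left g (2⁻¹ : ℝ)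
    simp only [inv_inv, abs_two] at this
    have e : (fun x : ℝ => g (x / 2)) = fun x : ℝ => g (2⁻¹ * x) := by
      funext x
      congr 1
      ring
    rw [e, this]
    rw [Complex.real_smul]
    norm_num
  have h2 : ∀ a : ℝ, ∫ b : ℝ, Ψ (a / 2) (b / 2) = 2 * ∫ v : ℝ, Ψ (a / 2) v :=
    fun a => h1 (fun v => Ψ (a / 2) v)
  simp only [h2]
  rw [integral_const_mul, h1 (fun u => ∫ v : ℝ, Ψ u v)]
  ring

/-- One half of the product relation. -/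
theorem hc_conv_rel830 {cR cC : ℝ} (hcC0 : cC ≠ 0) {c c' : ℂ}
    {Φ₁ Φ₂ ΦP : GL (Fin 2) ℂ → ℂ} {F₁ F₂ FP : GL (Fin 2) ℝ → ℂ}
    (hR : ∀ ζ r : ℝ, hcR FP ζ r
      = (cR : ℂ) * ∫ a : ℝ, ∫ b : ℝ, hcR F₁ a b * hcR F₂ (ζ - a) (r - b))
    (hC : ∀ ζ r : ℝ, hcC ΦP ζ r
      = (cC : ℂ) * ∫ a : ℝ, ∫ b : ℝ, hcC Φ₁ a b * hcC Φ₂ (ζ - a) (r - b))
    (h₁ : ∀ ζ r : ℝ, hcR F₁ (2 * ζ) (2 * r) = c * hcC Φ₁ ζ r)
    (h₂ : ∀ ζ r : ℝ, hcR F₂ (2 * ζ) (2 * r) = c' * hcC Φ₂ ζ r) (ζ r : ℝ) :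
    hcR FP (2 * ζ) (2 * r) = ((4 * cR / cC : ℝ) : ℂ) * c * c' * hcC ΦP ζ r := by
  rw [hR, hC]
  have e : ∀ a b : ℝ, hcR F₁ a b * hcR F₂ (2 * ζ - a) (2 * r - b)
      = (c * c') * (hcC Φ₁ (a / 2) (b / 2) * hcC Φ₂ (ζ - a / 2) (r - b / 2)) := by
    intro a b
    have ea : a = 2 * (a / 2) := by ring
    have eb : b = 2 * (b / 2) := by ring
    have ea' : 2 * ζ - a = 2 * (ζ - a / 2) := by ring
    have eb' : 2 * r - b = 2 * (r - b / 2) := by ring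
    rw [ea', eb']
    conv_lhs => rw [ea, eb]
    rw [h₁, h₂]
    have ea2 : 2 * (a / 2) / 2 = a / 2 := by ring
    have eb2 : 2 * (b / 2) / 2 = b / 2 := by ring
    rw [ea2, eb2]
    ring
  simp only [e]
  have e2 : ∀ a : ℝ, ∫ b : ℝ, c * c' * (hcC Φ₁ (a / 2) (b / 2) * hcC Φ₂ (ζ - a / 2) (r - b / 2))
      = c * c' * ∫ b : ℝ, hcC Φ₁ (a / 2) (b / 2) * hcC Φ₂ (ζ - a / 2) (r - b / 2) :=
    fun a => integral_const_mul _ _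
  simp only [e2]
  rw [integral_const_mul,
    integral_double830 (fun u v => hcC Φ₁ u v * hcC Φ₂ (ζ - u) (r - v))]
  have hcC0' : (cC : ℂ) ≠ 0 := Complex.ofReal_ne_zero.2 hcC0
  push_cast
  field_simp

/-- **ARCH-CONV, the relation**: the Abel relation is multiplicative for the convolution. -/
theorem abelRel_conv830 (hIR : IwasawaIntRC) (hIC : IwasawaIntCC)
    (μ : @Measure (GL (Fin 2) ℝ) (borel _)) (μ' : @Measure (GL (Fin 2) ℂ) (borel _))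
    (hμ : @Measure.IsHaarMeasure _ _ _ (borel _) μ)
    (hμ' : @Measure.IsHaarMeasure _ _ _ (borel _) μ') :
    ∃ lam : ℝ, 0 < lam ∧
      ∀ (c c' : ℂ) (n : ℤ) (Φ₁ Φ₂ : GL (Fin 2) ℂ → ℂ) (F₁ F₂ G₁ G₂ : GL (Fin 2) ℝ → ℂ),
        IsArchTestC Φ₁ → IsArchTestC Φ₂ → IsArchTestR 0 F₁ → IsArchTestR 0 F₂ →
        IsArchTestR n G₁ → IsArchTestR n G₂ →
        IsAbelRel626 c Φ₁ F₁ G₁ → IsAbelRel626 c' Φ₂ F₂ G₂ →
        IsAbelRel626 ((lam : ℂ) * c * c') (@convInt _ _ (borel _) μ' Φ₁ Φ₂)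
          (@convInt _ _ (borel _) μ F₁ F₂) (@convInt _ _ (borel _) μ G₁ G₂) := by
  obtain ⟨cR, hcR0, hR⟩ := hcR_conv830 hIR μ hμ
  obtain ⟨cC, hcC0, hC⟩ := hcC_conv830 hIC μ' hμ'
  refine ⟨4 * cR / cC, by positivity, ?_⟩
  intro c c' n Φ₁ Φ₂ F₁ F₂ G₁ G₂ hΦ₁ hΦ₂ hF₁ hF₂ hG₁ hG₂ h₁ h₂
  rw [abelRel_iff_hc830] at h₁ h₂ ⊢
  intro ζ r
  exact ⟨hc_conv_rel830 hcC0.ne' (hR 0 F₁ F₂ hF₁ hF₂) (hC Φ₁ Φ₂ hΦ₁ hΦ₂)
      (fun ζ r => (h₁ ζ r).1) (fun ζ r => (h₂ ζ r).1) ζ r,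
    hc_conv_rel830 hcC0.ne' (hR n G₁ G₂ hG₁ hG₂) (hC Φ₁ Φ₂ hΦ₁ hΦ₂)
      (fun ζ r => (h₁ ζ r).2) (fun ζ r => (h₂ ζ r).2) ζ r⟩

end Fermat.Agent.LT.T6.H830

end
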