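import Mathlib

/-!
# Row LT, tower T6, asset ARCH-CONV (helper830): the analytic core (Mathlib only)

OFF-MAIN.  Complete proofs, nothing assumed.

* `iterConv830`: the Fubini identity behind "the Harish-Chandra transform of a convolution is the
  convolution of the Harish-Chandra transforms", for continuous functions with bounded support
  in the coordinates `(ζ, r, x)` of the Borel subgroup, `x` in a finite dimensional space `X`
  (`X = ℝ`, `X = ℂ`).
-/

set_option autoImplicit false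
set_option linter.unusedSectionVars false

open MeasureTheory Set
open scoped ContDiff Convolution Topology

noncomputable section

namespace Fermat.Agent.LT.T6.H830

section Partial

variable {A B : Type*} [TopologicalSpace A] [TopologicalSpace B]

/-- The partial functions of a continuous function with compact support on a product have
compact support. -/
theorem hasCompactSupport_partial830 [R1Space B] {g : A × B → ℂ} (hs : HasCompactSupport g)
    (a : A) : HasCompactSupport (fun b : B => g (a, b)) := by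
  refine HasCompactSupport.intro (hs.isCompact.image continuous_snd) (fun b hb => ?_)
  by_contra h
  exact hb ⟨(a, b), subset_tsupport _ (Function.mem_support.2 h), rfl⟩

theorem integrable_partial830 [MeasurableSpace B] [OpensMeasurableSpace B] [R1Space B]
    (ν : Measure B) [IsFiniteMeasureOnCompacts ν] {g : A × B → ℂ} (hg : Continuous g)
    (hs : HasCompactSupport g) (a : A) : Integrable (fun b : B => g (a, b)) ν :=
  (hg.comp (Continuous.prodMk_right a)).integrable_of_hasCompactSupport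
    (hasCompactSupport_partial830 hs a)

end Partial

section Core

variable {X : Type*} [NormedAddCommGroup X] [NormedSpace ℝ X] [ProperSpace X]
  [MeasureSpace X] [BorelSpace X] [SecondCountableTopology X]
  [SFinite (volume : Measure X)] [IsFiniteMeasureOnCompacts (volume : Measure X)]
  [(volume : Measure X).IsAddRightInvariant]

/-- Bounded support in the coordinates. -/
def BddSupp830 (f : ℝ → ℝ → X → ℂ) : Prop :=
  ∃ R : ℝ, ∀ (a b : ℝ) (x : X), f a b x ≠ 0 → |a| ≤ R ∧ |b| ≤ R ∧ ‖x‖ ≤ R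

/-- Iterated integrals of a continuous function with compact support on `ℝ × ℝ × X`. -/
theorem iter3_830 {g : ℝ × ℝ × X → ℂ} (hg : Continuous g) (hs : HasCompactSupport g) :
    ∫ q, g q = ∫ a : ℝ, ∫ b : ℝ, ∫ y : X, g (a, b, y) := by
  have hi : Integrable g (volume : Measure (ℝ × ℝ × X)) :=
    hg.integrable_of_hasCompactSupport hs
  rw [Measure.volume_eq_prod] at hi ⊢
  rw [integral_prod _ hi]
  refine integral_congr_ae (Filter.Eventually.of_forall fun a => ?_)
  have hi2 : Integrable (fun q : ℝ × X => g (a, q)) (volume : Measure (ℝ × X)) :=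
    integrable_partial830 _ hg hs a
  rw [Measure.volume_eq_prod] at hi2
  exact integral_prod _ hi2

/-- The integrand of the convolution in the coordinates. -/
def convKer830 (f₁ f₂ : ℝ → ℝ → X → ℂ) (ζ r : ℝ) (p : X × ℝ × ℝ × X) : ℂ :=
  f₁ p.2.1 p.2.2.1 p.2.2.2 *
    f₂ (ζ - p.2.1) (r - p.2.2.1) (p.1 - Real.exp (-(r - p.2.2.1)) • p.2.2.2)

theorem continuous_convKer830 {f₁ f₂ : ℝ → ℝ → X → ℂ}
    (h₁ : Continuous (fun p : ℝ × ℝ × X => f₁ p.1 p.2.1 p.2.2))
    (h₂ : Continuous (fun p : ℝ × ℝ × X => f₂ p.1 p.2.1 p.2.2)) (ζ r : ℝ) :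
    Continuous (convKer830 f₁ f₂ ζ r) := by
  have c1 : Continuous (fun p : X × ℝ × ℝ × X => f₁ p.2.1 p.2.2.1 p.2.2.2) :=
    h₁.comp (by fun_prop : Continuous fun p : X × ℝ × ℝ × X => (p.2.1, p.2.2.1, p.2.2.2))
  have c2 : Continuous (fun p : X × ℝ × ℝ × X =>
      f₂ (ζ - p.2.1) (r - p.2.2.1) (p.1 - Real.exp (-(r - p.2.2.1)) • p.2.2.2)) :=
    h₂.comp (by fun_prop : Continuous fun p : X × ℝ × ℝ × X =>
      (ζ - p.2.1, r - p.2.2.1, p.1 - Real.exp (-(r - p.2.2.1)) • p.2.2.2))
  exact c1.mul c2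

theorem hasCompactSupport_convKer830 {f₁ f₂ : ℝ → ℝ → X → ℂ}
    (s₁ : BddSupp830 f₁) (s₂ : BddSupp830 f₂) (ζ r : ℝ) :
    HasCompactSupport (convKer830 f₁ f₂ ζ r) := by
  obtain ⟨R₁, hR₁⟩ := s₁
  obtain ⟨R₂, hR₂⟩ := s₂
  set M : ℝ := R₂ + Real.exp (|r| + R₁) * R₁ with hM
  refine HasCompactSupport.intro
    (K := Metric.closedBall (0 : X) M ×ˢ (Set.Icc (-R₁) R₁ ×ˢ (Set.Icc (-R₁) R₁ ×ˢ
      Metric.closedBall (0 : X) R₁)))
    ((isCompact_closedBall _ _).prod (isCompact_Icc.prod (isCompact_Icc.prod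
      (isCompact_closedBall _ _)))) (fun p hp => ?_)
  by_contra h
  apply hp
  have h1 : f₁ p.2.1 p.2.2.1 p.2.2.2 ≠ 0 := left_ne_zero_of_mul h
  have h2 : f₂ (ζ - p.2.1) (r - p.2.2.1) (p.1 - Real.exp (-(r - p.2.2.1)) • p.2.2.2) ≠ 0 :=
    right_ne_zero_of_mul h
  obtain ⟨ha, hb, hy⟩ := hR₁ _ _ _ h1
  obtain ⟨-, -, hx⟩ := hR₂ _ _ _ h2
  have hR₁0 : 0 ≤ R₁ := (abs_nonneg _).trans ha
  have he : Real.exp (-(r - p.2.2.1)) ≤ Real.exp (|r| + R₁) := by
    apply Real.exp_le_exp.2
    have := neg_abs_le r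
    have := le_abs_self p.2.2.1
    linarith
  have hxn : ‖p.1‖ ≤ M := by
    have e : p.1 = (p.1 - Real.exp (-(r - p.2.2.1)) • p.2.2.2)
        + Real.exp (-(r - p.2.2.1)) • p.2.2.2 := by abel
    calc ‖p.1‖ = ‖(p.1 - Real.exp (-(r - p.2.2.1)) • p.2.2.2)
          + Real.exp (-(r - p.2.2.1)) • p.2.2.2‖ := by rw [← e]
      _ ≤ ‖p.1 - Real.exp (-(r - p.2.2.1)) • p.2.2.2‖
          + ‖Real.exp (-(r - p.2.2.1)) • p.2.2.2‖ := norm_add_le _ _
      _ ≤ R₂ + Real.exp (|r| + R₁) * R₁ := by
          refine add_le_add hx ?_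
          rw [norm_smul, Real.norm_eq_abs, abs_of_pos (Real.exp_pos _)]
          exact mul_le_mul he hy (norm_nonneg _) (Real.exp_pos _).le
  refine ⟨?_, ⟨?_, ?_⟩, ⟨?_, ?_⟩, ?_⟩
  · simpa [Metric.mem_closedBall, dist_zero_right] using hxn
  · exact (abs_le.1 ha).1
  · exact (abs_le.1 ha).2
  · exact (abs_le.1 hb).1
  · exact (abs_le.1 hb).2
  · simpa [Metric.mem_closedBall, dist_zero_right] using hy

/-- **The Fubini identity of ARCH-CONV.** -/
theorem iterConv830 (f₁ f₂ : ℝ → ℝ → X → ℂ)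
    (h₁ : Continuous (fun p : ℝ × ℝ × X => f₁ p.1 p.2.1 p.2.2))
    (h₂ : Continuous (fun p : ℝ × ℝ × X => f₂ p.1 p.2.1 p.2.2))
    (s₁ : BddSupp830 f₁) (s₂ : BddSupp830 f₂) (ζ r : ℝ) :
    ∫ x : X, ∫ a : ℝ, ∫ b : ℝ, ∫ y : X,
        f₁ a b y * f₂ (ζ - a) (r - b) (x - Real.exp (-(r - b)) • y)
      = ∫ a : ℝ, ∫ b : ℝ, (∫ y : X, f₁ a b y) * ∫ x : X, f₂ (ζ - a) (r - b) x := by
  have hc := continuous_convKer830 h₁ h₂ ζ r
  have hs := hasCompactSupport_convKer830 s₁ s₂ ζ r
  have hi : Integrable (convKer830 f₁ f₂ ζ r) (volume : Measure (X × ℝ × ℝ × X)) :=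
    hc.integrable_of_hasCompactSupport hs
  rw [Measure.volume_eq_prod] at hi
  -- the inner integral in `x`
  have inner : ∀ q : ℝ × ℝ × X, ∫ x : X, convKer830 f₁ f₂ ζ r (x, q)
      = f₁ q.1 q.2.1 q.2.2 * ∫ x : X, f₂ (ζ - q.1) (r - q.2.1) x := by
    intro q
    simp only [convKer830]
    rw [integral_const_mul]
    congr 1
    exact integral_sub_right_eq_self (fun x => f₂ (ζ - q.1) (r - q.2.1) x) _
  -- left side
  have hL : ∫ x : X, ∫ a : ℝ, ∫ b : ℝ, ∫ y : X,
        f₁ a b y * f₂ (ζ - a) (r - b) (x - Real.exp (-(r - b)) • y)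
      = ∫ x : X, ∫ q : ℝ × ℝ × X, convKer830 f₁ f₂ ζ r (x, q) := by
    refine integral_congr_ae (Filter.Eventually.of_forall fun x => ?_)
    exact (iter3_830 (g := fun q => convKer830 f₁ f₂ ζ r (x, q))
      (hc.comp (Continuous.prodMk_right x)) (hasCompactSupport_partial830 hs x)).symm
  rw [hL, integral_integral_swap (f := fun x q => convKer830 f₁ f₂ ζ r (x, q)) hi]
  -- the function of `q`
  have hK : Integrable (fun q : ℝ × ℝ × X => ∫ x : X, convKer830 f₁ f₂ ζ r (x, q))
      (volume : Measure (ℝ × ℝ × X)) := hi.integral_prod_right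
  rw [Measure.volume_eq_prod] at hK ⊢
  rw [integral_prod _ hK]
  have hae := hK.prod_right_ae
  refine integral_congr_ae ?_
  filter_upwards [hae] with a ha
  rw [Measure.volume_eq_prod] at ha ⊢
  rw [integral_prod _ ha]
  refine integral_congr_ae (Filter.Eventually.of_forall fun b => ?_)
  simp only [inner]
  rw [integral_mul_const]

end Core

/-! ## Parametric integrals (the lemma of helper872 `T7/H872/ConvTest.lean`, Mathlib only) -/

/-- **Parametric integrals of smooth functions.**  If `Φ` is smooth on `E × P`, `ν` is a finite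
measure and `σ` is a measurable map with (almost everywhere) bounded values, then
`p ↦ ∫ Φ (σ y, p) dν(y)` is smooth. -/
theorem contDiff_paramInt830 {Y : Type*} [MeasurableSpace Y] (ν : Measure Y)
    [IsFiniteMeasure ν]
    {E P : Type*} [NormedAddCommGroup E] [NormedSpace ℝ E] [FiniteDimensional ℝ E]
    [MeasurableSpace E] [BorelSpace E]
    [NormedAddCommGroup P] [NormedSpace ℝ P]
    (Φ : E × P → ℂ) (hΦ : ContDiff ℝ ∞ Φ) (σ : Y → E) (hσ : Measurable σ) (R : ℝ)
    (hR : ∀ᵐ y ∂ν, ‖σ y‖ ≤ R) :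
    ContDiff ℝ ∞ (fun p : P => ∫ y, Φ (σ y, p) ∂ν) := by
  classical
  set R' : ℝ := max R 0 + 1 with hR'def
  have hR'pos : 0 < R' := by positivity
  have hRR' : R ≤ R' := by
    have := le_max_left R 0
    linarith
  let χ : ContDiffBump (0 : E) := ⟨R', R' + 1, hR'pos, by linarith⟩
  let lam : Measure E := Measure.map σ ν
  have hlam : IsFiniteMeasure lam := Measure.isFiniteMeasure_map ν σ
  let g : P → E → ℂ := fun p x => ((χ (-x) : ℝ) : ℂ) * Φ (-x, p)
  let f : E → ℂ := fun _ => 1
  let L : ℂ →L[ℝ] ℂ →L[ℝ] ℂ := ContinuousLinearMap.mul ℝ ℂ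
  have hgs : ∀ p, ∀ x, p ∈ (univ : Set P) → x ∉ Metric.closedBall (0 : E) (R' + 1) →
      g p x = 0 := by
    intro p x _ hx
    have h1 : χ (-x) = 0 := by
      apply χ.zero_of_le_dist
      rw [Metric.mem_closedBall, not_le, dist_zero_right] at hx
      rw [dist_zero_right, norm_neg]
      exact hx.le
    simp only [g, h1, Complex.ofReal_zero, zero_mul]
  have hf : LocallyIntegrable f lam := (integrable_const (1 : ℂ)).locallyIntegrable
  have hχ : ContDiff ℝ ∞ (fun x : E => χ x) := χ.contDiff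
  have hg : ContDiffOn ℝ ∞ (↿g) ((univ : Set P) ×ˢ (univ : Set E)) := by
    apply ContDiff.contDiffOn
    have h1 : ContDiff ℝ ∞ (fun q : P × E => ((χ (-q.2) : ℝ) : ℂ)) :=
      Complex.ofRealCLM.contDiff.comp (hχ.comp contDiff_snd.neg)
    have h2 : ContDiff ℝ ∞ (fun q : P × E => Φ (-q.2, q.1)) :=
      hΦ.comp ((contDiff_snd.neg).prodMk contDiff_fst)
    exact h1.mul h2
  have key := contDiffOn_convolution_right_with_param (μ := lam) (f := f) (n := ⊤) L
    (g := g) (s := univ) (k := Metric.closedBall (0 : E) (R' + 1)) isOpen_univ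
    (isCompact_closedBall _ _) hgs hf hg
  rw [univ_prod_univ, contDiffOn_univ] at key
  have h2 : ContDiff ℝ ∞ (fun p : P => (p, (0 : E))) := contDiff_id.prodMk contDiff_const
  have h3 := key.comp h2
  have e : (fun p : P => ∫ y, Φ (σ y, p) ∂ν)
      = (fun q : P × E => (f ⋆[L, lam] g q.1) q.2) ∘ fun p : P => (p, (0 : E)) := by
    funext p
    simp only [Function.comp_apply]
    rw [convolution_def]
    have hfun : (fun t : E => L (f t) (g p (0 - t)))
        = fun t : E => ((χ t : ℝ) : ℂ) * Φ (t, p) := by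
      funext t
      simp [L, f, g]
    rw [hfun]
    have hm : AEStronglyMeasurable (fun t : E => ((χ t : ℝ) : ℂ) * Φ (t, p))
        (Measure.map σ ν) := by
      apply Continuous.aestronglyMeasurable
      have c1 : Continuous (fun t : E => ((χ t : ℝ) : ℂ)) :=
        Complex.continuous_ofReal.comp hχ.continuous
      have c2 : Continuous (fun t : E => Φ (t, p)) :=
        hΦ.continuous.comp (by fun_prop)
      exact c1.mul c2
    rw [integral_map hσ.aemeasurable hm]
    refine integral_congr_ae ?_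
    filter_upwards [hR] with y hy
    have h1 : χ (σ y) = 1 := by
      apply χ.one_of_mem_closedBall
      rw [Metric.mem_closedBall, dist_zero_right]
      exact hy.trans hRR'
    simp [h1]
  rw [e]
  exact h3


/-! ## Appendix: the equation lemmas of the definitions of this file are realised HERE -/

theorem eqns_realised_convCore830 : True := by
  have _h0 := @BddSupp830.eq_1.{0}
  have _h1 := @BddSupp830.eq_def.{0}
  have _h2 := @convKer830.eq_1.{0}
  have _h3 := @convKer830.eq_def.{0}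
  trivial

end Fermat.Agent.LT.T6.H830

end
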