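import Fermat.Agent.LT.T6.H830.HCSpec
import Fermat.Agent.LT.T6.H830.ConjInv
import Fermat.Agent.LT.T6.H830.HCTransC
import Fermat.Agent.LT.T6.H372.HcZReg
import Fermat.Agent.LT.T6.H830.ConvCore

/-!
# Row LT, tower T6, asset ARCH-CONV (helper830): the Harish-Chandra transform of a convolution

OFF-MAIN.  Complete proofs, nothing assumed.

    hcR_conv830 : IwasawaIntRC → ∀ μ Haar, ∃ c > 0, ∀ n F₁ F₂, IsArchTestR n F₁ → IsArchTestR n F₂ →
      ∀ ζ r, hcR (convInt μ F₁ F₂) ζ r = c ∫∫ hcR F₁ a b · hcR F₂ (ζ - a) (r - b) da db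
    hcC_conv830 : IwasawaIntCC → the same on `GL₂(ℂ)` (bi-`U(2)`-invariant test functions)

Proof.  The integrand `h ↦ F₁(h) F₂(h⁻¹ g)` is right `K`-invariant: Iwasawa integration formula;
`(bR a b y)⁻¹ bR ζ r x = bR (ζ - a) (r - b) (x - e^{-(r-b)} y)`; Fubini (`iterConv830`).
-/

set_option autoImplicit false
set_option linter.unusedSimpArgs false
set_option linter.unusedSectionVars false

open scoped Matrix
open MeasureTheory

noncomputable section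

namespace Fermat.Agent.LT.T6.H830

open Fermat.Agent.LT.T6

/-! ## 1. The group law of the Borel subgroup in the coordinates -/

theorem bR_mul830 (a b y ζ r x : ℝ) :
    bR a b y * bR (ζ - a) (r - b) (x - Real.exp (-(r - b)) * y) = bR ζ r x := by
  apply Units.ext
  rw [Units.val_mul]
  show ((bR a b y : GL (Fin 2) ℝ) : Matrix (Fin 2) (Fin 2) ℝ)
      * ((bR (ζ - a) (r - b) (x - Real.exp (-(r - b)) * y) : GL (Fin 2) ℝ) :
        Matrix (Fin 2) (Fin 2) ℝ) = ((bR ζ r x : GL (Fin 2) ℝ) : Matrix (Fin 2) (Fin 2) ℝ)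
  simp only [coe_bR830]
  have e1 : Real.exp ((a + b) / 2) * Real.exp ((ζ - a + (r - b)) / 2)
      = Real.exp ((ζ + r) / 2) := by
    rw [← Real.exp_add]; congr 1; ring
  have e2 : Real.exp ((a - b) / 2) * Real.exp ((ζ - a - (r - b)) / 2)
      = Real.exp ((ζ - r) / 2) := by
    rw [← Real.exp_add]; congr 1; ring
  have e3 : Real.exp ((a + b) / 2) * Real.exp ((ζ - a - (r - b)) / 2)
      = Real.exp ((ζ + r) / 2) * Real.exp (-(r - b)) := by
    rw [← Real.exp_add, ← Real.exp_add]; congr 1; ring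
  ext i j
  fin_cases i <;> fin_cases j
  · simp [Matrix.mul_apply, Fin.sum_univ_two, e1]
  · simp only [Matrix.mul_apply, Fin.sum_univ_two, Matrix.of_apply, Matrix.cons_val',
      Matrix.cons_val_zero, Matrix.cons_val_one, Matrix.cons_val_fin_one, Fin.zero_eta,
      Fin.mk_one]
    linear_combination (x - Real.exp (-(r - b)) * y) * e1 + y * e3
  · simp [Matrix.mul_apply, Fin.sum_univ_two]
  · simp [Matrix.mul_apply, Fin.sum_univ_two, e2]

theorem bR_inv_mul830 (a b y ζ r x : ℝ) :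
    (bR a b y)⁻¹ * bR ζ r x = bR (ζ - a) (r - b) (x - Real.exp (-(r - b)) * y) := by
  rw [inv_mul_eq_iff_eq_mul, bR_mul830]

theorem bC_mul830 (a b : ℝ) (y : ℂ) (ζ r : ℝ) (x : ℂ) :
    bC a b y * bC (ζ - a) (r - b) (x - Real.exp (-(r - b)) • y) = bC ζ r x := by
  apply Units.ext
  rw [Units.val_mul]
  show ((bC a b y : GL (Fin 2) ℂ) : Matrix (Fin 2) (Fin 2) ℂ)
      * ((bC (ζ - a) (r - b) (x - Real.exp (-(r - b)) • y) : GL (Fin 2) ℂ) :
        Matrix (Fin 2) (Fin 2) ℂ) = ((bC ζ r x : GL (Fin 2) ℂ) : Matrix (Fin 2) (Fin 2) ℂ)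
  simp only [coe_bC830, Complex.real_smul]
  have e1 : ((Real.exp ((a + b) / 2) : ℝ) : ℂ) * ((Real.exp ((ζ - a + (r - b)) / 2) : ℝ) : ℂ)
      = ((Real.exp ((ζ + r) / 2) : ℝ) : ℂ) := by
    rw [← Complex.ofReal_mul, ← Real.exp_add]; congr 2; ring
  have e2 : ((Real.exp ((a - b) / 2) : ℝ) : ℂ) * ((Real.exp ((ζ - a - (r - b)) / 2) : ℝ) : ℂ)
      = ((Real.exp ((ζ - r) / 2) : ℝ) : ℂ) := by
    rw [← Complex.ofReal_mul, ← Real.exp_add]; congr 2; ring
  have e3 : ((Real.exp ((a + b) / 2) : ℝ) : ℂ) * ((Real.exp ((ζ - a - (r - b)) / 2) : ℝ) : ℂ)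
      = ((Real.exp ((ζ + r) / 2) : ℝ) : ℂ) * ((Real.exp (-(r - b)) : ℝ) : ℂ) := by
    rw [← Complex.ofReal_mul, ← Complex.ofReal_mul, ← Real.exp_add, ← Real.exp_add]
    congr 2; ring
  ext i j
  fin_cases i <;> fin_cases j
  · simp only [Matrix.mul_apply, Fin.sum_univ_two, Matrix.of_apply, Matrix.cons_val',
      Matrix.cons_val_zero, Matrix.cons_val_one, Matrix.cons_val_fin_one, Fin.zero_eta,
      Fin.mk_one]
    linear_combination e1
  · simp only [Matrix.mul_apply, Fin.sum_univ_two, Matrix.of_apply, Matrix.cons_val',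
      Matrix.cons_val_zero, Matrix.cons_val_one, Matrix.cons_val_fin_one, Fin.zero_eta,
      Fin.mk_one]
    linear_combination (x - ((Real.exp (-(r - b)) : ℝ) : ℂ) * y) * e1 + y * e3
  · simp only [Matrix.mul_apply, Fin.sum_univ_two, Matrix.of_apply, Matrix.cons_val',
      Matrix.cons_val_zero, Matrix.cons_val_one, Matrix.cons_val_fin_one, Fin.zero_eta,
      Fin.mk_one]
    ring
  · simp only [Matrix.mul_apply, Fin.sum_univ_two, Matrix.of_apply, Matrix.cons_val',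
      Matrix.cons_val_zero, Matrix.cons_val_one, Matrix.cons_val_fin_one, Fin.zero_eta,
      Fin.mk_one]
    linear_combination e2

theorem bC_inv_mul830 (a b : ℝ) (y : ℂ) (ζ r : ℝ) (x : ℂ) :
    (bC a b y)⁻¹ * bC ζ r x = bC (ζ - a) (r - b) (x - Real.exp (-(r - b)) • y) := by
  rw [inv_mul_eq_iff_eq_mul, bC_mul830]

/-! ## 2. The real place -/

theorem wtChar_inv830 (n : ℤ) (k : GL (Fin 2) ℝ) (hk : InSO2 k) :
    wtChar n k⁻¹ = (wtChar n k)⁻¹ := by
  have h1 : wtChar n k * wtChar n k⁻¹ = 1 := by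
    unfold wtChar
    rw [← mul_zpow, holPart_mul_inv830 k hk, one_zpow]
  exact eq_inv_of_mul_eq_one_right h1

theorem wtChar_ne_zero830 (n : ℤ) (k : GL (Fin 2) ℝ) (hk : InSO2 k) : wtChar n k ≠ 0 := by
  have h1 : wtChar n k * wtChar n k⁻¹ = 1 := by
    unfold wtChar
    rw [← mul_zpow, holPart_mul_inv830 k hk, one_zpow]
  exact left_ne_zero_of_mul_eq_one h1

/-- The integrand of the convolution of two functions of weight `n` is right invariant. -/
theorem conv_integrand_right830 {n : ℤ} {F₁ F₂ : GL (Fin 2) ℝ → ℂ}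
    (h₁ : IsArchTestR n F₁) (h₂ : IsArchTestR n F₂) (g k h : GL (Fin 2) ℝ) (hk : InSO2 k) :
    F₁ (h * k) * F₂ ((h * k)⁻¹ * g) = F₁ h * F₂ (h⁻¹ * g) := by
  have e : (h * k)⁻¹ * g = k⁻¹ * (h⁻¹ * g) := by group
  rw [e, h₁.right k h hk, h₂.left k⁻¹ (h⁻¹ * g) (inSO2_inv830 k hk),
    wtChar_inv830 n k hk, inv_inv]
  have := wtChar_ne_zero830 n k hk
  field_simp

/-- The Iwasawa formula for the convolution of two test functions of weight `n`. -/
theorem conv_iwasawa830 {μ : @Measure (GL (Fin 2) ℝ) (borel _)} {c : ℝ}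
    (hI : ∀ F : GL (Fin 2) ℝ → ℂ, Continuous F → HasCompactSupport F →
      (∀ g : GL (Fin 2) ℝ, F g ≠ 0 → 0 < (g : Matrix (Fin 2) (Fin 2) ℝ).det) →
      (∀ k g : GL (Fin 2) ℝ, InSO2 k → F (g * k) = F g) →
      @integral _ _ _ _ (borel _) μ F = (c : ℂ) * ∫ ζ : ℝ, ∫ r : ℝ, ∫ x : ℝ, F (bR ζ r x))
    {n : ℤ} {F₁ F₂ : GL (Fin 2) ℝ → ℂ} (h₁ : IsArchTestR n F₁) (h₂ : IsArchTestR n F₂)
    (g : GL (Fin 2) ℝ) :
    @convInt _ _ (borel _) μ F₁ F₂ g
      = (c : ℂ) * ∫ a : ℝ, ∫ b : ℝ, ∫ y : ℝ, F₁ (bR a b y) * F₂ ((bR a b y)⁻¹ * g) := by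
  unfold convInt
  refine hI (fun h => F₁ h * F₂ (h⁻¹ * g)) ?_ ?_ ?_ ?_
  · exact h₁.cont.mul (h₂.cont.comp (continuous_inv.mul continuous_const))
  · exact h₁.supp.mul_right
  · intro h hh
    exact h₁.pos h (left_ne_zero_of_mul hh)
  · intro k h hk
    exact conv_integrand_right830 h₁ h₂ g k h hk

/-- **ARCH-CONV, L1**: the Harish-Chandra transform of the convolution on `GL₂(ℝ)`. -/
theorem hcR_conv830 (hIR : IwasawaIntRC) (μ : @Measure (GL (Fin 2) ℝ) (borel _))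
    (hμ : @Measure.IsHaarMeasure _ _ _ (borel _) μ) :
    ∃ c : ℝ, 0 < c ∧ ∀ (n : ℤ) (F₁ F₂ : GL (Fin 2) ℝ → ℂ), IsArchTestR n F₁ →
      IsArchTestR n F₂ → ∀ ζ r : ℝ,
        hcR (@convInt _ _ (borel _) μ F₁ F₂) ζ r
          = (c : ℂ) * ∫ a : ℝ, ∫ b : ℝ, hcR F₁ a b * hcR F₂ (ζ - a) (r - b) := by
  obtain ⟨c, hc, hI⟩ := hIR μ hμ
  refine ⟨c, hc, fun n F₁ F₂ h₁ h₂ ζ r => ?_⟩
  unfold hcR
  have e : ∀ x : ℝ, @convInt _ _ (borel _) μ F₁ F₂ (bR ζ r x)
      = (c : ℂ) * ∫ a : ℝ, ∫ b : ℝ, ∫ y : ℝ,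
          F₁ (bR a b y) * F₂ (bR (ζ - a) (r - b) (x - Real.exp (-(r - b)) • y)) := by
    intro x
    rw [conv_iwasawa830 hI h₁ h₂]
    simp only [bR_inv_mul830, smul_eq_mul]
  simp only [e]
  rw [integral_const_mul]
  congr 1
  exact iterConv830 (X := ℝ) (fun a b y => F₁ (bR a b y)) (fun a b y => F₂ (bR a b y))
    (h₁.cont.comp H372.continuous_bR372) (h₂.cont.comp H372.continuous_bR372)
    (H372.bR_bounds372 h₁.supp) (H372.bR_bounds372 h₂.supp) ζ r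

/-! ## 3. The complex place -/

/-- `(ζ, r, w) ↦ bC ζ r w` is continuous. -/
theorem continuous_bC830 : Continuous fun p : ℝ × ℝ × ℂ => bC p.1 p.2.1 p.2.2 := by
  apply continuous_toGL830
  simp only [coe_bC830]
  refine continuous_matrix fun i j => ?_
  fin_cases i <;> fin_cases j <;> simp <;> fun_prop

theorem det_bC830 (ζ r : ℝ) (w : ℂ) :
    ((bC ζ r w : GL (Fin 2) ℂ) : Matrix (Fin 2) (Fin 2) ℂ).det = ((Real.exp ζ : ℝ) : ℂ) := by
  rw [coe_bC830, Matrix.det_fin_two_of, mul_zero, sub_zero, ← Complex.ofReal_mul,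
    ← Real.exp_add]
  congr 2
  ring

/-- The coordinates `(ζ, r, w)` are bounded on the support of a compactly supported function. -/
theorem bC_bounds830 {f : GL (Fin 2) ℂ → ℂ} (hc : HasCompactSupport f) :
    BddSupp830 (fun a b y => f (bC a b y)) := by
  have hval : Continuous fun g : GL (Fin 2) ℂ => (g : Matrix (Fin 2) (Fin 2) ℂ) :=
    Units.continuous_val
  have hinv : Continuous fun g : GL (Fin 2) ℂ =>
      ((g⁻¹ : GL (Fin 2) ℂ) : Matrix (Fin 2) (Fin 2) ℂ) :=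
    Units.continuous_val.comp continuous_inv
  obtain ⟨C1, h1⟩ := hc.isCompact.exists_bound_of_continuousOn
    (f := fun g : GL (Fin 2) ℂ => (g : Matrix (Fin 2) (Fin 2) ℂ).det)
    hval.matrix_det.continuousOn
  obtain ⟨C2, h2⟩ := hc.isCompact.exists_bound_of_continuousOn
    (f := fun g : GL (Fin 2) ℂ => ((g⁻¹ : GL (Fin 2) ℂ) : Matrix (Fin 2) (Fin 2) ℂ).det)
    hinv.matrix_det.continuousOn
  obtain ⟨C3, h3⟩ := hc.isCompact.exists_bound_of_continuousOn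
    (f := fun g : GL (Fin 2) ℂ => (g : Matrix (Fin 2) (Fin 2) ℂ) 0 0)
    (hval.matrix_elem 0 0).continuousOn
  obtain ⟨C4, h4⟩ := hc.isCompact.exists_bound_of_continuousOn
    (f := fun g : GL (Fin 2) ℂ => (g : Matrix (Fin 2) (Fin 2) ℂ) 1 1)
    (hval.matrix_elem 1 1).continuousOn
  obtain ⟨C5, h5⟩ := hc.isCompact.exists_bound_of_continuousOn
    (f := fun g : GL (Fin 2) ℂ => (g : Matrix (Fin 2) (Fin 2) ℂ) 0 1)
    (hval.matrix_elem 0 1).continuousOn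
  set C : ℝ := max 1 (max C1 (max C2 (max C3 (max C4 C5)))) with hC
  have hC1 : 1 ≤ C := le_max_left _ _
  have hCpos : 0 < C := lt_of_lt_of_le one_pos hC1
  have hlog : 0 ≤ Real.log C := Real.log_nonneg hC1
  have hle1 : C1 ≤ C := le_trans (le_max_left _ _) (le_max_right _ _)
  have hle2 : C2 ≤ C :=
    le_trans (le_trans (le_max_left _ _) (le_max_right _ _)) (le_max_right _ _)
  have hle3 : C3 ≤ C :=
    le_trans (le_trans (le_trans (le_max_left _ _) (le_max_right _ _)) (le_max_right _ _))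
      (le_max_right _ _)
  have hle4 : C4 ≤ C :=
    le_trans (le_trans (le_trans (le_trans (le_max_left _ _) (le_max_right _ _))
      (le_max_right _ _)) (le_max_right _ _)) (le_max_right _ _)
  have hle5 : C5 ≤ C :=
    le_trans (le_trans (le_trans (le_trans (le_max_right _ _) (le_max_right _ _))
      (le_max_right _ _)) (le_max_right _ _)) (le_max_right _ _)
  refine ⟨3 * Real.log C + C ^ 3, fun ζ r x hne => ?_⟩
  have hmem : bC ζ r x ∈ tsupport f := subset_tsupport f hne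
  have nexp : ∀ t : ℝ, ‖((Real.exp t : ℝ) : ℂ)‖ = Real.exp t := fun t => by
    rw [Complex.norm_real, Real.norm_eq_abs, abs_of_pos (Real.exp_pos t)]
  -- the five bounds
  have b1 : Real.exp ζ ≤ C := by
    have h := h1 _ hmem
    simp only [det_bC830, nexp] at h
    exact h.trans hle1
  have b2 : Real.exp (-ζ) ≤ C := by
    have h := h2 _ hmem
    simp only [Matrix.coe_units_inv, Matrix.det_nonsing_inv, det_bC830, Ring.inverse_eq_inv',
      norm_inv, nexp, ← Real.exp_neg] at h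
    exact h.trans hle2
  have b3 : Real.exp ((ζ + r) / 2) ≤ C := by
    have h := h3 _ hmem
    simp only [coe_bC830, Matrix.of_apply, Matrix.cons_val', Matrix.cons_val_zero, nexp] at h
    exact h.trans hle3
  have b4 : Real.exp ((ζ - r) / 2) ≤ C := by
    have h := h4 _ hmem
    simp only [coe_bC830, Matrix.of_apply, Matrix.cons_val', Matrix.cons_val_one,
      Matrix.cons_val_fin_one, nexp] at h
    exact h.trans hle4
  have b5 : Real.exp ((ζ + r) / 2) * ‖x‖ ≤ C := by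
    have h := h5 _ hmem
    simp only [coe_bC830, Matrix.of_apply, Matrix.cons_val', Matrix.cons_val_zero,
      Matrix.cons_val_one, norm_mul, nexp] at h
    exact h.trans hle5
  have l1 : ζ ≤ Real.log C := (Real.le_log_iff_exp_le hCpos).mpr b1
  have l2 : -ζ ≤ Real.log C := (Real.le_log_iff_exp_le hCpos).mpr b2
  have l3 : (ζ + r) / 2 ≤ Real.log C := (Real.le_log_iff_exp_le hCpos).mpr b3
  have l4 : (ζ - r) / 2 ≤ Real.log C := (Real.le_log_iff_exp_le hCpos).mpr b4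
  have hC3 : 0 ≤ C ^ 3 := by positivity
  refine ⟨abs_le.mpr ⟨by linarith, by linarith⟩, abs_le.mpr ⟨by linarith, by linarith⟩, ?_⟩
  have hx : ‖x‖ = Real.exp (-ζ) * Real.exp ((ζ - r) / 2) * (Real.exp ((ζ + r) / 2) * ‖x‖) := by
    rw [← mul_assoc, ← Real.exp_add, ← Real.exp_add]
    have : -ζ + (ζ - r) / 2 + (ζ + r) / 2 = 0 := by ring
    rw [this, Real.exp_zero, one_mul]
  have hx2 : ‖x‖ ≤ C ^ 3 := by
    rw [hx]
    calc Real.exp (-ζ) * Real.exp ((ζ - r) / 2) * (Real.exp ((ζ + r) / 2) * ‖x‖)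
        ≤ C * C * C := by
          apply mul_le_mul (mul_le_mul b2 b4 (Real.exp_pos _).le hCpos.le) b5
            (mul_nonneg (Real.exp_pos _).le (norm_nonneg _)) (mul_nonneg hCpos.le hCpos.le)
      _ = C ^ 3 := by ring
  linarith

theorem bR_bddSupp830 {f : GL (Fin 2) ℝ → ℂ} (hc : HasCompactSupport f) :
    BddSupp830 (fun a b y => f (bR a b y)) := by
  obtain ⟨B, hB⟩ := H372.bR_bounds372 hc
  exact ⟨B, fun a b y h => by simpa using hB a b y h⟩

/-- The inverse of an element of `U(2)` lies in `U(2)`. -/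
theorem inU2_inv830 (k : GL (Fin 2) ℂ) (hk : InU2 k) : InU2 k⁻¹ := by
  unfold InU2 at hk ⊢
  have h1 : ((k⁻¹ : GL (Fin 2) ℂ) : Matrix (Fin 2) (Fin 2) ℂ)
      * (k : Matrix (Fin 2) (Fin 2) ℂ) = 1 := by
    rw [← Matrix.GeneralLinearGroup.coe_mul, inv_mul_cancel]; rfl
  have h2 : ((k⁻¹ : GL (Fin 2) ℂ) : Matrix (Fin 2) (Fin 2) ℂ)
      = (k : Matrix (Fin 2) (Fin 2) ℂ).conjTranspose := by
    calc ((k⁻¹ : GL (Fin 2) ℂ) : Matrix (Fin 2) (Fin 2) ℂ)
        = ((k⁻¹ : GL (Fin 2) ℂ) : Matrix (Fin 2) (Fin 2) ℂ) *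
            ((k : Matrix (Fin 2) (Fin 2) ℂ) * (k : Matrix (Fin 2) (Fin 2) ℂ).conjTranspose) := by
          rw [hk, Matrix.mul_one]
      _ = (k : Matrix (Fin 2) (Fin 2) ℂ).conjTranspose := by
          rw [← Matrix.mul_assoc, h1, Matrix.one_mul]
  rw [h2, Matrix.conjTranspose_conjTranspose]
  exact mul_eq_one_comm.mp hk

/-- The Iwasawa formula for the convolution of two bi-invariant test functions. -/
theorem conv_iwasawaC830 {μ : @Measure (GL (Fin 2) ℂ) (borel _)} {c : ℝ}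
    (hI : ∀ F : GL (Fin 2) ℂ → ℂ, Continuous F → HasCompactSupport F →
      (∀ k g : GL (Fin 2) ℂ, InU2 k → F (g * k) = F g) →
      @integral _ _ _ _ (borel _) μ F = (c : ℂ) * ∫ ζ : ℝ, ∫ r : ℝ, ∫ w : ℂ, F (bC ζ r w))
    {Φ₁ Φ₂ : GL (Fin 2) ℂ → ℂ} (h₁ : IsArchTestC Φ₁) (h₂ : IsArchTestC Φ₂)
    (g : GL (Fin 2) ℂ) :
    @convInt _ _ (borel _) μ Φ₁ Φ₂ g
      = (c : ℂ) * ∫ a : ℝ, ∫ b : ℝ, ∫ y : ℂ, Φ₁ (bC a b y) * Φ₂ ((bC a b y)⁻¹ * g) := by
  unfold convInt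
  refine hI (fun h => Φ₁ h * Φ₂ (h⁻¹ * g)) ?_ ?_ ?_
  · exact h₁.cont.mul (h₂.cont.comp (continuous_inv.mul continuous_const))
  · exact h₁.supp.mul_right
  · intro k h hk
    have e : (h * k)⁻¹ * g = k⁻¹ * (h⁻¹ * g) := by group
    show Φ₁ (h * k) * Φ₂ ((h * k)⁻¹ * g) = Φ₁ h * Φ₂ (h⁻¹ * g)
    rw [e, h₁.right k h hk, h₂.left k⁻¹ (h⁻¹ * g) (inU2_inv830 k hk)]

/-- **ARCH-CONV, L2**: the Harish-Chandra transform of the convolution on `GL₂(ℂ)`. -/
theorem hcC_conv830 (hIC : IwasawaIntCC) (μ : @Measure (GL (Fin 2) ℂ) (borel _))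
    (hμ : @Measure.IsHaarMeasure _ _ _ (borel _) μ) :
    ∃ c : ℝ, 0 < c ∧ ∀ (Φ₁ Φ₂ : GL (Fin 2) ℂ → ℂ), IsArchTestC Φ₁ →
      IsArchTestC Φ₂ → ∀ ζ r : ℝ,
        hcC (@convInt _ _ (borel _) μ Φ₁ Φ₂) ζ r
          = (c : ℂ) * ∫ a : ℝ, ∫ b : ℝ, hcC Φ₁ a b * hcC Φ₂ (ζ - a) (r - b) := by
  obtain ⟨c, hc, hI⟩ := hIC μ hμ
  refine ⟨c, hc, fun Φ₁ Φ₂ h₁ h₂ ζ r => ?_⟩
  unfold hcC
  have e : ∀ x : ℂ, @convInt _ _ (borel _) μ Φ₁ Φ₂ (bC ζ r x)
      = (c : ℂ) * ∫ a : ℝ, ∫ b : ℝ, ∫ y : ℂ,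
          Φ₁ (bC a b y) * Φ₂ (bC (ζ - a) (r - b) (x - Real.exp (-(r - b)) • y)) := by
    intro x
    rw [conv_iwasawaC830 hI h₁ h₂]
    simp only [bC_inv_mul830]
  simp only [e]
  rw [integral_const_mul]
  congr 1
  exact iterConv830 (X := ℂ) (fun a b y => Φ₁ (bC a b y)) (fun a b y => Φ₂ (bC a b y))
    (h₁.cont.comp continuous_bC830) (h₂.cont.comp continuous_bC830)
    (bC_bounds830 h₁.supp) (bC_bounds830 h₂.supp) ζ r

end Fermat.Agent.LT.T6.H830

end
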