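import Fermat.Agent.LT.T6.H830.HCClosed
import Fermat.Agent.LT.T6.H510.SphAvgAt
import Fermat.Agent.LT.T6.H131.EisInt
import Fermat.Agent.LT.T6.H682.IwasawaIntC

/-!
# Row LT, tower T6, station T6.29 `ArchSpec`: INTEGRATION v2 (helper830)

OFF-MAIN.  All leaves of the cut are closed except the Iwasawa integration formula (T6.23):

| leaf | owner | file |
|---|---|---|
| `SphAvgAtC` | helper510@cbc35879d | `T6/H510/SphAvgAt.lean` |
| `EisIntRC` | helper131@cd50da6542 | `T6/H131/EisInt.lean` |
| `IwasawaIntCC ⟸ H189.U2HaarC + H189.IwasawaCC` | helper682@b8fd091ac | `T6/H682/IwasawaIntC.lean` |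
| the others | see `HCClosed.lean` | |

* `archSpecC_of_iwasawa830 : IwasawaIntRC → IwasawaIntCC → ArchSpecC`;
* `hcTransRC_of_iwasawa830 : IwasawaIntRC → HCTransRC` (used by the cut of T6.21);
* `archSpecC_of_189_830 : IwasawaIntRC → H189.U2HaarC → H189.IwasawaCC → ArchSpecC`.
-/

set_option autoImplicit false

noncomputable section

namespace Fermat.Agent.LT.T6.H830

open Fermat.Agent.LT.T6

/-- The real side is closed up to the Iwasawa formula. -/
theorem hcTransRC_of_iwasawa830 (hIR : IwasawaIntRC) : HCTransRC :=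
  hcTransR_of_leaves830 (H162.sphAvgOfC162 H543.cartanRC_h543 H510.sphAvgAtC_h510)
    H131.eisIntRC_h131 H309.eisIwRC309 hIR

/-- **T6.29 from the Iwasawa integration formulas.** -/
theorem archSpecC_of_iwasawa830 (hIR : IwasawaIntRC) (hIC : IwasawaIntCC) : ArchSpecC :=
  archSpecC_of_open830 hIR hIC H510.sphAvgAtC_h510 H131.eisIntRC_h131

/-- **T6.20c from the Iwasawa integration formulas.** -/
theorem specRelC626_of_iwasawa830 (hIR : IwasawaIntRC) (hIC : IwasawaIntCC) :
    H626.SpecRelC626 :=
  specRelC626_of_archSpec830 (archSpecC_of_iwasawa830 hIR hIC)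

/-- **T6.29 from the Props of T6.23** (complex side through the adapter of helper682). -/
theorem archSpecC_of_189_830 (hIR : IwasawaIntRC) (hU : H189.U2HaarC) (hIC : H189.IwasawaCC) :
    ArchSpecC :=
  archSpecC_of_iwasawa830 hIR (H682.iwasawaIntCC_of189 hU hIC)

end Fermat.Agent.LT.T6.H830

end
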