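import Fermat.Agent.LT.T6.H830.HCSpec

/-!
# Row LT, tower T6, leaf T6.29 `ArchSpec`: the formal tops and the leaf MEL-SUBST (helper830)

OFF-MAIN.  Proved here (no `sorry`):

* `melSubstC830 : MelSubstC` (the norm map on the Mellin side);
* `hcTransR_of_leaves830 : SphAvgRC → EisIntRC → EisIwRC → IwasawaIntRC → HCTransRC`;
* `archSpec_of_mid830 : HCTransRC → HCTransCC → MelSubstC → ArchSpecC`;
* `archSpec_of_leaves830` : `ArchSpecC` from the leaves of `HCSpec.lean`.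
-/

set_option autoImplicit false

open scoped Matrix
open MeasureTheory

noncomputable section

namespace Fermat.Agent.LT.T6.H830

open Fermat.Agent.LT.T6

/-- `∫ g = 2 ∫ g(2 r) dr`. -/
theorem integral_eq_two_mul830 (g : ℝ → ℂ) : (∫ r : ℝ, g r) = 2 * ∫ r : ℝ, g (2 * r) := by
  have h := MeasureTheory.Measure.integral_comp_mul_left g (2 : ℝ)
  rw [h]
  have h2 : |(2 : ℝ)⁻¹| = (2 : ℝ)⁻¹ := abs_of_pos (by norm_num)
  rw [h2, Complex.real_smul]
  push_cast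
  ring

/-- **T6.29.M.**  The norm map on the Mellin side. -/
theorem melSubstC830 : MelSubstC := by
  intro f φ κ hmatch s
  unfold melR melC
  -- substitute `ζ ↦ 2ζ`, `r ↦ 2r`
  have h1 : (∫ ζ : ℝ, ∫ r : ℝ, Complex.exp ((r : ℂ) * (s + 1 / 2)) * hcR f ζ r)
      = 2 * ∫ ζ : ℝ, ∫ r : ℝ, Complex.exp ((r : ℂ) * (s + 1 / 2)) * hcR f (2 * ζ) r :=
    integral_eq_two_mul830
      (fun ζ : ℝ => ∫ r : ℝ, Complex.exp ((r : ℂ) * (s + 1 / 2)) * hcR f ζ r)
  have h2 : ∀ ζ : ℝ, (∫ r : ℝ, Complex.exp ((r : ℂ) * (s + 1 / 2)) * hcR f (2 * ζ) r)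
      = 2 * ∫ r : ℝ, Complex.exp ((((2 * r : ℝ)) : ℂ) * (s + 1 / 2)) * hcR f (2 * ζ) (2 * r) :=
    fun ζ => integral_eq_two_mul830
      (fun r : ℝ => Complex.exp ((r : ℂ) * (s + 1 / 2)) * hcR f (2 * ζ) r)
  have h3 : ∀ ζ : ℝ,
      (∫ r : ℝ, Complex.exp ((((2 * r : ℝ)) : ℂ) * (s + 1 / 2)) * hcR f (2 * ζ) (2 * r))
        = κ * ∫ r : ℝ, Complex.exp ((r : ℂ) * (2 * s + 1)) * hcC φ ζ r := by
    intro ζ
    rw [← MeasureTheory.integral_const_mul]
    apply MeasureTheory.integral_congr_ae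
    have hne : ∀ᵐ r : ℝ, r ≠ 0 := by
      have : ({0}ᶜ : Set ℝ) ∈ MeasureTheory.ae (volume : Measure ℝ) :=
        MeasureTheory.compl_mem_ae_iff.2 (by simp)
      exact this
    filter_upwards [hne] with r hr
    rw [hmatch ζ r hr]
    have hexp : Complex.exp ((((2 * r : ℝ)) : ℂ) * (s + 1 / 2))
        = Complex.exp ((r : ℂ) * (2 * s + 1)) := by
      congr 1
      push_cast
      ring
    rw [hexp]
    ring
  rw [h1]
  simp only [h2, h3]
  rw [MeasureTheory.integral_const_mul, MeasureTheory.integral_const_mul]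
  ring

/-- The real side from its leaves. -/
theorem hcTransR_of_leaves830 (hAvg : SphAvgRC) (hInt : EisIntRC) (hIw : EisIwRC)
    (hI : IwasawaIntRC) : HCTransRC := by
  intro μ hμ
  obtain ⟨c, hc, hform⟩ := hIw hI μ hμ
  refine ⟨c, hc, ?_⟩
  intro n hn f hf s
  rw [hInt hAvg μ hμ n hn f hf s, hform n hn f hf s]

/-- T6.29 from the two middle Props and MEL-SUBST. -/
theorem archSpec_of_mid830 (hR : HCTransRC) (hC : HCTransCC) (hM : MelSubstC) : ArchSpecC := by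
  intro μ μ' hμ hμ'
  obtain ⟨cR, hcR0, hRf⟩ := hR μ hμ
  obtain ⟨cC, hcC0, hCf⟩ := hC μ' hμ'
  refine ⟨4 * cR / cC, ?_, ?_⟩
  · exact div_ne_zero (mul_ne_zero (by norm_num) hcR0) hcC0
  · intro n hn f φ hf hφ κ hmatch s
    rw [hRf n hn f hf s, hCf φ hφ (2 * s), hM f φ κ hmatch s]
    field_simp

/-- **T6.29 from the leaves.** -/
theorem archSpec_of_leaves830 (hIR : IwasawaIntRC) (hIC : IwasawaIntCC)
    (hCartR : CartanRC) (hAt : SphAvgAtC) (hAvgOf : SphAvgOfC) (hInt : EisIntRC)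
    (hIw : EisIwRC) (hCartC : CartanCC) (hWOf : WIntOfC) (hKer : SphCKernelC)
    (hTri : TriFubiniC) (hCOf : HCTransCOfC) : ArchSpecC :=
  archSpec_of_mid830
    (hcTransR_of_leaves830 (hAvgOf hCartR hAt) hInt hIw hIR)
    (hCOf hIC (hWOf hCartC) hKer hTri)
    melSubstC830

end Fermat.Agent.LT.T6.H830

end
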