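import Mathlib
import Fermat.Agent.LT.T6.Spec
import Fermat.Agent.LT.T6.SpecArch
import Fermat.Agent.LT.T6.H626.ArchCut
import Fermat.Agent.LT.T6.H189.ArchIntSpec
import Fermat.Agent.LT.T6.H634.EllCut

/-!
# Row LT, tower T6, leaf T6.20d-X `HypExplC634` (hyperbolic matching, explicit constant): THE CUT

OFF-MAIN (helper830, registry row 1634).  Definitions and `Prop`s only; nothing is assumed.
Frame (byte-identical copies): `T6/Spec.lean` v3, `T6/SpecArch.lean` (helper22),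
`T6/H626/ArchCut.lean` (helper626), `T6/H189/ArchIntSpec.lean` (helper189),
`T6/H634/EllCut.lean` (helper634: `cStar634`, `boxR634`, `boxC634`, `HypExplC634`).
The top `hypExplC634_of_leaves830` is PROVED in `HypTop.lean`.

## The mathematics

`μ|_{det>0} = c_I (iwaR)_* (du₁ du₂ dx dθ)`, `μ' = c_I' (iwaC)_* (du₁ du₂ dw dκ)` (T6.23, closed).
A regular `γ` with `disc γ > 0` is conjugate in `GL₂(ℝ)` to `γ₀ = diag(a, b)`, `a ≠ b`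
(`HypDiagC`), and the matching at `γ` follows from the matching at `γ₀` (`ConjRedC`: left
translation of `μ`, `μ'`, transport of `μT`).  At `γ₀` the centraliser `T` is the group of all
diagonal matrices and `μT = lam · Σ_{signs} (torR s)_* (du₁ du₂)` (`TorusHaarC`).  A cut-off
function `β` (`∫_T β(t x) dμT = 1`) satisfies `Σ_s ∫ β(torR s u · x) du = 1 / lam`
(`IsCutR lam β`, `CutROfC`); same upstairs (`IsCutC`, `CutCOfC`).

* REAL SIDE (`OrbRC`): for `f` continuous with compact support, invariant under the conjugation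
  by `SO(2)`: `∫ f(x⁻¹ γ₀ x) β(x) dμ = (π c_I / lam) |1 - b/a|⁻¹ ∫_ℝ f(!![a, a x; 0, b]) dx`.
  [`μ = c_I ((iwaR)_* + (epsR · iwaR)_*)` (`IwaFullRC`); `x = η d n(x) k_θ` gives
  `x⁻¹ γ₀ x = k_θ⁻¹ γ₀ n((1 - b/a) x) k_θ`; the inner integral over `(u, θ)` of `β` is `π / lam`
  because `b₊(y) + b₊(-y) = 1 / lam` and `-n(x) k_θ = n(x) k_{θ+π}` (`QuadIntRC`).]
* COMPLEX SIDE (`TwOrbCC`): for `δ = diag(α, β₁)`, `|α|² = a`, `|β₁|² = b`, `φ` continuous with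
  compact support, bi-`U(2)`-invariant:
  `∫ φ(x⁻¹ δ x̄) β'(x) dμ' = (c_I' / (4 lam)) |1 - b/a|⁻¹ ∫_ℂ φ(!![√a, √a w; 0, √b]) dw`.
  [`x = d n(w) k` gives `x⁻¹ δ x̄ = k⁻¹ δ n(w̄ - (β₁/α) w) k̄`; the `ℝ`-linear map
  `w ↦ w̄ - c w` has determinant `|c|² - 1 = b/a - 1`; `w ↦ φ(δ n(w))` is even and invariant
  under rotations; the sign matrices lie in `U(2)`: `b'(w) + b'(-w) = 1 / (2 lam)`
  (`QuadIntCC`).]
* `N δ = δ δ̄ = γ₀` forces `δ` diagonal, `a = |α|²`, `b = |β₁|²` (`NormDiagC`); `γ₀` is a norm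
  if `a, b > 0` (`NormExC`).  `a b < 0`: `f` vanishes on the orbit.  `a, b < 0`:
  `f₀(-g) = f₀(g)`, `f₁(-g) = -f₁(g)` (`NegWtC`) and `F_{f₀} = F_{f₁}`.
* `μ(boxR634) = 2π c_I`, `μ'(boxC634) = π c_I'` (`BoxRC`, `BoxCC`), so
  `cStar634 μ μ' = c_I' / (8π c_I)` and `2 · cStar · π c_I = c_I' / 4`.
-/

set_option autoImplicit false

open scoped Matrix ENNReal
open MeasureTheory

noncomputable section

namespace Fermat.Agent.LT.T6.H830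

open Fermat.Agent.LT.T6

/-! ## 1. Definitions -/

/-- The sign `-1` (`true`) or `1` (`false`). -/
def sgS (s : Bool) : ℝ := if s then -1 else 1

theorem sgS_ne_zero830 (s : Bool) : sgS s ≠ 0 := by
  cases s <;> simp [sgS]

/-- `diag(± e^{u₁}, ± e^{u₂}) ∈ GL₂(ℝ)`: the four components of the diagonal torus. -/
def torR (s₁ s₂ : Bool) (u₁ u₂ : ℝ) : GL (Fin 2) ℝ :=
  Matrix.GeneralLinearGroup.mkOfDetNeZero
    !![sgS s₁ * Real.exp u₁, 0; 0, sgS s₂ * Real.exp u₂]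
    (by
      rw [Matrix.det_fin_two_of, mul_zero, sub_zero]
      exact mul_ne_zero (mul_ne_zero (sgS_ne_zero830 _) (Real.exp_ne_zero _))
        (mul_ne_zero (sgS_ne_zero830 _) (Real.exp_ne_zero _)))

/-- `diag(± e^{u₁}, ± e^{u₂}) ∈ GL₂(ℂ)` (the image of `torR`). -/
def torC (s₁ s₂ : Bool) (u₁ u₂ : ℝ) : GL (Fin 2) ℂ :=
  Matrix.GeneralLinearGroup.mkOfDetNeZero
    !![((sgS s₁ * Real.exp u₁ : ℝ) : ℂ), 0; 0, ((sgS s₂ * Real.exp u₂ : ℝ) : ℂ)]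
    (by
      rw [Matrix.det_fin_two_of, mul_zero, sub_zero]
      exact mul_ne_zero
        (Complex.ofReal_ne_zero.2 (mul_ne_zero (sgS_ne_zero830 _) (Real.exp_ne_zero _)))
        (Complex.ofReal_ne_zero.2 (mul_ne_zero (sgS_ne_zero830 _) (Real.exp_ne_zero _))))

theorem coe_torR830 (s₁ s₂ : Bool) (u₁ u₂ : ℝ) :
    ((torR s₁ s₂ u₁ u₂ : GL (Fin 2) ℝ) : Matrix (Fin 2) (Fin 2) ℝ)
      = !![sgS s₁ * Real.exp u₁, 0; 0, sgS s₂ * Real.exp u₂] := rfl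

theorem coe_torC830 (s₁ s₂ : Bool) (u₁ u₂ : ℝ) :
    ((torC s₁ s₂ u₁ u₂ : GL (Fin 2) ℂ) : Matrix (Fin 2) (Fin 2) ℂ)
      = !![((sgS s₁ * Real.exp u₁ : ℝ) : ℂ), 0; 0, ((sgS s₂ * Real.exp u₂ : ℝ) : ℂ)] := rfl

/-- `Σ_{signs} ∫_{ℝ²} h(diag(± e^{u₁}, ± e^{u₂})) du₁ du₂` (lower integrals). -/
def torSumR (h : GL (Fin 2) ℝ → ℝ≥0∞) : ℝ≥0∞ :=
  ∑ s : Bool × Bool, ∫⁻ u : ℝ × ℝ, h (torR s.1 s.2 u.1 u.2)

/-- The same sum on `GL₂(ℂ)`. -/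
def torSumC (h : GL (Fin 2) ℂ → ℝ≥0∞) : ℝ≥0∞ :=
  ∑ s : Bool × Bool, ∫⁻ u : ℝ × ℝ, h (torC s.1 s.2 u.1 u.2)

/-- `β` is a cut-off function on `GL₂(ℝ)` for the measure `lam · Σ_s (torR s)_* du` of the
diagonal torus: `Σ_s ∫ β(torR s u · x) du = 1 / lam` for all `x`. -/
def IsCutR (lam : ℝ) (β : GL (Fin 2) ℝ → ℝ) : Prop :=
  ∀ x : GL (Fin 2) ℝ,
    torSumR (fun t => ENNReal.ofReal (β (t * x))) = ENNReal.ofReal (1 / lam)

/-- `β'` is a cut-off function on `GL₂(ℂ)` for the measure `lam · Σ_s (torR s)_* du` of the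
diagonal torus of `GL₂(ℝ)`. -/
def IsCutC (lam : ℝ) (β' : GL (Fin 2) ℂ → ℝ) : Prop :=
  ∀ x : GL (Fin 2) ℂ,
    torSumC (fun t => ENNReal.ofReal (β' (t * x))) = ENNReal.ofReal (1 / lam)

/-- `lam` is the constant of the Haar measure `μT` of the centraliser of `γ₀` (diagonal,
regular): `∫_T h dμT = lam · Σ_s ∫ h(torR s u) du` for all Borel functions `h ≥ 0`. -/
def IsTorConst (γ₀ : GL (Fin 2) ℝ)
    (μT : @Measure (twCentSub (MonoidHom.id (GL (Fin 2) ℝ)) γ₀) (borel _)) (lam : ℝ) : Prop :=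
  ∀ h : GL (Fin 2) ℝ → ℝ≥0∞, @Measurable _ _ (borel _) _ h →
    @lintegral _ (borel _) μT
        (fun t : twCentSub (MonoidHom.id (GL (Fin 2) ℝ)) γ₀ => h (t : GL (Fin 2) ℝ))
      = ENNReal.ofReal lam * torSumR h

/-- The geometric matching of `SpecArch.IsArchMatch` at ONE element `γ`. -/
def IsMatchAt (μ : @Measure (GL (Fin 2) ℝ) (borel _)) (μ' : @Measure (GL (Fin 2) ℂ) (borel _))
    (φ : GL (Fin 2) ℂ → ℂ) (f : GL (Fin 2) ℝ → ℂ) (γ : GL (Fin 2) ℝ) : Prop :=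
  ∀ μT : @Measure (twCentSub (MonoidHom.id (GL (Fin 2) ℝ)) γ) (borel _),
    @Measure.IsHaarMeasure _ _ _ (borel _) μT →
  ∀ β : GL (Fin 2) ℝ → ℝ, Continuous β → (∀ x, 0 ≤ β x) →
    (∀ x : GL (Fin 2) ℝ,
      @integral _ _ _ _ (borel _) μT
        (fun t : twCentSub (MonoidHom.id (GL (Fin 2) ℝ)) γ =>
          β ((t : GL (Fin 2) ℝ) * x)) = 1) →
    (∀ δ : GL (Fin 2) ℂ,
      twNorm (starRingAut : ℂ ≃+* ℂ) 2 δ
        = Matrix.GeneralLinearGroup.map (algebraMap ℝ ℂ) γ →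
      ∀ β' : GL (Fin 2) ℂ → ℝ, Continuous β' → (∀ x, 0 ≤ β' x) →
        (∀ x : GL (Fin 2) ℂ,
          @integral _ _ _ _ (borel _) μT
            (fun t : twCentSub (MonoidHom.id (GL (Fin 2) ℝ)) γ =>
              β' (Matrix.GeneralLinearGroup.map (algebraMap ℝ ℂ) (t : GL (Fin 2) ℝ) * x))
            = 1) →
        @integral _ _ _ _ (borel _) μ
            (fun x : GL (Fin 2) ℝ => f (x⁻¹ * γ * x) * (β x : ℂ))
          = @integral _ _ _ _ (borel _) μ'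
            (fun x : GL (Fin 2) ℂ =>
              φ (x⁻¹ * δ * glAut (starRingAut : ℂ ≃+* ℂ) x) * (β' x : ℂ))) ∧
    (¬ IsNormFrom 2 (algebraMap ℝ ℂ) (starRingAut : ℂ ≃+* ℂ) γ →
      @integral _ _ _ _ (borel _) μ
        (fun x : GL (Fin 2) ℝ => f (x⁻¹ * γ * x) * (β x : ℂ)) = 0)

/-- `IsArchMatchOn626` is the matching at every regular `γ` with `P`. -/
theorem isArchMatchOn_iff830 (P : GL (Fin 2) ℝ → Prop)
    (μ : @Measure (GL (Fin 2) ℝ) (borel _)) (μ' : @Measure (GL (Fin 2) ℂ) (borel _))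
    (φ : GL (Fin 2) ℂ → ℂ) (f : GL (Fin 2) ℝ → ℂ) :
    H626.IsArchMatchOn626 P μ μ' φ f ↔ ∀ γ : GL (Fin 2) ℝ, IsReg γ → P γ → IsMatchAt μ μ' φ f γ :=
  Iff.rfl

/-! ## 2. Linear algebra -/

/-- **T6.20d.01 HYP-DIAG** (Mathlib only): a real `2 × 2` matrix with positive discriminant is
conjugate in `GL₂(ℝ)` to a diagonal matrix with distinct entries. -/
def HypDiagC : Prop :=
  ∀ γ : GL (Fin 2) ℝ, 0 < disc γ →
    ∃ (g γ₀ : GL (Fin 2) ℝ) (a b : ℝ), a ≠ b ∧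
      (γ₀ : Matrix (Fin 2) (Fin 2) ℝ) = !![a, 0; 0, b] ∧ γ = g * γ₀ * g⁻¹

/-- **T6.20d.02 NORM-DIAG** (Mathlib only): if `δ δ̄ = diag(a, b)` with `a ≠ b` real, then `δ` is
diagonal, `δ = diag(α, β₁)`, and `a = |α|²`, `b = |β₁|²`.
(`δ̄ δ = conj(δ δ̄) = δ δ̄`, so `δ` commutes with `diag(a, b)`.) -/
def NormDiagC : Prop :=
  ∀ a b : ℝ, a ≠ b → ∀ γ₀ : GL (Fin 2) ℝ,
    (γ₀ : Matrix (Fin 2) (Fin 2) ℝ) = !![a, 0; 0, b] →
    ∀ δ : GL (Fin 2) ℂ,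
      twNorm (starRingAut : ℂ ≃+* ℂ) 2 δ = Matrix.GeneralLinearGroup.map (algebraMap ℝ ℂ) γ₀ →
      ∃ α β₁ : ℂ, (δ : Matrix (Fin 2) (Fin 2) ℂ) = !![α, 0; 0, β₁] ∧
        ‖α‖ ^ 2 = a ∧ ‖β₁‖ ^ 2 = b

/-- **T6.20d.03 NORM-EX** (Mathlib only): `diag(a, b)` with `a, b > 0` is a norm
(`δ = diag(√a, √b)`). -/
def NormExC : Prop :=
  ∀ a b : ℝ, 0 < a → 0 < b → ∀ γ₀ : GL (Fin 2) ℝ,
    (γ₀ : Matrix (Fin 2) (Fin 2) ℝ) = !![a, 0; 0, b] →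
    IsNormFrom 2 (algebraMap ℝ ℂ) (starRingAut : ℂ ≃+* ℂ) γ₀

/-- **T6.20d.04 CONJ-INV**: a test function of weight `n` is invariant under the conjugation by
`SO(2)` (`wtChar n k⁻¹ · wtChar n k = 1`). -/
def ConjInvC : Prop :=
  ∀ (n : ℤ) (f : GL (Fin 2) ℝ → ℂ), IsArchTestR n f →
    ∀ k g : GL (Fin 2) ℝ, InSO2 k → f (k⁻¹ * g * k) = f g

/-- **T6.20d.05 NEG-WT**: `f(-g) = (-1)^n f(g)` for a test function of weight `n`
(`-1 = k_π ∈ SO(2)`, `wtChar n (-1) = (-1)^n`). -/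
def NegWtC : Prop :=
  ∀ (n : ℤ) (f : GL (Fin 2) ℝ → ℂ), IsArchTestR n f →
    ∀ g g' : GL (Fin 2) ℝ,
      (g' : Matrix (Fin 2) (Fin 2) ℝ) = -(g : Matrix (Fin 2) (Fin 2) ℝ) →
      f g' = (-1 : ℂ) ^ n * f g

/-! ## 3. Reduction to the diagonal elements -/

/-- **T6.20d.06 CONJ-RED** (formal): the matching at `γ` implies the matching at `g γ g⁻¹`
(`x ↦ g x` on both groups, left invariance of `μ`, `μ'`; `μT` is transported by `t ↦ g⁻¹ t g`;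
`β ↦ β(g ·)`, `β' ↦ β'(g ·)`, `δ ↦ g⁻¹ δ g`; `IsNormFrom` is invariant under conjugation).
No hypothesis on `φ`, `f`. -/
def ConjRedC : Prop :=
  ∀ (μ : @Measure (GL (Fin 2) ℝ) (borel _)) (μ' : @Measure (GL (Fin 2) ℂ) (borel _)),
    @Measure.IsHaarMeasure _ _ _ (borel _) μ → @Measure.IsHaarMeasure _ _ _ (borel _) μ' →
    ∀ (φ : GL (Fin 2) ℂ → ℂ) (f : GL (Fin 2) ℝ → ℂ) (γ g : GL (Fin 2) ℝ),
      IsMatchAt μ μ' φ f γ → IsMatchAt μ μ' φ f (g * γ * g⁻¹)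

/-! ## 4. The torus -/

/-- **T6.20d.07 TORUS-HAAR**: a Haar measure of the centraliser of `diag(a, b)`, `a ≠ b`
(= all diagonal matrices) is `lam · Σ_s (torR s)_* (du₁ du₂)`, `lam > 0`.
(Uniqueness of the Haar measure; `(s, u) ↦ torR s u` is an isomorphism of topological groups
`{±1}² × ℝ² → T`.) -/
def TorusHaarC : Prop :=
  ∀ a b : ℝ, a ≠ b → ∀ γ₀ : GL (Fin 2) ℝ,
    (γ₀ : Matrix (Fin 2) (Fin 2) ℝ) = !![a, 0; 0, b] →
    ∀ μT : @Measure (twCentSub (MonoidHom.id (GL (Fin 2) ℝ)) γ₀) (borel _),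
      @Measure.IsHaarMeasure _ _ _ (borel _) μT →
      ∃ lam : ℝ, 0 < lam ∧ IsTorConst γ₀ μT lam

/-- **T6.20d.08 CUT-R-OF**: a cut-off function for `μT` is a cut-off function in the sense of
`IsCutR` (`h = ofReal (β (· * x))`; `β(· x)` is integrable because its integral is `1`). -/
def CutROfC : Prop :=
  ∀ (γ₀ : GL (Fin 2) ℝ)
    (μT : @Measure (twCentSub (MonoidHom.id (GL (Fin 2) ℝ)) γ₀) (borel _)) (lam : ℝ),
    0 < lam → IsTorConst γ₀ μT lam →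
    ∀ β : GL (Fin 2) ℝ → ℝ, Continuous β → (∀ x, 0 ≤ β x) →
      (∀ x : GL (Fin 2) ℝ,
        @integral _ _ _ _ (borel _) μT
          (fun t : twCentSub (MonoidHom.id (GL (Fin 2) ℝ)) γ₀ =>
            β ((t : GL (Fin 2) ℝ) * x)) = 1) →
      IsCutR lam β

/-- **T6.20d.09 CUT-C-OF**: the same upstairs (`h = ofReal (β' (map · * x))`,
`map (torR s u) = torC s u`). -/
def CutCOfC : Prop :=
  ∀ (γ₀ : GL (Fin 2) ℝ)
    (μT : @Measure (twCentSub (MonoidHom.id (GL (Fin 2) ℝ)) γ₀) (borel _)) (lam : ℝ),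
    0 < lam → IsTorConst γ₀ μT lam →
    ∀ β' : GL (Fin 2) ℂ → ℝ, Continuous β' → (∀ x, 0 ≤ β' x) →
      (∀ x : GL (Fin 2) ℂ,
        @integral _ _ _ _ (borel _) μT
          (fun t : twCentSub (MonoidHom.id (GL (Fin 2) ℝ)) γ₀ =>
            β' (Matrix.GeneralLinearGroup.map (algebraMap ℝ ℂ) (t : GL (Fin 2) ℝ) * x))
          = 1) →
      IsCutC lam β'

/-! ## 5. The real side -/

/-- **T6.20d.10 IWA-FULL-R**: the Iwasawa formula on both components of `GL₂(ℝ)`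
(`μ|_{det<0}` is the image of `μ|_{det>0}` under `g ↦ epsR * g`). -/
def IwaFullRC : Prop :=
  ∀ μ : @Measure (GL (Fin 2) ℝ) (borel _), @Measure.IsHaarMeasure _ _ _ (borel _) μ →
    ∀ c : ℝ≥0∞,
      @Measure.restrict _ (borel _) μ H189.posR
        = c • @Measure.map _ _ _ (borel _) H189.iwaR H189.iwaMR →
      μ = c • (@Measure.map _ _ _ (borel _) H189.iwaR H189.iwaMR
        + @Measure.map _ _ _ (borel _) (fun p => H189.epsR * H189.iwaR p) H189.iwaMR)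

/-- **T6.20d.11 QUAD-INT-R** (Mathlib + the definitions; Tonelli): for a cut-off function `β`
and `g` continuous with compact support on `ℝ`,
`∫ g(x) [β(d n(x) k_θ) + β(epsR d n(x) k_θ)] du₁ du₂ dx dθ = (π / lam) ∫ g(x) dx`. -/
def QuadIntRC : Prop :=
  ∀ lam : ℝ, 0 < lam → ∀ β : GL (Fin 2) ℝ → ℝ, Continuous β → (∀ x, 0 ≤ β x) →
    IsCutR lam β →
    ∀ g : ℝ → ℂ, Continuous g → HasCompactSupport g →
      Integrable (fun p : ℝ × ℝ × ℝ × ℝ => g p.2.2.1 * ((β (H189.iwaR p) : ℝ) : ℂ))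
          H189.iwaMR ∧
        Integrable (fun p : ℝ × ℝ × ℝ × ℝ =>
          g p.2.2.1 * ((β (H189.epsR * H189.iwaR p) : ℝ) : ℂ)) H189.iwaMR ∧
        (∫ p : ℝ × ℝ × ℝ × ℝ, g p.2.2.1 * ((β (H189.iwaR p) : ℝ) : ℂ) ∂H189.iwaMR)
            + (∫ p : ℝ × ℝ × ℝ × ℝ,
                g p.2.2.1 * ((β (H189.epsR * H189.iwaR p) : ℝ) : ℂ) ∂H189.iwaMR)
          = ((Real.pi / lam : ℝ) : ℂ) * ∫ x : ℝ, g x

/-- **T6.20d.12 ORB-R**: the hyperbolic orbital integral at `γ₀ = diag(a, b)`: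
`∫ f(x⁻¹ γ₀ x) β(x) dμ = (π c / lam) |1 - b/a|⁻¹ ∫_ℝ f(!![a, a x; 0, b]) dx`. -/
def OrbRC : Prop :=
  QuadIntRC →
  ∀ μ : @Measure (GL (Fin 2) ℝ) (borel _), @Measure.IsHaarMeasure _ _ _ (borel _) μ →
    ∀ c : ℝ≥0∞, c ≠ ⊤ →
      μ = c • (@Measure.map _ _ _ (borel _) H189.iwaR H189.iwaMR
        + @Measure.map _ _ _ (borel _) (fun p => H189.epsR * H189.iwaR p) H189.iwaMR) →
    ∀ lam : ℝ, 0 < lam → ∀ β : GL (Fin 2) ℝ → ℝ, Continuous β → (∀ x, 0 ≤ β x) →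
      IsCutR lam β →
    ∀ a b : ℝ, a ≠ b → ∀ γ₀ : GL (Fin 2) ℝ,
      (γ₀ : Matrix (Fin 2) (Fin 2) ℝ) = !![a, 0; 0, b] →
    ∀ f : GL (Fin 2) ℝ → ℂ, Continuous f → HasCompactSupport f →
      (∀ k g : GL (Fin 2) ℝ, InSO2 k → f (k⁻¹ * g * k) = f g) →
    ∀ nn : ℝ → GL (Fin 2) ℝ,
      (∀ x : ℝ, ((nn x : GL (Fin 2) ℝ) : Matrix (Fin 2) (Fin 2) ℝ) = !![a, a * x; 0, b]) →
      Integrable (fun x : ℝ => f (nn x)) ∧
        @integral _ _ _ _ (borel _) μ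
            (fun x : GL (Fin 2) ℝ => f (x⁻¹ * γ₀ * x) * (β x : ℂ))
          = ((Real.pi * c.toReal / lam * |1 - b / a|⁻¹ : ℝ) : ℂ) * ∫ x : ℝ, f (nn x)

/-! ## 6. The complex side -/

/-- **T6.20d.13 QUAD-INT-C** (Tonelli; the sign matrices lie in `U(2)`): for a cut-off function
`β'` and `g` continuous with compact support on `ℂ`, EVEN:
`∫ g(w) β'(d n(w) k) du₁ du₂ dw dκ = (1 / (4 lam)) ∫ g(w) dw`. -/
def QuadIntCC : Prop :=
  ∀ κ : @Measure (GL (Fin 2) ℂ) (borel _), H189.IsU2Haar κ →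
  ∀ lam : ℝ, 0 < lam → ∀ β' : GL (Fin 2) ℂ → ℝ, Continuous β' → (∀ x, 0 ≤ β' x) →
    IsCutC lam β' →
    ∀ g : ℂ → ℂ, Continuous g → HasCompactSupport g → (∀ w : ℂ, g (-w) = g w) →
      @Integrable _ _ _ _
          (@Prod.instMeasurableSpace _ _ _ (@Prod.instMeasurableSpace _ _ _
            (@Prod.instMeasurableSpace _ _ _ (borel _))))
          (fun p : ℝ × ℝ × ℂ × GL (Fin 2) ℂ => g p.2.2.1 * ((β' (H189.iwaC p) : ℝ) : ℂ))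
          (H189.iwaMC κ) ∧
        @integral _ _ _ _
            (@Prod.instMeasurableSpace _ _ _ (@Prod.instMeasurableSpace _ _ _
              (@Prod.instMeasurableSpace _ _ _ (borel _))))
            (H189.iwaMC κ)
            (fun p : ℝ × ℝ × ℂ × GL (Fin 2) ℂ => g p.2.2.1 * ((β' (H189.iwaC p) : ℝ) : ℂ))
          = ((1 / (4 * lam) : ℝ) : ℂ) * ∫ w : ℂ, g w

/-- **T6.20d.14 TW-ORB-C**: the twisted orbital integral at `δ = diag(α, β₁)`, `|α|² = a`,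
`|β₁|² = b`, `a ≠ b`:
`∫ φ(x⁻¹ δ x̄) β'(x) dμ' = (c' / (4 lam)) |1 - b/a|⁻¹ ∫_ℂ φ(!![√a, √a w; 0, √b]) dw`. -/
def TwOrbCC : Prop :=
  QuadIntCC →
  ∀ κ : @Measure (GL (Fin 2) ℂ) (borel _), H189.IsU2Haar κ →
  ∀ μ' : @Measure (GL (Fin 2) ℂ) (borel _), @Measure.IsHaarMeasure _ _ _ (borel _) μ' →
    ∀ c' : ℝ≥0∞, c' ≠ ⊤ →
      μ' = c' • @Measure.map _ _
        (@Prod.instMeasurableSpace _ _ _ (@Prod.instMeasurableSpace _ _ _
          (@Prod.instMeasurableSpace _ _ _ (borel _)))) (borel _) H189.iwaC (H189.iwaMC κ) →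
    ∀ lam : ℝ, 0 < lam → ∀ β' : GL (Fin 2) ℂ → ℝ, Continuous β' → (∀ x, 0 ≤ β' x) →
      IsCutC lam β' →
    ∀ a b : ℝ, 0 < a → 0 < b → a ≠ b → ∀ (δ : GL (Fin 2) ℂ) (α β₁ : ℂ),
      (δ : Matrix (Fin 2) (Fin 2) ℂ) = !![α, 0; 0, β₁] → ‖α‖ ^ 2 = a → ‖β₁‖ ^ 2 = b →
    ∀ φ : GL (Fin 2) ℂ → ℂ, Continuous φ → HasCompactSupport φ →
      (∀ k g : GL (Fin 2) ℂ, InU2 k → φ (k * g) = φ g) →
      (∀ k g : GL (Fin 2) ℂ, InU2 k → φ (g * k) = φ g) →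
    ∀ nn' : ℂ → GL (Fin 2) ℂ,
      (∀ w : ℂ, ((nn' w : GL (Fin 2) ℂ) : Matrix (Fin 2) (Fin 2) ℂ)
        = !![((Real.sqrt a : ℝ) : ℂ), ((Real.sqrt a : ℝ) : ℂ) * w; 0, ((Real.sqrt b : ℝ) : ℂ)]) →
      @integral _ _ _ _ (borel _) μ'
          (fun x : GL (Fin 2) ℂ =>
            φ (x⁻¹ * δ * glAut (starRingAut : ℂ ≃+* ℂ) x) * (β' x : ℂ))
        = ((c'.toReal / (4 * lam) * |1 - b / a|⁻¹ : ℝ) : ℂ) * ∫ w : ℂ, φ (nn' w)

/-! ## 7. The boxes -/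

/-- **T6.20d.15 BOX-R**: `μ (boxR634) = 2π c` (`iwaR` is injective on
`ℝ × ℝ × ℝ × (0, 2π]`; `boxR634` is compact: `rotR 0 = rotR (2π)`). -/
def BoxRC : Prop :=
  ∀ μ : @Measure (GL (Fin 2) ℝ) (borel _), @Measure.IsHaarMeasure _ _ _ (borel _) μ →
    ∀ c : ℝ≥0∞,
      @Measure.restrict _ (borel _) μ H189.posR
        = c • @Measure.map _ _ _ (borel _) H189.iwaR H189.iwaMR →
      μ H634.boxR634 = c * ENNReal.ofReal (2 * Real.pi)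

/-- **T6.20d.16 BOX-C**: `μ' (boxC634) = π c'` (`iwaC` is injective on `ℝ × ℝ × ℂ × U(2)`,
`κ (U2) = 1`, the unit disc has area `π`). -/
def BoxCC : Prop :=
  ∀ κ : @Measure (GL (Fin 2) ℂ) (borel _), H189.IsU2Haar κ →
  ∀ μ' : @Measure (GL (Fin 2) ℂ) (borel _), @Measure.IsHaarMeasure _ _ _ (borel _) μ' →
    ∀ c' : ℝ≥0∞,
      μ' = c' • @Measure.map _ _
        (@Prod.instMeasurableSpace _ _ _ (@Prod.instMeasurableSpace _ _ _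
          (@Prod.instMeasurableSpace _ _ _ (borel _)))) (borel _) H189.iwaC (H189.iwaMC κ) →
      μ' H634.boxC634 = c' * ENNReal.ofReal Real.pi

end Fermat.Agent.LT.T6.H830

end
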